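import Fermat.Agent.Galois.Chebotarev.ClassTerms

/-!
# Translates of sums over ideals differ by continuous functions
-/

set_option autoImplicit false

open scoped NumberField Topology nonZeroDivisors Classical
open NumberField NumberField.mixedEmbedding NumberField.Units Filter Finset

namespace FermatLib.Galois.Chebotarev

variable (K : Type*) [Field K] [NumberField K] {m : ℕ} [NeZero m]

section Translate

variable {K}

lemma norm_add_mul_modEq (M : ℕ) (x o : 𝓞 K) :
    ((Algebra.norm ℤ (x + (M : 𝓞 K) * o) : ℤ) : ZMod M) = ((Algebra.norm ℤ x : ℤ) : ZMod M) := by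
  rw [Algebra.norm_eq_matrix_det (RingOfIntegers.basis K),
    Algebra.norm_eq_matrix_det (RingOfIntegers.basis K), ← eq_intCast (Int.castRingHom (ZMod M)),
    ← eq_intCast (Int.castRingHom (ZMod M)), RingHom.map_det,
    RingHom.map_det]
  congr 1
  ext i j
  rw [← nsmul_eq_mul, map_add, map_nsmul]
  simp only [RingHom.mapMatrix_apply, Matrix.map_apply, Matrix.add_apply, Matrix.smul_apply,
    map_add, map_nsmul]
  simp

lemma elemTerm_translate_eq (ψ : DirichletCharacter ℂ m) {J : Ideal (𝓞 K)} {x z o : 𝓞 K}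
    (hz : z = (↑(m * Ideal.absNorm J) : 𝓞 K) * o) (hx : x ∈ J) (hJ : Ideal.absNorm J ≠ 0)
    (hseg : ∀ t ∈ Set.Icc (0 : ℝ) 1,
      mixedEmbedding.norm (mixedEmbedding K (x : K) + t • mixedEmbedding K (z : K)) ≠ 0) :
    ψ ((Ideal.absNorm (Ideal.span {x + z}) / Ideal.absNorm J : ℕ) : ZMod m) =
      ψ ((Ideal.absNorm (Ideal.span {x}) / Ideal.absNorm J : ℕ) : ZMod m) := by
  congr 1
  set NJ := Ideal.absNorm J with hNJ
  have hzJ : z ∈ J := by
    rw [hz, Nat.cast_mul, mul_assoc, mul_left_comm]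
    exact Ideal.mul_mem_right _ _ (Ideal.absNorm_mem J)
  obtain ⟨a, ha⟩ : NJ ∣ Ideal.absNorm (Ideal.span {x + z}) :=
    Ideal.absNorm_dvd_absNorm_of_le ((Ideal.span_singleton_le_iff_mem J).mpr (J.add_mem hx hzJ))
  obtain ⟨b, hb⟩ : NJ ∣ Ideal.absNorm (Ideal.span {x}) :=
    Ideal.absNorm_dvd_absNorm_of_le ((Ideal.span_singleton_le_iff_mem J).mpr hx)
  rw [ha, hb, Nat.mul_div_cancel_left _ (Nat.pos_of_ne_zero hJ),
    Nat.mul_div_cancel_left _ (Nat.pos_of_ne_zero hJ)]
  rw [Ideal.absNorm_span_singleton] at ha hb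
  obtain ⟨k, hk⟩ := (ZMod.intCast_eq_intCast_iff_dvd_sub _ _ _).mp
    (norm_add_mul_modEq (m * NJ) x o).symm
  rw [← hz] at hk
  have hsign := algebraNorm_pos_iff K hseg
  rw [algebraNorm_mixedEmbedding, ← map_add, algebraNorm_mixedEmbedding] at hsign
  have hcx : (Algebra.norm ℚ (x : K) : ℚ) = ((Algebra.norm ℤ x : ℤ) : ℚ) :=
    (Algebra.coe_norm_int x).symm
  have hcy : (Algebra.norm ℚ ((x : K) + (z : K)) : ℚ) = ((Algebra.norm ℤ (x + z) : ℤ) : ℚ) :=
    (Algebra.coe_norm_int (x + z)).symm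
  rw [hcx, hcy, Rat.cast_intCast, Rat.cast_intCast, Int.cast_pos, Int.cast_pos] at hsign
  have hax := Int.natCast_natAbs (Algebra.norm ℤ x)
  have hay := Int.natCast_natAbs (Algebra.norm ℤ (x + z))
  rw [ha] at hay
  rw [hb] at hax
  push_cast at hax hay hk
  have hNJ0 : (NJ : ℤ) ≠ 0 := by exact_mod_cast hJ
  rw [← Int.cast_natCast (R := ZMod m) a, ← Int.cast_natCast (R := ZMod m) b,
    ZMod.intCast_eq_intCast_iff_dvd_sub]
  by_cases hp : 0 < Algebra.norm ℤ x
  · rw [abs_of_pos hp] at hax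
    rw [abs_of_pos (hsign.mp hp)] at hay
    exact ⟨-k, mul_left_cancel₀ hNJ0 (by rw [mul_sub]; linear_combination hax - hay - hk)⟩
  · rw [abs_of_nonpos (not_lt.mp hp)] at hax
    rw [abs_of_nonpos (not_lt.mp fun h => hp (hsign.mpr h))] at hay
    exact ⟨k, mul_left_cancel₀ hNJ0 (by rw [mul_sub]; linear_combination hax - hay + hk)⟩

lemma continuousOn_weightRpow (y : mixedSpace K) :
    ContinuousOn (fun s : ℝ => weightRpow K s y) (Set.Icc 1 2) := by
  rcases eq_or_ne (mixedEmbedding.norm y) 0 with h | h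
  · simp [weightRpow, weight, h, continuousOn_const]
  · exact continuousOn_const.mul ((continuous_const.rpow continuous_neg fun _ => Or.inl h)).continuousOn

lemma weightRpow_le_bound {s : ℝ} (hs : s ∈ Set.Icc (1 : ℝ) 2) (y : mixedSpace K) :
    weightRpow K s y ≤ mixedEmbedding.norm y ^ (-(1 : ℝ)) + mixedEmbedding.norm y ^ (-(2 : ℝ)) := by
  have h0 := mixedEmbedding.norm_nonneg y
  refine (mul_le_of_le_one_left (Real.rpow_nonneg h0 _) (weight_le_one K y)).trans ?_
  have h1 : 0 ≤ mixedEmbedding.norm y ^ (-(1 : ℝ)) := Real.rpow_nonneg h0 _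
  have h2 : 0 ≤ mixedEmbedding.norm y ^ (-(2 : ℝ)) := Real.rpow_nonneg h0 _
  rcases h0.eq_or_lt with h | h
  · rw [← h, Real.zero_rpow (by linarith [hs.1] : -s ≠ 0)]
    positivity
  rcases le_total 1 (mixedEmbedding.norm y) with h' | h'
  · have := Real.rpow_le_rpow_of_exponent_le h' (neg_le_neg hs.1)
    linarith
  · have := Real.rpow_le_rpow_of_exponent_ge h h' (neg_le_neg hs.2)
    linarith

/-- The difference of the sums over `B` and its translate is continuous up to `s = 1`. -/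
lemma continuousOn_tsum_translate_sub (ψ : DirichletCharacter ℂ m) {J B : Ideal (𝓞 K)}
    (hBJ : B ≤ J) (hJ : Ideal.absNorm J ≠ 0) (o : 𝓞 K) :
    ContinuousOn (fun s : ℝ => ∑' x : B, (elemTerm ψ (Ideal.absNorm J) s (x : 𝓞 K) -
      elemTerm ψ (Ideal.absNorm J) s ((x : 𝓞 K) + (↑(m * Ideal.absNorm J) : 𝓞 K) * o)))
      (Set.Icc 1 2) := by
  set z : 𝓞 K := (↑(m * Ideal.absNorm J) : 𝓞 K) * o with hz
  set NJ := Ideal.absNorm J
  obtain ⟨C, R, hC, hR, hest⟩ := exists_weightRpow_sub_le K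
  set v := mixedEmbedding K (z : K) with hv
  let big : 𝓞 K → Prop := fun x => R * (‖v‖ + 1) ≤ ‖mixedEmbedding K (x : K)‖
  let bd : mixedSpace K → ℝ := fun y =>
    mixedEmbedding.norm y ^ (-(1 : ℝ)) + mixedEmbedding.norm y ^ (-(2 : ℝ))
  let u : 𝓞 K → ℝ := fun x =>
    if big x then C * ‖v‖ * ‖mixedEmbedding K (x : K)‖ ^ (-((Module.finrank ℚ K : ℝ) + 1))
    else bd (mixedEmbedding K (x : K)) + bd (mixedEmbedding K ((x + z : 𝓞 K) : K))
  have hbd : ∀ y, 0 ≤ bd y := fun y => add_nonneg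
    (Real.rpow_nonneg (mixedEmbedding.norm_nonneg y) _) (Real.rpow_nonneg (mixedEmbedding.norm_nonneg y) _)
  have hu : Summable u := by
    refine Summable.of_norm_bounded_eventually
      ((summable_norm_rpow_elems (K := K) (r := -((Module.finrank ℚ K : ℝ) + 1))
        (by linarith)).mul_left (C * ‖v‖)) ?_
    rw [Filter.eventually_cofinite]
    refine (finite_norm_lt (K := K) (R * (‖v‖ + 1))).subset fun x hx => ?_
    by_contra hb
    simp only [Set.mem_ofPred_eq, not_lt] at hb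
    refine hx ?_
    rw [show u x = C * ‖v‖ * ‖mixedEmbedding K (x : K)‖ ^ (-((Module.finrank ℚ K : ℝ) + 1)) from
      if_pos hb, Real.norm_eq_abs, abs_of_nonneg (by positivity)]
  refine continuousOn_tsum (u := fun x : B => u x) (fun x => ?_)
    (hu.comp_injective Subtype.val_injective) fun x s hs => ?_
  · exact (continuousOn_const.mul (Complex.continuous_ofReal.comp_continuousOn
      (continuousOn_weightRpow _))).sub (continuousOn_const.mul
      (Complex.continuous_ofReal.comp_continuousOn (continuousOn_weightRpow _)))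
  · have hsum : mixedEmbedding K (((x : 𝓞 K) + z : 𝓞 K) : K) =
        mixedEmbedding K ((x : 𝓞 K) : K) + v := by rw [hv, ← map_add]; rfl
    by_cases hb : big (x : 𝓞 K)
    · rw [show u x = C * ‖v‖ *
        ‖mixedEmbedding K ((x : 𝓞 K) : K)‖ ^ (-((Module.finrank ℚ K : ℝ) + 1)) from if_pos hb]
      by_cases hw : weight K (mixedEmbedding K ((x : 𝓞 K) : K)) ≠ 0 ∨
          weight K (mixedEmbedding K ((x : 𝓞 K) : K) + v) ≠ 0
      · obtain ⟨h1, h2⟩ := hest s hs.1 hs.2 _ v hw hb
        have hψ := elemTerm_translate_eq ψ hz (hBJ x.2) hJ h2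
        rw [elemTerm, elemTerm, hψ, ← mul_sub, norm_mul, ← Complex.ofReal_sub, Complex.norm_real,
          Real.norm_eq_abs, abs_sub_comm, hsum]
        refine (mul_le_of_le_one_left (abs_nonneg _) (ψ.norm_le_one _)).trans (h1.trans_eq ?_)
        rw [Real.rpow_neg (norm_nonneg _), ← Nat.cast_add_one, Real.rpow_natCast]
      · push Not at hw
        rw [elemTerm, elemTerm, weightRpow, weightRpow, hsum, hw.1, hw.2]
        simp
        positivity
    · rw [show u x = bd (mixedEmbedding K ((x : 𝓞 K) : K)) +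
          bd (mixedEmbedding K (((x : 𝓞 K) + z : 𝓞 K) : K)) from if_neg hb]
      exact (norm_sub_le _ _).trans (add_le_add
        ((norm_elemTerm_le ψ NJ s _).trans (weightRpow_le_bound hs _))
        ((norm_elemTerm_le ψ NJ s _).trans (weightRpow_le_bound hs _)))

/-- Splitting the sum over `J` into translates of `J * P`. -/
lemma tsum_elems_eq_sum_translate (ψ : DirichletCharacter ℂ m) {J P : Ideal (𝓞 K)}
    (hP : P.IsMaximal) [Fintype (𝓞 K ⧸ P)]
    (hM : (↑(m * Ideal.absNorm J) : 𝓞 K) ∉ P) {s : ℝ} (hs : 1 < s) :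
    ∑' x : J, elemTerm ψ (Ideal.absNorm J) s (x : 𝓞 K) =
      ∑ k : 𝓞 K ⧸ P, ∑' x : (J * P : Ideal (𝓞 K)), elemTerm ψ (Ideal.absNorm J) s
        ((x : 𝓞 K) + (↑(m * Ideal.absNorm J) : 𝓞 K) * Quotient.out k) := by
  set M : 𝓞 K := (↑(m * Ideal.absNorm J) : 𝓞 K) with hMdef
  have hMJ : M ∈ J := by
    rw [hMdef, Nat.cast_mul]
    exact Ideal.mul_mem_left _ _ (Ideal.absNorm_mem J)
  have hJP : ¬ J ≤ P := fun h => hM (h hMJ)
  have hinf : J * P = J ⊓ P := Ideal.mul_eq_inf_of_isCoprime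
    (Ideal.isCoprime_iff_sup_eq.mpr
      (hP.out.2 _ (lt_of_le_of_ne le_sup_right fun h => hJP (h ▸ le_sup_left))))
  have hleJ : J * P ≤ J := Ideal.mul_le_left
  have hmem : ∀ (k : 𝓞 K ⧸ P) (x : (J * P : Ideal (𝓞 K))),
      (x : 𝓞 K) + M * Quotient.out k ∈ J := fun k x =>
    Ideal.add_mem J (SetLike.le_def.mp hleJ x.2) (Ideal.mul_mem_right _ J hMJ)
  let e : (𝓞 K ⧸ P) × (J * P : Ideal (𝓞 K)) → J := fun kx => ⟨_, hmem kx.1 kx.2⟩
  have he : Function.Bijective e := by
    constructor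
    · rintro ⟨k, x⟩ ⟨k', x'⟩ h
      have h' : (x : 𝓞 K) + M * Quotient.out k = (x' : 𝓞 K) + M * Quotient.out k' :=
        congrArg Subtype.val h
      have hmem : M * (Quotient.out k - Quotient.out k') ∈ P := by
        rw [show M * (Quotient.out k - Quotient.out k') = (x' : 𝓞 K) - (x : 𝓞 K) by
          linear_combination h']
        exact Ideal.sub_mem P (SetLike.le_def.mp (Ideal.mul_le_right (I := J) (J := P)) x'.2)
          (SetLike.le_def.mp (Ideal.mul_le_right (I := J) (J := P)) x.2)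
      have hk : k = k' := by
        rw [← Quotient.out_eq k, ← Quotient.out_eq k']
        exact Ideal.Quotient.eq.mpr ((hP.isPrime.mem_or_mem hmem).resolve_left hM)
      subst hk
      exact Prod.ext rfl (Subtype.ext (add_right_cancel h'))
    · intro y
      obtain ⟨b, hb⟩ : ∃ b : 𝓞 K ⧸ P, Ideal.Quotient.mk P M * b = Ideal.Quotient.mk P (y : 𝓞 K) := by
        let _ := Ideal.Quotient.field P
        refine ⟨(Ideal.Quotient.mk P M)⁻¹ * Ideal.Quotient.mk P (y : 𝓞 K), ?_⟩
        rw [← mul_assoc, mul_inv_cancel₀ fun h => hM (Ideal.Quotient.eq_zero_iff_mem.mp h), one_mul]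
      have hdiff : (y : 𝓞 K) - M * Quotient.out b ∈ J * P := by
        rw [hinf]
        refine ⟨J.sub_mem y.2 (J.mul_mem_right _ hMJ), Ideal.Quotient.eq.mp ?_⟩
        rw [map_mul, show Ideal.Quotient.mk P (Quotient.out b) = b from Quotient.out_eq b, hb]
      exact ⟨(b, ⟨_, hdiff⟩), Subtype.ext (sub_add_cancel _ _)⟩
  rw [← (Equiv.ofBijective e he).tsum_eq, Summable.tsum_prod, tsum_fintype]
  · rfl
  · exact ((summable_elemTerm ψ _ hs).comp_injective
      (Subtype.val_injective.comp he.injective))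

end Translate


end FermatLib.Galois.Chebotarev
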