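import Fermat.Agent.Galois.Chebotarev.ClassDecomp
import Fermat.Agent.Galois.Chebotarev.Translate

/-!
# Twisted zeta sums of a number field are bounded near `s = 1`

For a Dirichlet character `ψ` the sum of `ψ (N I) N I ^ (-s)` over the ideals `I`, times
`ψ p p ^ (1 - s) - 1` for a degree one prime over `p`, extends continuously to `s = 1`.
-/

set_option autoImplicit false

open scoped NumberField Topology nonZeroDivisors Classical
open NumberField NumberField.mixedEmbedding NumberField.Units Filter Finset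

namespace FermatLib.Galois.Chebotarev

variable (K : Type*) [Field K] [NumberField K] {m : ℕ} [NeZero m]

lemma translate_algebra {t N N' a p q X Y : ℂ} (ht : t ≠ 0) (h : N * N' = 1) :
    a * p * q * X - Y = t⁻¹ * (N * (p * (t * a * (N' * q) * X) - t * N' * Y)) := by
  rw [← one_mul (a * p * q * X - Y), ← h]
  field_simp

/-- `(ψ p p ^ (1 - s) - 1)` times the twisted zeta sum extends continuously to `s = 1`, for a
degree one prime over `p` outside a finite set. -/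
theorem exists_finset_continuousOn (ψ : DirichletCharacter ℂ m) :
    ∃ S : Finset ℕ, ∀ p : ℕ, p.Prime → p ∉ S →
      ∀ P : Ideal (𝓞 K), Ideal.absNorm P = p →
      ∃ E : ℝ → ℂ, ContinuousOn E (Set.Icc 1 2) ∧ ∀ s ∈ Set.Ioc (1 : ℝ) 2,
        (ψ (p : ZMod m) * (((p : ℝ) ^ (1 - s) : ℝ) : ℂ) - 1) * twistedZeta K ψ s = E s := by
  refine ⟨Finset.univ.biUnion fun C : ClassGroup (𝓞 K) =>
    (m * Ideal.absNorm (classRep K C : Ideal (𝓞 K))).primeFactors, fun p hp hpS P hPp => ?_⟩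
  have hPprime := Density.prime_of_absNorm_prime K (hPp ▸ hp : (Ideal.absNorm P).Prime)
  have hP0 : P ≠ ⊥ := hPprime.ne_zero
  have hPmax : P.IsMaximal := (Ideal.isPrime_of_prime hPprime).isMaximal hP0
  have : Finite (𝓞 K ⧸ P) := Ideal.finiteQuotientOfFreeOfNeBot P hP0
  cases nonempty_fintype (𝓞 K ⧸ P)
  have hcard : Fintype.card (𝓞 K ⧸ P) = p := by
    rw [← hPp, Ideal.absNorm_apply, Submodule.cardQuot_apply, Nat.card_eq_fintype_card]
  have hNJ : ∀ C, Ideal.absNorm (classRep K C : Ideal (𝓞 K)) ≠ 0 := fun C h =>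
    nonZeroDivisors.coe_ne_zero (classRep K C) (Ideal.absNorm_eq_zero_iff.mp h)
  have hM : ∀ C, (↑(m * Ideal.absNorm (classRep K C : Ideal (𝓞 K))) : 𝓞 K) ∉ P := by
    intro C hmem
    have hnd : ¬ p ∣ m * Ideal.absNorm (classRep K C : Ideal (𝓞 K)) := fun h =>
      hpS (Finset.mem_biUnion.mpr ⟨C, Finset.mem_univ _, Nat.mem_primeFactors.mpr
        ⟨hp, h, mul_ne_zero (NeZero.ne m) (hNJ C)⟩⟩)
    obtain ⟨a, b, hab⟩ := Int.isCoprime_iff_gcd_eq_one.mpr
      ((Int.gcd_natCast_natCast _ _).trans ((hp.coprime_iff_not_dvd).mpr hnd))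
    have h1 := congrArg (fun n : ℤ => (n : 𝓞 K)) hab
    push_cast at h1
    refine hPmax.ne_top ((Ideal.eq_top_iff_one _).mpr (h1 ▸ ?_))
    exact P.add_mem (P.mul_mem_left _ (by have := Ideal.absNorm_mem P; rwa [hPp] at this))
      (P.mul_mem_left _ (by exact_mod_cast hmem))
  let J : ClassGroup (𝓞 K) → Ideal (𝓞 K) := fun C => (classRep K C : Ideal (𝓞 K))
  let E : ℝ → ℂ := fun s => (torsionOrder K : ℂ)⁻¹ * ∑ C : ClassGroup (𝓞 K),
    (((Ideal.absNorm (J C) : ℝ) ^ s : ℝ) : ℂ) * ∑ k : 𝓞 K ⧸ P, ∑' x : (J C * P : Ideal (𝓞 K)),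
      (elemTerm ψ (Ideal.absNorm (J C)) s (x : 𝓞 K) - elemTerm ψ (Ideal.absNorm (J C)) s
        ((x : 𝓞 K) + (↑(m * Ideal.absNorm (J C)) : 𝓞 K) * Quotient.out k))
  refine ⟨E, continuousOn_const.mul (continuousOn_finsetSum _ fun C _ => ?_), fun s hs => ?_⟩
  · refine (Complex.continuous_ofReal.comp_continuousOn
      (continuous_const.rpow continuous_id fun _ => Or.inl (Nat.cast_ne_zero.mpr (hNJ C))).continuousOn).mul
      (continuousOn_finsetSum _ fun k _ => ?_)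
    exact continuousOn_tsum_translate_sub ψ Ideal.mul_le_left (hNJ C) _
  · have hs1 : (1 : ℝ) < s := hs.1
    let P' : (Ideal (𝓞 K))⁰ := ⟨P, mem_nonZeroDivisors_of_ne_zero hP0⟩
    have hC : ∀ C : ClassGroup (𝓞 K),
        ∑ k : 𝓞 K ⧸ P, ∑' x : (J C * P : Ideal (𝓞 K)),
          (elemTerm ψ (Ideal.absNorm (J C)) s (x : 𝓞 K) - elemTerm ψ (Ideal.absNorm (J C)) s
            ((x : 𝓞 K) + (↑(m * Ideal.absNorm (J C)) : 𝓞 K) * Quotient.out k)) =
          (p : ℂ) * ∑' x : (J C * P : Ideal (𝓞 K)), elemTerm ψ (Ideal.absNorm (J C)) s (x : 𝓞 K) -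
            ∑' x : J C, elemTerm ψ (Ideal.absNorm (J C)) s (x : 𝓞 K) := by
      intro C
      have hs₁ : Summable fun x : (J C * P : Ideal (𝓞 K)) =>
          elemTerm ψ (Ideal.absNorm (J C)) s (x : 𝓞 K) :=
        (summable_elemTerm ψ _ hs1).comp_injective Subtype.val_injective
      have hs₂ : ∀ z : 𝓞 K, Summable fun x : (J C * P : Ideal (𝓞 K)) =>
          elemTerm ψ (Ideal.absNorm (J C)) s ((x : 𝓞 K) + z) := fun z =>
        (summable_elemTerm ψ _ hs1).comp_injective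
          ((add_left_injective z).comp Subtype.val_injective)
      rw [Finset.sum_congr rfl fun k _ => hs₁.tsum_sub (hs₂ _), Finset.sum_sub_distrib,
        Finset.sum_const, Finset.card_univ, hcard, nsmul_eq_mul,
        ← tsum_elems_eq_sum_translate ψ hPmax (hM C) hs1]
    have h1 : ∀ C : ClassGroup (𝓞 K),
        ∑' x : (J C * P : Ideal (𝓞 K)), elemTerm ψ (Ideal.absNorm (J C)) s (x : 𝓞 K) = _ :=
      fun C => tsum_elemTerm ψ (classRep K C) P' hs1
    have h2 : ∀ C : ClassGroup (𝓞 K),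
        ∑' x : J C, elemTerm ψ (Ideal.absNorm (J C)) s (x : 𝓞 K) =
        (torsionOrder K : ℂ) * (((Ideal.absNorm (J C) : ℝ) ^ (-s) : ℝ) : ℂ) *
          ∑' I : Ideal (𝓞 K), if I ≠ ⊥ ∧ (I * (J C * ⊤)).IsPrincipal then idealTerm ψ s I else 0 := by
      intro C
      have h := tsum_elemTerm ψ (classRep K C) (1 : (Ideal (𝓞 K))⁰) hs1
      have hB : ∀ B : Ideal (𝓞 K), B = J C →
          ∑' x : B, elemTerm ψ (Ideal.absNorm (J C)) s (x : 𝓞 K) =
            ∑' x : J C, elemTerm ψ (Ideal.absNorm (J C)) s (x : 𝓞 K) := by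
        rintro B rfl
        rfl
      rw [hB _ (by simp [J])] at h
      simpa [J, Ideal.one_eq_top] using h
    have hEs : E s = (torsionOrder K : ℂ)⁻¹ * ∑ C : ClassGroup (𝓞 K),
        (((Ideal.absNorm (J C) : ℝ) ^ s : ℝ) : ℂ) *
          ((p : ℂ) * ∑' x : (J C * P : Ideal (𝓞 K)), elemTerm ψ (Ideal.absNorm (J C)) s (x : 𝓞 K) -
            ∑' x : J C, elemTerm ψ (Ideal.absNorm (J C)) s (x : 𝓞 K)) := by
      show _ * _ = _
      rw [Finset.sum_congr rfl fun C _ => by rw [hC C]]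
    rw [hEs, Finset.sum_congr rfl fun C _ => by rw [h1 C, h2 C]]
    simp only [map_mul, Nat.cast_mul, hPp, P']
    have hstep : ∀ C : ClassGroup (𝓞 K), (((Ideal.absNorm (J C) : ℝ) ^ s : ℝ) : ℂ) *
        (((Ideal.absNorm (J C) : ℝ) ^ (-s) : ℝ) : ℂ) = 1 := fun C => by
      rw [← Complex.ofReal_mul, ← Real.rpow_add
        (Nat.cast_pos.mpr (Nat.pos_of_ne_zero (hNJ C))), add_neg_cancel, Real.rpow_zero,
        Complex.ofReal_one]
    have hp' : (((p : ℝ) ^ (1 - s) : ℝ) : ℂ) = (p : ℂ) * (((p : ℝ) ^ (-s) : ℝ) : ℂ) := by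
      rw [sub_eq_add_neg, Real.rpow_add (Nat.cast_pos.mpr hp.pos), Real.rpow_one,
        Complex.ofReal_mul, Complex.ofReal_natCast]
    have hA := sum_classes ψ P' hs1
    have hB := sum_classes (K := K) ψ (1 : (Ideal (𝓞 K))⁰) hs1
    simp only [OneMemClass.coe_one, Ideal.one_eq_top] at hB
    simp only [P'] at hA
    set t : ℂ := (torsionOrder K : ℂ)
    have ht : t ≠ 0 := Nat.cast_ne_zero.mpr (torsionOrder_pos K).ne'
    calc (ψ (p : ZMod m) * (((p : ℝ) ^ (1 - s) : ℝ) : ℂ) - 1) * twistedZeta K ψ s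
        = ψ (p : ZMod m) * (p : ℂ) * (((p : ℝ) ^ (-s) : ℝ) : ℂ) * twistedZeta K ψ s -
            twistedZeta K ψ s := by rw [hp']; ring
      _ = _ := by
        nth_rewrite 1 [← hA]
        rw [← hB, Finset.mul_sum, ← Finset.sum_sub_distrib, Finset.mul_sum]
        refine Finset.sum_congr rfl fun C _ => ?_
        simp only [J, Real.mul_rpow (Nat.cast_nonneg _) (Nat.cast_nonneg _), Complex.ofReal_mul]
        exact translate_algebra ht (hstep C)

/-- The twisted zeta sum has a limit at `s = 1` if the character is nontrivial at infinitely many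
degree one primes. -/
theorem exists_tendsto_twistedZeta (ψ : DirichletCharacter ℂ m)
    (hψ : ∀ S : Finset ℕ, ∃ p : ℕ, p.Prime ∧ p ∉ S ∧
      (∃ P : Ideal (𝓞 K), Ideal.absNorm P = p) ∧ ψ (p : ZMod m) ≠ 1) :
    ∃ l : ℂ, Tendsto (twistedZeta K ψ) (𝓝[>] 1) (𝓝 l) := by
  obtain ⟨S, hS⟩ := exists_finset_continuousOn K ψ
  obtain ⟨p, hp, hpS, ⟨P, hP⟩, hne⟩ := hψ S
  obtain ⟨E, hE, hEq⟩ := hS p hp hpS P hP
  set f : ℝ → ℂ := fun s => ψ (p : ZMod m) * (((p : ℝ) ^ (1 - s) : ℝ) : ℂ) - 1 with hf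
  have hfc : Continuous f := (continuous_const.mul (Complex.continuous_ofReal.comp
    (continuous_const.rpow (continuous_const.sub continuous_id)
      fun _ => Or.inl (Nat.cast_ne_zero.mpr hp.ne_zero)))).sub continuous_const
  have hf1 : f 1 ≠ 0 := by
    simpa [hf, sub_ne_zero] using hne
  have hE1 : Tendsto E (𝓝[>] 1) (𝓝 (E 1)) :=
    ((hE 1 ⟨le_rfl, one_le_two⟩).mono_of_mem_nhdsWithin (Icc_mem_nhdsGT one_lt_two)).tendsto
  refine ⟨E 1 / f 1, (hE1.div ((hfc.tendsto 1).mono_left nhdsWithin_le_nhds) hf1).congr' ?_⟩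
  filter_upwards [Ioc_mem_nhdsGT one_lt_two,
    ((hfc.tendsto 1).mono_left nhdsWithin_le_nhds).eventually_ne hf1] with s hs hs0
  show E s / f s = _
  rw [← hEq s hs, mul_div_cancel_left₀ _ hs0]

end FermatLib.Galois.Chebotarev
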