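import Fermat.Agent.Galois.Density.Finite
import Mathlib.Analysis.Complex.Basic

/-!
# Primes weighted by their Frobenius elements
-/

set_option autoImplicit false

open scoped NumberField Topology Pointwise Classical
open NumberField Filter Finset

namespace FermatLib.Galois.Chebotarev

variable (M : Type*) [Field M] [NumberField M]

/-- The primes over `p` with trivial inertia and Frobenius element `g`, each weighted by the order
of its decomposition group. -/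
noncomputable def frobWeight (g : M ≃ₐ[ℚ] M) (p : Nat.Primes) : ℕ :=
  ∑ Q ∈ (Density.primesAt_finite M p.2).toFinset with
    Q.inertia (M ≃ₐ[ℚ] M) = ⊥ ∧ IsArithFrobAt ℤ g Q,
    Nat.card (MulAction.stabilizer (M ≃ₐ[ℚ] M) Q)

/-- The weighted prime sum of a Frobenius element. -/
noncomputable def frobSum (g : M ≃ₐ[ℚ] M) (s : ℝ) : ℝ :=
  ∑' p : Nat.Primes, (frobWeight M g p : ℝ) * ((p : ℕ) : ℝ) ^ (-s)

variable {M}

lemma mem_primesAt {p : Nat.Primes} {Q : Ideal (𝓞 M)} :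
    Q ∈ (Density.primesAt_finite M p.2).toFinset ↔ Q.IsPrime ∧ ((p : ℕ) : 𝓞 M) ∈ Q :=
  Set.Finite.mem_toFinset _

lemma frobWeight_le (g : M ≃ₐ[ℚ] M) (p : Nat.Primes) :
    frobWeight M g p ≤ Module.finrank ℚ M * Nat.card (M ≃ₐ[ℚ] M) := by
  refine (Finset.sum_le_card_nsmul _ _ (Nat.card (M ≃ₐ[ℚ] M)) fun Q _ =>
    Subgroup.card_le_card_group _).trans ?_
  rw [smul_eq_mul]
  refine Nat.mul_le_mul_right _ (Density.card_le_finrank_of_mem M p.2 _ fun Q hQ => ?_)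
  obtain ⟨hQp, hpQ⟩ := mem_primesAt.mp (Finset.mem_filter.mp hQ).1
  exact ⟨Ideal.prime_of_isPrime (Density.ne_bot_of_natCast_mem M p.2 hpQ) hQp, hpQ⟩

lemma summable_frobTerm (g : M ≃ₐ[ℚ] M) {s : ℝ} (hs : 1 < s) :
    Summable fun p : Nat.Primes => (frobWeight M g p : ℝ) * ((p : ℕ) : ℝ) ^ (-s) :=
  Summable.of_nonneg_of_le (fun p => by positivity)
    (fun p => mul_le_mul_of_nonneg_right (Nat.cast_le.mpr (frobWeight_le g p)) (by positivity))
    ((Nat.Primes.summable_rpow.mpr (by linarith)).mul_left _)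

lemma frobSum_nonneg (g : M ≃ₐ[ℚ] M) (s : ℝ) : 0 ≤ frobSum M g s :=
  tsum_nonneg fun p => by positivity

/-- Two prime sums whose coefficients agree off a finite set differ by a bounded amount. -/
lemma norm_primeTsum_sub_le {a b : Nat.Primes → ℂ} (U : Finset Nat.Primes)
    (h : ∀ p ∉ U, a p = b p) {s : ℝ} (hs : 0 ≤ s)
    (ha : Summable fun p : Nat.Primes => a p * ((((p : ℕ) : ℝ) ^ (-s) : ℝ) : ℂ))
    (hb : Summable fun p : Nat.Primes => b p * ((((p : ℕ) : ℝ) ^ (-s) : ℝ) : ℂ)) :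
    ‖∑' p, a p * ((((p : ℕ) : ℝ) ^ (-s) : ℝ) : ℂ) - ∑' p, b p * ((((p : ℕ) : ℝ) ^ (-s) : ℝ) : ℂ)‖ ≤
      ∑ p ∈ U, ‖a p - b p‖ := by
  rw [← ha.tsum_sub hb, tsum_eq_sum (s := U) fun p hp => by rw [h p hp, sub_self]]
  refine (norm_sum_le _ _).trans (Finset.sum_le_sum fun p _ => ?_)
  rw [← sub_mul, norm_mul, Complex.norm_real, Real.norm_eq_abs,
    abs_of_nonneg (Real.rpow_nonneg (Nat.cast_nonneg _) _)]
  exact mul_le_of_le_one_right (norm_nonneg _)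
    (Real.rpow_le_one_of_one_le_of_nonpos (by exact_mod_cast p.2.one_le) (by linarith))

lemma abs_primeTsum_sub_le {a b : Nat.Primes → ℝ} (U : Finset Nat.Primes)
    (h : ∀ p ∉ U, a p = b p) {s : ℝ} (hs : 0 ≤ s)
    (ha : Summable fun p : Nat.Primes => a p * ((p : ℕ) : ℝ) ^ (-s))
    (hb : Summable fun p : Nat.Primes => b p * ((p : ℕ) : ℝ) ^ (-s)) :
    |∑' p, a p * ((p : ℕ) : ℝ) ^ (-s) - ∑' p, b p * ((p : ℕ) : ℝ) ^ (-s)| ≤
      ∑ p ∈ U, |a p - b p| := by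
  rw [← ha.tsum_sub hb, tsum_eq_sum (s := U) fun p hp => by rw [h p hp, sub_self]]
  refine (Finset.abs_sum_le_sum_abs _ _).trans (Finset.sum_le_sum fun p _ => ?_)
  rw [← sub_mul, abs_mul, abs_of_nonneg (Real.rpow_nonneg (Nat.cast_nonneg _) _)]
  exact mul_le_of_le_one_right (abs_nonneg _)
    (Real.rpow_le_one_of_one_le_of_nonpos (by exact_mod_cast p.2.one_le) (by linarith))

section Good

variable [IsGalois ℚ M] {p : Nat.Primes}
variable (hin : ∀ Q : Ideal (𝓞 M), Q.IsPrime → ((p : ℕ) : 𝓞 M) ∈ Q →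
  Q.inertia (M ≃ₐ[ℚ] M) = ⊥)

include hin

lemma sum_card_stabilizer_primesAt :
    ∑ Q ∈ (Density.primesAt_finite M p.2).toFinset,
      Nat.card (MulAction.stabilizer (M ≃ₐ[ℚ] M) Q) = Nat.card (M ≃ₐ[ℚ] M) := by
  have hmax : (Ideal.span {((p : ℕ) : ℤ)}).IsMaximal :=
    PrincipalIdealRing.isMaximal_of_irreducible (Nat.prime_iff_prime_int.mp p.2).irreducible
  obtain ⟨⟨Q₀, hQ₀p, hQ₀o⟩⟩ :
      Nonempty (Ideal.primesOver (Ideal.span {((p : ℕ) : ℤ)}) (𝓞 M)) := inferInstance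
  have hpQ₀ : ((p : ℕ) : 𝓞 M) ∈ Q₀ := by
    have h : ((p : ℕ) : ℤ) ∈ Q₀.under ℤ := by
      rw [← hQ₀o.over]
      exact Ideal.mem_span_singleton_self _
    simpa [Ideal.mem_comap] using h
  have hunder : ∀ Q : Ideal (𝓞 M), Q.IsPrime → ((p : ℕ) : 𝓞 M) ∈ Q →
      Q.under ℤ = Ideal.span {((p : ℕ) : ℤ)} := fun Q hQ hpQ => by
    refine (hmax.eq_of_le (Ideal.comap_ne_top _ hQ.ne_top) ?_).symm
    rw [Ideal.span_singleton_le_iff_mem, Ideal.mem_comap]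
    simpa using hpQ
  have horb : ∀ Q : Ideal (𝓞 M), Q ∈ (Density.primesAt_finite M p.2).toFinset ↔
      Q ∈ MulAction.orbit (M ≃ₐ[ℚ] M) Q₀ := by
    intro Q
    rw [mem_primesAt]
    constructor
    · rintro ⟨hQ, hpQ⟩
      obtain ⟨g, hg⟩ := Algebra.IsInvariant.exists_smul_of_under_eq ℤ (𝓞 M) (M ≃ₐ[ℚ] M) Q₀ Q
        ((hunder Q₀ hQ₀p hpQ₀).trans (hunder Q hQ hpQ).symm)
      exact ⟨g, hg.symm⟩
    · rintro ⟨g, rfl⟩
      refine ⟨inferInstance, ?_⟩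
      have h := Ideal.smul_mem_pointwise_smul g _ _ hpQ₀
      rwa [show g • ((p : ℕ) : 𝓞 M) = ((p : ℕ) : 𝓞 M) from
        map_natCast (MulSemiringAction.toRingHom (M ≃ₐ[ℚ] M) (𝓞 M) g) _] at h
  rw [Finset.sum_congr rfl fun Q hQ => show Nat.card (MulAction.stabilizer (M ≃ₐ[ℚ] M) Q) =
      Nat.card (MulAction.stabilizer (M ≃ₐ[ℚ] M) Q₀) by
    obtain ⟨g, rfl⟩ := (horb Q).mp hQ
    exact (Nat.card_congr (MulAction.stabilizerEquivStabilizer
      (g := g) (rfl : g • Q₀ = g • Q₀)).toEquiv).symm]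
  rw [Finset.sum_const, smul_eq_mul, ← (MulAction.stabilizer (M ≃ₐ[ℚ] M) Q₀).index_mul_card,
    MulAction.index_stabilizer, ← Set.ncard_coe_finset]
  congr 2
  ext Q
  exact horb Q

lemma frobWeight_eq_sum_ite (g : M ≃ₐ[ℚ] M) :
    frobWeight M g p = ∑ Q ∈ (Density.primesAt_finite M p.2).toFinset with IsArithFrobAt ℤ g Q,
      Nat.card (MulAction.stabilizer (M ≃ₐ[ℚ] M) Q) := by
  refine Finset.sum_congr (Finset.filter_congr fun Q hQ => ?_) fun _ _ => rfl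
  obtain ⟨hQp, hpQ⟩ := mem_primesAt.mp hQ
  exact and_iff_right (hin Q hQp hpQ)

lemma sum_frobWeight : ∑ g : M ≃ₐ[ℚ] M, frobWeight M g p = Nat.card (M ≃ₐ[ℚ] M) := by
  rw [← sum_card_stabilizer_primesAt hin]
  simp only [frobWeight_eq_sum_ite hin, Finset.sum_filter]
  rw [Finset.sum_comm]
  refine Finset.sum_congr rfl fun Q hQ => ?_
  obtain ⟨hQp, hpQ⟩ := mem_primesAt.mp hQ
  obtain ⟨σ, hσ⟩ := Density.exists_isArithFrobAt M p.2 hpQ
  rw [Finset.sum_eq_single_of_mem σ (Finset.mem_univ _) fun g _ hg => if_neg fun h =>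
      hg (Density.isArithFrobAt_unique M (hin Q hQp hpQ) h hσ), if_pos hσ]

end Good

end FermatLib.Galois.Chebotarev
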