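import Mathlib.NumberTheory.NumberField.CanonicalEmbedding.FundamentalCone
import Mathlib.Analysis.SpecialFunctions.Exp
import Mathlib.RingTheory.Norm.Basic
import Mathlib.Topology.Instances.Matrix
import Mathlib.Algebra.Group.Pi.Units
import Mathlib.Analysis.Normed.Module.FiniteDimension
import Mathlib.Topology.Order.IntermediateValue

/-!
# A Lipschitz weight on the mixed space which averages to one under the units

The weight is a product of tent functions in the coordinates of the logarithmic map relative to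
the basis of the unit lattice.  Times a power of the norm, it changes by `O(‖v‖ ‖x‖ ^ (-d - 1))`
under the translation by `v`.
-/

set_option autoImplicit false

open scoped NumberField Classical
open NumberField NumberField.InfinitePlace NumberField.mixedEmbedding
open NumberField.Units NumberField.Units.dirichletUnitTheorem Module Finset

namespace FermatLib.Galois.Chebotarev

/-- The tent function. -/
noncomputable def tent (t : ℝ) : ℝ := max 0 (1 - |t|)

lemma tent_nonneg (t : ℝ) : 0 ≤ tent t := le_max_left _ _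

lemma tent_le_one (t : ℝ) : tent t ≤ 1 :=
  max_le zero_le_one (by linarith [abs_nonneg t])

lemma abs_tent_sub_le (a b : ℝ) : |tent a - tent b| ≤ |a - b| := by
  unfold tent
  refine (abs_max_sub_max_le_max _ _ _ _).trans ?_
  rw [sub_self, abs_zero, max_eq_right (abs_nonneg _), sub_sub_sub_cancel_left, abs_sub_comm a b]
  exact abs_abs_sub_abs_le_abs_sub b a

lemma abs_lt_one_of_tent_ne_zero {t : ℝ} (h : tent t ≠ 0) : |t| < 1 := by
  by_contra! hh
  exact h (max_eq_left (by linarith))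

lemma tent_add_int_eq_zero {t : ℝ} {n : ℤ} (h : n ∉ ({-⌊t⌋, -⌊t⌋ - 1} : Finset ℤ)) :
    tent (t + n) = 0 := by
  by_contra hne
  have h1 := abs_lt.mp (abs_lt_one_of_tent_ne_zero hne)
  have h2 := Int.floor_le t
  have h3 := Int.lt_floor_add_one t
  have h4 : ((⌊t⌋ + n : ℤ) : ℝ) < (1 : ℤ) := by push_cast; linarith
  have h5 : ((-2 : ℤ) : ℝ) < ((⌊t⌋ + n : ℤ) : ℝ) := by push_cast; linarith
  rw [Int.cast_lt] at h4 h5
  simp only [Finset.mem_insert, Finset.mem_singleton] at h
  omega

lemma sum_tent_add_int (t : ℝ) :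
    ∑ n ∈ ({-⌊t⌋, -⌊t⌋ - 1} : Finset ℤ), tent (t + n) = 1 := by
  rw [Finset.sum_pair (by omega)]
  have h2 := Int.floor_le t
  have h3 := Int.lt_floor_add_one t
  unfold tent
  push_cast
  rw [abs_of_nonneg (by linarith : (0 : ℝ) ≤ t + -⌊t⌋),
    abs_of_nonpos (by linarith : t + (-⌊t⌋ - 1) ≤ (0 : ℝ)), max_eq_right (by linarith),
    max_eq_right (by linarith)]
  ring

lemma abs_prod_tent_sub_le {ι : Type*} (s : Finset ι) (a b : ι → ℝ) :
    |∏ i ∈ s, tent (a i) - ∏ i ∈ s, tent (b i)| ≤ ∑ i ∈ s, |a i - b i| := by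
  classical
  induction s using Finset.induction_on with
  | empty => simp
  | insert j s hj ih =>
    rw [Finset.prod_insert hj, Finset.prod_insert hj, Finset.sum_insert hj]
    have h0 : 0 ≤ ∏ i ∈ s, tent (b i) := Finset.prod_nonneg fun i _ => tent_nonneg _
    have h1 : ∏ i ∈ s, tent (b i) ≤ 1 :=
      Finset.prod_le_one (fun i _ => tent_nonneg _) fun i _ => tent_le_one _
    calc |tent (a j) * ∏ i ∈ s, tent (a i) - tent (b j) * ∏ i ∈ s, tent (b i)|
        = |tent (a j) * (∏ i ∈ s, tent (a i) - ∏ i ∈ s, tent (b i)) +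
            (tent (a j) - tent (b j)) * ∏ i ∈ s, tent (b i)| := by ring_nf
      _ ≤ |tent (a j) * (∏ i ∈ s, tent (a i) - ∏ i ∈ s, tent (b i))| +
            |(tent (a j) - tent (b j)) * ∏ i ∈ s, tent (b i)| := abs_add_le _ _
      _ ≤ ∑ i ∈ s, |a i - b i| + |a j - b j| := by
          rw [abs_mul, abs_mul, abs_of_nonneg (tent_nonneg _), abs_of_nonneg h0]
          exact add_le_add ((mul_le_of_le_one_left (abs_nonneg _) (tent_le_one _)).trans ih)
            ((mul_le_of_le_one_right (abs_nonneg _) h1).trans (abs_tent_sub_le _ _))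
      _ = _ := add_comm _ _

variable (K : Type*) [Field K] [NumberField K]

/-- The basis of the log space given by the fundamental units. -/
noncomputable def unitBasis : Module.Basis (Fin (rank K)) ℝ (logSpace K) :=
  (basisUnitLattice K).ofZLatticeBasis ℝ (unitLattice K)

/-- Coordinates of the logarithmic map relative to the fundamental units. -/
noncomputable def unitCoord (x : mixedSpace K) : Fin (rank K) → ℝ :=
  fun i => (unitBasis K).repr (logMap x) i

/-- The weight. -/
noncomputable def weight (x : mixedSpace K) : ℝ :=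
  if mixedEmbedding.norm x = 0 then 0 else ∏ i, tent (unitCoord K x i)

lemma weight_nonneg (x : mixedSpace K) : 0 ≤ weight K x := by
  unfold weight
  split
  exacts [le_rfl, Finset.prod_nonneg fun i _ => tent_nonneg _]

lemma weight_le_one (x : mixedSpace K) : weight K x ≤ 1 := by
  unfold weight
  split
  exacts [zero_le_one, Finset.prod_le_one (fun i _ => tent_nonneg _) fun i _ => tent_le_one _]

lemma norm_ne_zero_of_weight_ne_zero {x : mixedSpace K} (h : weight K x ≠ 0) :
    mixedEmbedding.norm x ≠ 0 := fun h0 => h (if_pos h0)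

lemma unitCoord_unit_smul (ζ : torsion K) (e : Fin (rank K) → ℤ) {x : mixedSpace K}
    (hx : mixedEmbedding.norm x ≠ 0) (i : Fin (rank K)) :
    unitCoord K (((ζ : (𝓞 K)ˣ) * ∏ j, fundSystem K j ^ e j) • x) i = unitCoord K x i + e i := by
  classical
  have h : logEmbedding K (Additive.ofMul ((ζ : (𝓞 K)ˣ) * ∏ j, fundSystem K j ^ e j)) =
      ∑ j, (e j : ℝ) • unitBasis K j := by
    rw [ofMul_mul, map_add, (logEmbedding_eq_zero_iff).mpr ζ.2, zero_add, ofMul_prod, map_sum]
    refine Finset.sum_congr rfl fun j _ => ?_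
    rw [ofMul_zpow, map_zsmul, logEmbedding_fundSystem, unitBasis, Basis.ofZLatticeBasis_apply,
      Int.cast_smul_eq_zsmul]
  rw [unitCoord, logMap_unit_smul _ hx, h, map_add, Finsupp.add_apply, add_comm]
  simp [unitCoord, Finsupp.single_apply, Finset.sum_ite_eq']

lemma exists_abs_log_sub_le :
    ∃ B : ℝ, 0 ≤ B ∧ ∀ x : mixedSpace K, weight K x ≠ 0 → ∀ w : InfinitePlace K,
      |Real.log (normAtPlace w x) -
        Real.log (mixedEmbedding.norm x) * (finrank ℚ K : ℝ)⁻¹| ≤ B := by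
  classical
  refine ⟨(Fintype.card (InfinitePlace K) + 1) * ∑ i, ‖unitBasis K i‖, by positivity,
    fun x hx w => ?_⟩
  set B₀ := ∑ i, ‖unitBasis K i‖ with hB₀
  have hB₀nn : 0 ≤ B₀ := Finset.sum_nonneg fun i _ => norm_nonneg _
  have hN := norm_ne_zero_of_weight_ne_zero K hx
  have hc : ∀ i, |unitCoord K x i| ≤ 1 := fun i => by
    rw [weight, if_neg hN] at hx
    exact (abs_lt_one_of_tent_ne_zero (Finset.prod_ne_zero_iff.mp hx i (Finset.mem_univ i))).le
  have hlog : ‖logMap x‖ ≤ B₀ := by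
    rw [← (unitBasis K).sum_repr (logMap x)]
    refine (norm_sum_le _ _).trans (Finset.sum_le_sum fun i _ => ?_)
    rw [_root_.norm_smul, Real.norm_eq_abs]
    exact mul_le_of_le_one_left (norm_nonneg _) (hc i)
  set δ : InfinitePlace K → ℝ := fun v => Real.log (normAtPlace v x) -
    Real.log (mixedEmbedding.norm x) * (finrank ℚ K : ℝ)⁻¹ with hδ
  have hne : ∀ v : InfinitePlace K, v ≠ w₀ → |(mult v : ℝ) * δ v| ≤ B₀ := fun v hv =>
    (norm_le_pi_norm (logMap x) ⟨v, hv⟩).trans hlog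
  have hsum : ∑ v : InfinitePlace K, (mult v : ℝ) * δ v = 0 := by
    have h1 : Real.log (mixedEmbedding.norm x) =
        ∑ v : InfinitePlace K, (mult v : ℝ) * Real.log (normAtPlace v x) := by
      rw [mixedEmbedding.norm_apply, Real.log_prod fun v _ => pow_ne_zero _
        (mixedEmbedding.norm_ne_zero_iff.mp hN v)]
      exact Finset.sum_congr rfl fun v _ => Real.log_pow _ _
    simp only [hδ, mul_sub, Finset.sum_sub_distrib, ← h1, ← Finset.sum_mul]
    rw [← Nat.cast_sum, sum_mult_eq, mul_comm (finrank ℚ K : ℝ),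
      mul_assoc, inv_mul_cancel₀ (Nat.cast_ne_zero.mpr finrank_pos.ne'), mul_one, sub_self]
  have hle : ∀ v : InfinitePlace K, |δ v| ≤ |(mult v : ℝ) * δ v| := fun v => by
    rw [abs_mul]
    refine le_mul_of_one_le_left (abs_nonneg _) ?_
    rw [Nat.abs_cast]
    exact_mod_cast (mult_pos : 0 < mult v)
  show |δ w| ≤ _
  rcases ne_or_eq w w₀ with hw | hw
  · refine ((hle w).trans (hne w hw)).trans (le_mul_of_one_le_left hB₀nn ?_)
    simp
  · subst hw
    refine (hle _).trans ?_
    rw [← Finset.add_sum_erase _ _ (Finset.mem_univ (w₀ : InfinitePlace K))] at hsum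
    rw [eq_neg_of_add_eq_zero_left hsum, abs_neg]
    refine (Finset.abs_sum_le_sum_abs _ _).trans ((Finset.sum_le_card_nsmul _ _ B₀ fun v hv =>
      hne v (Finset.ne_of_mem_erase hv)).trans ?_)
    rw [nsmul_eq_mul]
    refine mul_le_mul_of_nonneg_right ?_ hB₀nn
    have := Finset.card_erase_le (s := (Finset.univ : Finset (InfinitePlace K))) (a := w₀)
    rw [Finset.card_univ] at this
    calc ((#((Finset.univ : Finset (InfinitePlace K)).erase w₀) : ℕ) : ℝ)
        ≤ Fintype.card (InfinitePlace K) := by exact_mod_cast this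
      _ ≤ _ := le_add_of_nonneg_right zero_le_one

lemma normAtPlace_le_norm (w : InfinitePlace K) (x : mixedSpace K) : normAtPlace w x ≤ ‖x‖ := by
  rw [norm_eq_sup'_normAtPlace]
  exact Finset.le_sup' (fun w => normAtPlace w x) (Finset.mem_univ w)

lemma exists_const_normAtPlace :
    ∃ c : ℝ, 0 < c ∧ c ≤ 1 ∧ ∀ x : mixedSpace K, weight K x ≠ 0 →
      (∀ w : InfinitePlace K, c * ‖x‖ ≤ normAtPlace w x) ∧
        (c * ‖x‖) ^ finrank ℚ K ≤ mixedEmbedding.norm x := by
  obtain ⟨B, hB, h⟩ := exists_abs_log_sub_le K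
  refine ⟨Real.exp (-(2 * B)), Real.exp_pos _, Real.exp_le_one_iff.mpr (by linarith),
    fun x hx => ?_⟩
  have hN := norm_ne_zero_of_weight_ne_zero K hx
  have hpos : ∀ w, 0 < normAtPlace w x := fun w =>
    lt_of_le_of_ne (normAtPlace_nonneg w x) (mixedEmbedding.norm_ne_zero_iff.mp hN w).symm
  have h1 : ∀ w : InfinitePlace K, Real.exp (-(2 * B)) * ‖x‖ ≤ normAtPlace w x := by
    intro w
    obtain ⟨v, -, hv⟩ := Finset.exists_mem_eq_sup' Finset.univ_nonempty fun w => normAtPlace w x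
    rw [norm_eq_sup'_normAtPlace, hv, ← Real.exp_log (hpos v), ← Real.exp_add,
      ← Real.exp_log (hpos w)]
    refine Real.exp_le_exp.mpr ?_
    have := abs_le.mp (h x hx w)
    have := abs_le.mp (h x hx v)
    linarith
  refine ⟨h1, ?_⟩
  rw [mixedEmbedding.norm_apply, ← sum_mult_eq, ← Finset.prod_pow_eq_pow_sum]
  exact Finset.prod_le_prod (fun w _ => by positivity) fun w _ =>
    pow_le_pow_left₀ (by positivity) (h1 w) _

lemma abs_log_sub_log_le {a b ρ : ℝ} (ha : 0 < a) (hab : |b - a| ≤ ρ * a) (hρ : ρ ≤ 1 / 2) :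
    |Real.log b - Real.log a| ≤ 2 * ρ := by
  obtain ⟨h1, h2⟩ := abs_le.mp hab
  have hρ0 : 0 ≤ ρ := nonneg_of_mul_nonneg_left ((abs_nonneg _).trans hab) ha
  have hb : 0 < b := by nlinarith
  rw [← Real.log_div hb.ne' ha.ne', abs_le]
  have hr1 : 1 - ρ ≤ b / a := by rw [le_div_iff₀ ha]; nlinarith
  have hr2 : b / a ≤ 1 + ρ := by rw [div_le_iff₀ ha]; nlinarith
  have hpos : 0 < b / a := div_pos hb ha
  constructor
  · have h := Real.one_sub_inv_le_log_of_pos hpos
    have hinv : (b / a)⁻¹ ≤ 1 + 2 * ρ := by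
      rw [inv_le_iff_one_le_mul₀ hpos]
      nlinarith
    linarith
  · have := Real.log_le_sub_one_of_pos hpos
    linarith

/-- The weighted power of the norm. -/
noncomputable def weightRpow (s : ℝ) (x : mixedSpace K) : ℝ :=
  weight K x * mixedEmbedding.norm x ^ (-s)

lemma weightRpow_nonneg (s : ℝ) (x : mixedSpace K) : 0 ≤ weightRpow K s x :=
  mul_nonneg (weight_nonneg K x) (Real.rpow_nonneg (mixedEmbedding.norm_nonneg x) _)

/-- The perturbation estimate around a point of the support. -/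
lemma exists_weightRpow_sub_le_of_supp :
    ∃ C R : ℝ, 0 ≤ C ∧ 0 < R ∧ ∀ (s : ℝ), 1 ≤ s → s ≤ 2 → ∀ y v : mixedSpace K,
      weight K y ≠ 0 → R * (‖v‖ + 1) ≤ ‖y‖ →
        |weightRpow K s (y + v) - weightRpow K s y| ≤
            C * ‖v‖ * (‖y‖ ^ (finrank ℚ K + 1))⁻¹ ∧
          ∀ t ∈ Set.Icc (0 : ℝ) 1, mixedEmbedding.norm (y + t • v) ≠ 0 := by
  classical
  obtain ⟨c, hc0, hc1, hc⟩ := exists_const_normAtPlace K
  set d : ℕ := finrank ℚ K with hd
  have hd0 : (0 : ℝ) < d := Nat.cast_pos.mpr finrank_pos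
  let T := LinearMap.toContinuousLinearMap (unitBasis K).equivFun.toLinearMap
  have hT : ∀ z, ∀ i, |(unitBasis K).repr z i| ≤ ‖T‖ * ‖z‖ := fun z i =>
    ((Real.norm_eq_abs _).symm.le.trans (norm_le_pi_norm _ i)).trans (T.le_opNorm z)
  refine ⟨(3 * ((rank K : ℝ) * ‖T‖ * 8) + 2 * (4 * d)) / c ^ (d + 1),
    (4 * d + 2) / c, by positivity, by positivity, fun s hs1 hs2 y v hy hR => ?_⟩
  obtain ⟨hlow, hNlow⟩ := hc y hy
  have hvn : 0 ≤ ‖v‖ := norm_nonneg v
  have hY : (4 * (d : ℝ) + 2) * (‖v‖ + 1) ≤ c * ‖y‖ := by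
    have := mul_le_mul_of_nonneg_left hR hc0.le
    rwa [← mul_assoc, mul_div_cancel₀ _ hc0.ne'] at this
  have hY1 : 1 ≤ c * ‖y‖ := by nlinarith
  set ρ := ‖v‖ / (c * ‖y‖) with hρdef
  have hρ0 : 0 ≤ ρ := by positivity
  have hρ : ρ * (4 * d + 2) ≤ 1 := by
    rw [hρdef, div_mul_eq_mul_div, div_le_one (by linarith)]
    nlinarith
  have hρ2 : ρ ≤ 1 / 2 := by nlinarith
  have hρ4 : 4 * d * ρ ≤ 1 := by nlinarith
  have hpos : ∀ w, 0 < normAtPlace w y := fun w => by linarith [hlow w]
  have hclose : ∀ u : mixedSpace K, ‖u‖ ≤ ‖v‖ → ∀ w,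
      |normAtPlace w (y + u) - normAtPlace w y| ≤ ρ * normAtPlace w y := by
    intro u hu w
    have h1 : |normAtPlace w (y + u) - normAtPlace w y| ≤ ‖v‖ := by
      have ha := normAtPlace_add_le w y u
      have hb := normAtPlace_add_le w (y + u) (-u)
      rw [add_neg_cancel_right, normAtPlace_neg] at hb
      have hu' := (normAtPlace_le_norm K w u).trans hu
      exact abs_le.mpr ⟨by linarith, by linarith⟩
    refine h1.trans ?_
    calc ‖v‖ = ρ * (c * ‖y‖) := by rw [hρdef, div_mul_cancel₀ _ (by linarith : c * ‖y‖ ≠ 0)]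
      _ ≤ _ := mul_le_mul_of_nonneg_left (hlow w) hρ0
  have hne : ∀ u : mixedSpace K, ‖u‖ ≤ ‖v‖ → mixedEmbedding.norm (y + u) ≠ 0 := fun u hu =>
    mixedEmbedding.norm_ne_zero_iff.mpr fun w => by
      have := (abs_le.mp (hclose u hu w)).1
      nlinarith [hpos w]
  refine ⟨?_, fun t ht => hne _ ?_⟩
  swap
  · rw [_root_.norm_smul, Real.norm_eq_abs, abs_of_nonneg ht.1]
    exact mul_le_of_le_one_left hvn ht.2
  have hN' := hne v le_rfl
  have hN := norm_ne_zero_of_weight_ne_zero K hy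
  have hlogw : ∀ w, |Real.log (normAtPlace w (y + v)) - Real.log (normAtPlace w y)| ≤ 2 * ρ :=
    fun w => abs_log_sub_log_le (hpos w) (hclose v le_rfl w) hρ2
  set Δ := Real.log (mixedEmbedding.norm (y + v)) - Real.log (mixedEmbedding.norm y) with hΔdef
  have hΔ : |Δ| ≤ 2 * d * ρ := by
    have hlog : ∀ z : mixedSpace K, mixedEmbedding.norm z ≠ 0 → Real.log (mixedEmbedding.norm z) =
        ∑ w : InfinitePlace K, (mult w : ℝ) * Real.log (normAtPlace w z) := fun z hz => by
      rw [mixedEmbedding.norm_apply, Real.log_prod fun w _ => pow_ne_zero _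
        (mixedEmbedding.norm_ne_zero_iff.mp hz w)]
      exact Finset.sum_congr rfl fun w _ => Real.log_pow _ _
    rw [hΔdef, hlog _ hN', hlog _ hN, ← Finset.sum_sub_distrib]
    refine (Finset.abs_sum_le_sum_abs _ _).trans ?_
    rw [hd, ← sum_mult_eq, Nat.cast_sum, Finset.mul_sum, Finset.sum_mul]
    refine Finset.sum_le_sum fun w _ => ?_
    rw [← mul_sub, abs_mul, Nat.abs_cast, mul_comm (2 : ℝ), mul_assoc]
    exact mul_le_mul_of_nonneg_left (hlogw w) (Nat.cast_nonneg _)
  have hmap : ‖logMap (y + v) - logMap y‖ ≤ 8 * ρ := by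
    refine (pi_norm_le_iff_of_nonneg (by positivity)).mpr fun w => ?_
    rw [Pi.sub_apply, logMap_apply, logMap_apply, ← mul_sub, Real.norm_eq_abs, abs_mul,
      Nat.abs_cast]
    have hm : (mult w.val : ℝ) ≤ 2 := by
      rw [mult]; split <;> norm_num
    have h2 : |(Real.log (normAtPlace w.val (y + v)) -
        Real.log (mixedEmbedding.norm (y + v)) * (d : ℝ)⁻¹) -
        (Real.log (normAtPlace w.val y) - Real.log (mixedEmbedding.norm y) * (d : ℝ)⁻¹)| ≤ 4 * ρ := by
      rw [show ∀ a b a' b' : ℝ, (a - b) - (a' - b') = (a - a') - (b - b') from fun _ _ _ _ => by ring,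
        ← sub_mul, ← hΔdef]
      refine (abs_sub _ _).trans ?_
      have : |Δ * (d : ℝ)⁻¹| ≤ 2 * ρ := by
        rw [abs_mul, abs_inv, Nat.abs_cast, mul_inv_le_iff₀ hd0]
        linarith
      linarith [hlogw w.val]
    calc (mult w.val : ℝ) * _ ≤ 2 * (4 * ρ) :=
          mul_le_mul hm h2 (abs_nonneg _) two_pos.le
      _ = 8 * ρ := by ring
  have hw : |weight K (y + v) - weight K y| ≤ rank K * ‖T‖ * 8 * ρ := by
    rw [weight, weight, if_neg hN', if_neg hN]
    refine (abs_prod_tent_sub_le _ _ _).trans ?_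
    calc ∑ i, |unitCoord K (y + v) i - unitCoord K y i| ≤ ∑ _i : Fin (rank K), ‖T‖ * (8 * ρ) := by
          refine Finset.sum_le_sum fun i _ => ?_
          rw [unitCoord, unitCoord, ← Finsupp.sub_apply, ← map_sub]
          exact (hT _ i).trans (mul_le_mul_of_nonneg_left hmap (norm_nonneg T))
      _ = _ := by rw [Finset.sum_const, Finset.card_univ, Fintype.card_fin, nsmul_eq_mul]; ring
  have hNpos : 0 < mixedEmbedding.norm y := lt_of_le_of_ne (mixedEmbedding.norm_nonneg _) hN.symm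
  have hpow : mixedEmbedding.norm (y + v) ^ (-s) =
      mixedEmbedding.norm y ^ (-s) * Real.exp (-(s * Δ)) := by
    rw [Real.rpow_def_of_pos hNpos, ← Real.exp_add, Real.rpow_def_of_pos
      (lt_of_le_of_ne (mixedEmbedding.norm_nonneg _) hN'.symm), hΔdef]
    ring_nf
  have hu : |-(s * Δ)| ≤ 4 * d * ρ := by
    rw [abs_neg, abs_mul, abs_of_nonneg (by linarith : (0 : ℝ) ≤ s)]
    nlinarith [abs_nonneg Δ]
  have he1 := Real.abs_exp_sub_one_le (hu.trans hρ4)
  have he3 : Real.exp (-(s * Δ)) ≤ 3 := by linarith [(abs_le.mp he1).2, hu.trans hρ4]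
  have hbr : |(weight K (y + v) - weight K y) * Real.exp (-(s * Δ)) +
      weight K y * (Real.exp (-(s * Δ)) - 1)| ≤
      (3 * ((rank K : ℝ) * ‖T‖ * 8) + 2 * (4 * d)) * ρ := by
    refine (abs_add_le _ _).trans ?_
    rw [abs_mul, abs_mul, Real.abs_exp, abs_of_nonneg (weight_nonneg K y)]
    have h1 : |weight K (y + v) - weight K y| * Real.exp (-(s * Δ)) ≤
        (rank K * ‖T‖ * 8 * ρ) * 3 :=
      mul_le_mul hw he3 (Real.exp_pos _).le (by positivity)
    have h2 : weight K y * |Real.exp (-(s * Δ)) - 1| ≤ 2 * (4 * d * ρ) :=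
      (mul_le_of_le_one_left (abs_nonneg _) (weight_le_one K y)).trans (by linarith)
    linarith
  have hNs : mixedEmbedding.norm y ^ (-s) ≤ ((c * ‖y‖) ^ d)⁻¹ := by
    rw [Real.rpow_neg hNpos.le]
    refine inv_anti₀ (by positivity) (hNlow.trans ?_)
    exact Real.self_le_rpow_of_one_le ((one_le_pow₀ hY1).trans hNlow) hs1
  calc |weightRpow K s (y + v) - weightRpow K s y|
      = mixedEmbedding.norm y ^ (-s) * |(weight K (y + v) - weight K y) * Real.exp (-(s * Δ)) +
          weight K y * (Real.exp (-(s * Δ)) - 1)| := by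
        rw [weightRpow, weightRpow, hpow, ← abs_of_nonneg (Real.rpow_nonneg hNpos.le (-s)),
          ← abs_mul, abs_of_nonneg (Real.rpow_nonneg hNpos.le (-s))]
        ring_nf
    _ ≤ ((c * ‖y‖) ^ d)⁻¹ * ((3 * ((rank K : ℝ) * ‖T‖ * 8) + 2 * (4 * d)) * ρ) :=
        mul_le_mul hNs hbr (abs_nonneg _) (by positivity)
    _ = _ := by
        rw [hρdef]
        have : ‖y‖ ≠ 0 := fun h => by rw [h, mul_zero] at hY1; linarith
        field_simp
        ring

/-- The perturbation estimate. -/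
lemma exists_weightRpow_sub_le :
    ∃ C R : ℝ, 0 ≤ C ∧ 0 < R ∧ ∀ (s : ℝ), 1 ≤ s → s ≤ 2 → ∀ x v : mixedSpace K,
      (weight K x ≠ 0 ∨ weight K (x + v) ≠ 0) → R * (‖v‖ + 1) ≤ ‖x‖ →
        |weightRpow K s (x + v) - weightRpow K s x| ≤
            C * ‖v‖ * (‖x‖ ^ (finrank ℚ K + 1))⁻¹ ∧
          ∀ t ∈ Set.Icc (0 : ℝ) 1, mixedEmbedding.norm (x + t • v) ≠ 0 := by
  obtain ⟨C, R, hC, hR, h⟩ := exists_weightRpow_sub_le_of_supp K
  refine ⟨C * 2 ^ (finrank ℚ K + 1), 2 * R + 2, by positivity, by linarith,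
    fun s hs1 hs2 x v hor hx => ?_⟩
  have hvn := norm_nonneg v
  rcases eq_or_ne (weight K x) 0 with hx0 | hx0
  · have hne : weight K (x + v) ≠ 0 := hor.resolve_left (not_not.mpr hx0)
    have hxv : ‖x‖ / 2 ≤ ‖x + v‖ := by
      have := norm_sub_le (x + v) v
      rw [add_sub_cancel_right] at this
      nlinarith
    obtain ⟨h1, h2⟩ := h s hs1 hs2 (x + v) (-v) hne (by rw [norm_neg]; nlinarith)
    refine ⟨?_, fun t ht => ?_⟩
    · rw [add_neg_cancel_right, norm_neg] at h1
      rw [abs_sub_comm]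
      refine h1.trans ?_
      have hxpos : 0 < ‖x‖ := by nlinarith
      calc C * ‖v‖ * (‖x + v‖ ^ (finrank ℚ K + 1))⁻¹
          ≤ C * ‖v‖ * ((‖x‖ / 2) ^ (finrank ℚ K + 1))⁻¹ := by gcongr
        _ = _ := by rw [div_pow, inv_div, ← mul_div_assoc, div_eq_mul_inv]; ring
    · have := h2 (1 - t) ⟨by linarith [ht.2], by linarith [ht.1]⟩
      rwa [show x + v + (1 - t) • -v = x + t • v by module] at this
  · obtain ⟨h1, h2⟩ := h s hs1 hs2 x v hx0 (by nlinarith)
    refine ⟨h1.trans ?_, h2⟩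
    gcongr
    exact le_mul_of_one_le_right hC (one_le_pow₀ (by norm_num))

section Sign

/-- The norm on the mixed space extends the norm of `K`. -/
lemma algebraNorm_mixedEmbedding (x : K) :
    Algebra.norm ℝ (mixedEmbedding K x) = ((Algebra.norm ℚ x : ℚ) : ℝ) := by
  rw [Algebra.norm_eq_matrix_det (mixedEmbedding.latticeBasis K),
    Algebra.norm_eq_matrix_det (integralBasis K), ← eq_ratCast (Rat.castHom ℝ),
    RingHom.map_det]
  congr 1
  ext i j
  rw [Algebra.leftMulMatrix_eq_repr_mul, RingHom.mapMatrix_apply, Matrix.map_apply,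
    Algebra.leftMulMatrix_eq_repr_mul, latticeBasis_apply, ← map_mul, latticeBasis_repr_apply]
  rfl

lemma algebraNorm_ne_zero {x : mixedSpace K} (hx : mixedEmbedding.norm x ≠ 0) :
    Algebra.norm ℝ x ≠ 0 := by
  have h := mixedEmbedding.norm_ne_zero_iff.mp hx
  have hu : IsUnit x := by
    refine Prod.isUnit_iff.mpr ⟨Pi.isUnit_iff.mpr fun w => ?_, Pi.isUnit_iff.mpr fun w => ?_⟩
    · exact isUnit_iff_ne_zero.mpr fun h0 => h w.1 (by
        rw [normAtPlace_apply_of_isReal w.2, h0, norm_zero])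
    · exact isUnit_iff_ne_zero.mpr fun h0 => h w.1 (by
        rw [normAtPlace_apply_of_isComplex w.2, h0, norm_zero])
  exact (hu.map (Algebra.norm ℝ)).ne_zero

lemma continuous_algebraNorm : Continuous fun x : mixedSpace K => Algebra.norm ℝ x := by
  classical
  simp only [Algebra.norm_eq_matrix_det (mixedEmbedding.latticeBasis K)]
  exact (LinearMap.continuous_of_finiteDimensional
    (Algebra.leftMulMatrix (mixedEmbedding.latticeBasis K)).toLinearMap).matrix_det

/-- Along a segment on which the norm does not vanish its sign is constant. -/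
lemma algebraNorm_pos_iff {x v : mixedSpace K}
    (h : ∀ t ∈ Set.Icc (0 : ℝ) 1, mixedEmbedding.norm (x + t • v) ≠ 0) :
    0 < Algebra.norm ℝ x ↔ 0 < Algebra.norm ℝ (x + v) := by
  set f : ℝ → ℝ := fun t => Algebra.norm ℝ (x + t • v) with hf
  have hcont : Continuous f :=
    (continuous_algebraNorm K).comp (continuous_const.add (continuous_id.smul continuous_const))
  have hne : ∀ t ∈ Set.Icc (0 : ℝ) 1, f t ≠ 0 := fun t ht => algebraNorm_ne_zero K (h t ht)
  have h0 : f 0 = Algebra.norm ℝ x := by simp [hf]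
  have h1 : f 1 = Algebra.norm ℝ (x + v) := by simp [hf]
  rw [← h0, ← h1]
  constructor
  · intro hp
    by_contra hle
    obtain ⟨t, ht, ht0⟩ := intermediate_value_Icc' zero_le_one hcont.continuousOn
      ⟨not_lt.mp hle, hp.le⟩
    exact hne t ht ht0
  · intro hp
    by_contra hle
    obtain ⟨t, ht, ht0⟩ := intermediate_value_Icc zero_le_one hcont.continuousOn
      ⟨not_lt.mp hle, hp.le⟩
    exact hne t ht ht0

end Sign

end FermatLib.Galois.Chebotarev
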