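import Mathlib.Algebra.Module.ZLattice.Summable
import Mathlib.Analysis.Normed.Group.FunctionSeries
import Mathlib.LinearAlgebra.FreeModule.IdealQuotient
import Mathlib.NumberTheory.DirichletCharacter.Bounds
import Mathlib.NumberTheory.NumberField.ClassNumber
import Fermat.Agent.Galois.Density.Zeta
import Fermat.Agent.Galois.Chebotarev.Weight

/-!
# The terms of twisted zeta sums, weighted over units
-/

set_option autoImplicit false

open scoped NumberField Topology nonZeroDivisors Classical
open NumberField NumberField.mixedEmbedding NumberField.Units Filter Finset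

namespace FermatLib.Galois.Chebotarev

variable (K : Type*) [Field K] [NumberField K] {m : ℕ} [NeZero m]

section Units

/-- Units through the torsion and the exponents of the fundamental units. -/
noncomputable def unitsEquivTorsionProd :
    torsion K × (Fin (rank K) → ℤ) ≃ (𝓞 K)ˣ :=
  Equiv.ofBijective (fun ζe => (ζe.1 : (𝓞 K)ˣ) * ∏ j, fundSystem K j ^ ζe.2 j) (by
    rw [Function.bijective_iff_existsUnique]
    intro u
    obtain ⟨ζe, h, hu⟩ := exist_unique_eq_mul_prod K u
    exact ⟨ζe, h.symm, fun y hy => hu y hy.symm⟩)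

/-- The weight sums to the number of roots of unity over an orbit of units. -/
lemma hasSum_weight_unit_smul {y : mixedSpace K} (hy : mixedEmbedding.norm y ≠ 0) :
    HasSum (fun u : (𝓞 K)ˣ => weight K (u • y)) (torsionOrder K) := by
  rw [← (unitsEquivTorsionProd K).hasSum_iff]
  set g : torsion K × (Fin (rank K) → ℤ) → ℝ :=
    (fun u : (𝓞 K)ˣ => weight K (u • y)) ∘ unitsEquivTorsionProd K with hg
  have hval : ∀ ζe, g ζe = ∏ i, tent (unitCoord K y i + ζe.2 i) := by
    intro ζe
    have hN : mixedEmbedding.norm ((unitsEquivTorsionProd K ζe) • y) ≠ 0 := by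
      rwa [norm_unit_smul]
    simp only [hg, Function.comp_apply, weight, if_neg hN]
    exact Finset.prod_congr rfl fun i _ =>
      congrArg tent (unitCoord_unit_smul K ζe.1 ζe.2 hy i)
  have : Fintype (torsion K) := Fintype.ofFinite _
  let T : Finset (torsion K × (Fin (rank K) → ℤ)) :=
    Finset.univ ×ˢ Fintype.piFinset fun i => {-⌊unitCoord K y i⌋, -⌊unitCoord K y i⌋ - 1}
  have hsupp : ∀ ζe ∉ T, g ζe = 0 := by
    intro ζe h
    simp only [T, Finset.mem_product, Finset.mem_univ, true_and, Fintype.mem_piFinset,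
      not_forall] at h
    obtain ⟨i, hi⟩ := h
    rw [hval]
    exact Finset.prod_eq_zero (Finset.mem_univ i) (tent_add_int_eq_zero hi)
  have hsum : ∑ ζe ∈ T, g ζe = (torsionOrder K : ℝ) := by
    simp only [hval, T, Finset.sum_product]
    rw [← Finset.prod_univ_sum (fun i => ({-⌊unitCoord K y i⌋, -⌊unitCoord K y i⌋ - 1} : Finset ℤ))
      (fun i (n : ℤ) => tent (unitCoord K y i + n))]
    simp only [sum_tent_add_int, Finset.prod_const_one, Finset.sum_const, Finset.card_univ,
      nsmul_eq_mul, mul_one]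
    rw [torsionOrder, Fintype.card_eq_nat_card]
  rw [← hsum]
  exact hasSum_sum_of_ne_finset_zero hsupp

end Units

section Terms

variable {K}

/-- The weighted term of an element, for the ideal `J`. -/
noncomputable def elemTerm (ψ : DirichletCharacter ℂ m) (NJ : ℕ) (s : ℝ) (x : 𝓞 K) : ℂ :=
  ψ ((Ideal.absNorm (Ideal.span {x}) / NJ : ℕ) : ZMod m) *
    (weightRpow K s (mixedEmbedding K x) : ℂ)

/-- The term of an ideal in the twisted zeta sum. -/
noncomputable def idealTerm (ψ : DirichletCharacter ℂ m) (s : ℝ) (I : Ideal (𝓞 K)) : ℂ :=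
  ψ ((Ideal.absNorm I : ℕ) : ZMod m) * (((Ideal.absNorm I : ℝ) ^ (-s) : ℝ) : ℂ)

variable (K) in
/-- The twisted zeta sum. -/
noncomputable def twistedZeta (ψ : DirichletCharacter ℂ m) (s : ℝ) : ℂ :=
  ∑' I : Ideal (𝓞 K), idealTerm ψ s I

lemma norm_idealTerm_le (ψ : DirichletCharacter ℂ m) (s : ℝ) (I : Ideal (𝓞 K)) :
    ‖idealTerm ψ s I‖ ≤ (Ideal.absNorm I : ℝ) ^ (-s) := by
  rw [idealTerm, norm_mul, Complex.norm_real, Real.norm_eq_abs,
    abs_of_nonneg (Real.rpow_nonneg (Nat.cast_nonneg _) _)]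
  exact mul_le_of_le_one_left (Real.rpow_nonneg (Nat.cast_nonneg _) _) (ψ.norm_le_one _)

lemma summable_idealTerm (ψ : DirichletCharacter ℂ m) {s : ℝ} (hs : 1 < s) :
    Summable fun I : Ideal (𝓞 K) => idealTerm ψ s I :=
  Summable.of_norm_bounded
    (summable_of_sum_le (fun _ => Real.rpow_nonneg (Nat.cast_nonneg _) _)
      (Density.sum_ideals_le_zetaSum K hs))
    (norm_idealTerm_le ψ s)

lemma idealTerm_bot (ψ : DirichletCharacter ℂ m) {s : ℝ} (hs : s ≠ 0) :
    idealTerm ψ s (⊥ : Ideal (𝓞 K)) = 0 := by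
  simp [idealTerm, Real.zero_rpow (neg_ne_zero.mpr hs)]

lemma mixedNorm_coe (x : 𝓞 K) :
    mixedEmbedding.norm (mixedEmbedding K (x : K)) = (Ideal.absNorm (Ideal.span {x}) : ℝ) := by
  rw [norm_eq_norm, Ideal.absNorm_span_singleton, ← Algebra.coe_norm_int x, ← Int.cast_abs,
    ← Int.natCast_natAbs, Int.cast_natCast, Rat.cast_natCast]

lemma norm_elemTerm_le (ψ : DirichletCharacter ℂ m) (NJ : ℕ) (s : ℝ) (x : 𝓞 K) :
    ‖elemTerm ψ NJ s x‖ ≤ weightRpow K s (mixedEmbedding K x) := by
  rw [elemTerm, norm_mul, Complex.norm_real, Real.norm_eq_abs,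
    abs_of_nonneg (weightRpow_nonneg K _ _)]
  exact mul_le_of_le_one_left (weightRpow_nonneg K _ _) (ψ.norm_le_one _)

variable (K) in
/-- An algebraic integer as a point of the integer lattice. -/
noncomputable def toLattice (x : 𝓞 K) : mixedEmbedding.integerLattice K :=
  ⟨mixedEmbedding K x, ⟨x, rfl⟩⟩

lemma toLattice_injective : Function.Injective (toLattice K) := fun x y h =>
  RingOfIntegers.ext (mixedEmbedding_injective K (congrArg Subtype.val h))

lemma finite_norm_lt (R : ℝ) : {x : 𝓞 K | ‖mixedEmbedding K (x : K)‖ < R}.Finite := by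
  have h := ZSpan.setFinite_inter (mixedEmbedding.latticeBasis K)
    (s := Metric.closedBall (0 : mixedSpace K) R) Metric.isBounded_closedBall
  rw [span_latticeBasis] at h
  exact (h.preimage ((mixedEmbedding_injective K).comp RingOfIntegers.coe_injective).injOn).subset
    fun x hx => ⟨by simpa [Metric.mem_closedBall] using le_of_lt (hx : _ < R), ⟨x, rfl⟩⟩

lemma summable_norm_rpow_elems {r : ℝ} (hr : r < -(Module.finrank ℚ K : ℝ)) :
    Summable fun x : 𝓞 K => ‖mixedEmbedding K (x : K)‖ ^ r := by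
  have h := ZLattice.summable_norm_rpow (mixedEmbedding.integerLattice K) r (by
    rwa [ZLattice.rank ℝ, mixedEmbedding.finrank])
  refine (h.comp_injective (i := toLattice K) toLattice_injective).congr fun x => ?_
  rfl

lemma summable_weightRpow {s : ℝ} (hs : 1 < s) :
    Summable fun x : 𝓞 K => weightRpow K s (mixedEmbedding K x) := by
  obtain ⟨c, hc0, -, hc⟩ := exists_const_normAtPlace K
  have hd : (0 : ℝ) < Module.finrank ℚ K := Nat.cast_pos.mpr Module.finrank_pos
  refine Summable.of_norm_bounded_eventually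
    ((summable_norm_rpow_elems (K := K) (r := (Module.finrank ℚ K : ℝ) * -s) (by nlinarith)).mul_left
      (c ^ ((Module.finrank ℚ K : ℝ) * -s))) ?_
  rw [Filter.eventually_cofinite]
  refine (finite_norm_lt (K := K) (1 / c)).subset fun x hx => ?_
  by_contra hbig
  refine hx ?_
  simp only [Set.mem_ofPred_eq, not_lt] at hbig
  rw [Real.norm_eq_abs, abs_of_nonneg (weightRpow_nonneg K _ _)]
  rcases eq_or_ne (weight K (mixedEmbedding K (x : K))) 0 with h0 | h0
  · rw [weightRpow, h0, zero_mul]
    positivity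
  · have hx1 : 1 ≤ c * ‖mixedEmbedding K (x : K)‖ := by rwa [div_le_iff₀' hc0] at hbig
    calc weightRpow K s (mixedEmbedding K x)
        ≤ mixedEmbedding.norm (mixedEmbedding K (x : K)) ^ (-s) :=
          mul_le_of_le_one_left (Real.rpow_nonneg (mixedEmbedding.norm_nonneg _) _) (weight_le_one K _)
      _ ≤ ((c * ‖mixedEmbedding K (x : K)‖) ^ Module.finrank ℚ K) ^ (-s) :=
          Real.rpow_le_rpow_of_nonpos (pow_pos (by linarith) _) (hc _ h0).2 (by linarith)
      _ = _ := by
          rw [← Real.rpow_natCast (c * _), ← Real.rpow_mul (by linarith),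
            Real.mul_rpow hc0.le (norm_nonneg _)]

lemma summable_elemTerm (ψ : DirichletCharacter ℂ m) (NJ : ℕ) {s : ℝ} (hs : 1 < s) :
    Summable fun x : 𝓞 K => elemTerm ψ NJ s x :=
  Summable.of_norm_bounded (summable_weightRpow hs) (norm_elemTerm_le ψ NJ s)

lemma elemTerm_zero (ψ : DirichletCharacter ℂ m) (NJ : ℕ) {s : ℝ} :
    elemTerm ψ NJ s (0 : 𝓞 K) = 0 := by
  simp [elemTerm, weightRpow, weight]

end Terms


end FermatLib.Galois.Chebotarev
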