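import Mathlib.Analysis.SpecialFunctions.Log.Summable
import Mathlib.Analysis.SpecialFunctions.Complex.LogBounds
import Mathlib.Topology.Separation.Lemmas
import Fermat.Agent.Galois.Chebotarev.ClassTerms

/-!
# The logarithm of a twisted zeta sum

The twisted zeta sum is the exponential of a sum over primes, which differs by a bounded function
from the sum over the primes of prime norm.
-/

set_option autoImplicit false

open scoped NumberField Topology nonZeroDivisors Classical
open NumberField Filter Finset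

namespace FermatLib.Galois.Chebotarev

variable (K : Type*) [Field K] [NumberField K] {m : ℕ} [NeZero m] (ψ : DirichletCharacter ℂ m)

/-- The nonzero prime ideals of the ring of integers. -/
abbrev PrimeIdealType := {P : Ideal (𝓞 K) // Prime P}

/-- The logarithm of the twisted zeta sum. -/
noncomputable def logTwist (s : ℝ) : ℂ :=
  ∑' P : PrimeIdealType K, -Complex.log (1 - idealTerm ψ s (P : Ideal (𝓞 K)))

/-- The twisted sum over primes of prime norm. -/
noncomputable def degOneTwist (s : ℝ) : ℂ :=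
  ∑' p : Nat.Primes, ψ ((p : ℕ) : ZMod m) * (Density.idealCount K p : ℂ) *
    ((((p : ℕ) : ℝ) ^ (-s) : ℝ) : ℂ)

/-- The error majorant at a prime. -/
noncomputable def excess (P : PrimeIdealType K) : ℝ :=
  if (Ideal.absNorm (P : Ideal (𝓞 K))).Prime then (Ideal.absNorm (P : Ideal (𝓞 K)) : ℝ) ^ (-(2 : ℝ))
  else (Ideal.absNorm (P : Ideal (𝓞 K)) : ℝ) ^ (-(1 : ℝ))

variable {K}

lemma two_le_absNorm (P : PrimeIdealType K) : 2 ≤ Ideal.absNorm (P : Ideal (𝓞 K)) := by
  obtain ⟨p, f, hp, hf, -, hn⟩ := Density.exists_norm_eq_pow K P.2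
  exact hn ▸ hp.two_le.trans (Nat.le_self_pow hf p)

lemma norm_idealTerm_le_half {s : ℝ} (hs : 1 < s) (P : PrimeIdealType K) :
    ‖idealTerm ψ s (P : Ideal (𝓞 K))‖ ≤ 1 / 2 :=
  (norm_idealTerm_le ψ s _).trans (Density.rpow_le_half hs (two_le_absNorm P))

lemma summable_primeIdeal_rpow {s : ℝ} (hs : 1 < s) :
    Summable fun P : PrimeIdealType K => (Ideal.absNorm (P : Ideal (𝓞 K)) : ℝ) ^ (-s) :=
  (summable_of_sum_le (fun _ => Real.rpow_nonneg (Nat.cast_nonneg _) _)
    (Density.sum_ideals_le_zetaSum K hs)).comp_injective Subtype.val_injective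

lemma norm_log_term_le {s : ℝ} (hs : 1 < s) (P : PrimeIdealType K) :
    ‖-Complex.log (1 - idealTerm ψ s (P : Ideal (𝓞 K)))‖ ≤
      2 * (Ideal.absNorm (P : Ideal (𝓞 K)) : ℝ) ^ (-s) := by
  rw [norm_neg, sub_eq_add_neg]
  refine (Complex.norm_log_one_add_half_le_self
    ((norm_neg _).le.trans (norm_idealTerm_le_half ψ hs P))).trans ?_
  rw [norm_neg]
  have := norm_idealTerm_le ψ s (P : Ideal (𝓞 K))
  nlinarith [norm_nonneg (idealTerm ψ s (P : Ideal (𝓞 K)))]

lemma summable_log_term {s : ℝ} (hs : 1 < s) :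
    Summable fun P : PrimeIdealType K => -Complex.log (1 - idealTerm ψ s (P : Ideal (𝓞 K))) :=
  Summable.of_norm_bounded ((summable_primeIdeal_rpow hs).mul_left 2) (norm_log_term_le ψ hs)

lemma summable_excess : Summable (excess K) := by
  refine summable_of_sum_le (c := Module.finrank ℚ K * Density.invSqSum) (fun P => ?_) fun T => ?_
  · rw [excess]
    split <;> exact Real.rpow_nonneg (Nat.cast_nonneg _) _
  choose p f hp hf hmem hnorm using fun P : PrimeIdealType K => Density.exists_norm_eq_pow K P.2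
  let q : PrimeIdealType K → Nat.Primes := fun P => ⟨p P, hp P⟩
  have hle : ∀ P, excess K P ≤ ((q P : ℕ) : ℝ) ^ (-(2 : ℝ)) := by
    intro P
    have h1 : (1 : ℝ) ≤ (p P : ℝ) := by exact_mod_cast (hp P).one_le
    rw [excess]
    split_ifs with h
    · rw [hnorm P] at h ⊢
      rw [h.eq_one_of_pow, pow_one]
    · have h2 : (2 : ℝ) ≤ f P := by
        have : 2 ≤ f P := by
          by_contra hlt
          have h1' : f P = 1 := by have := hf P; omega
          exact h (by rw [hnorm P, h1', pow_one]; exact hp P)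
        exact_mod_cast this
      rw [hnorm P, Nat.cast_pow, ← Real.rpow_natCast, ← Real.rpow_mul (by linarith)]
      exact Real.rpow_le_rpow_of_exponent_le h1 (by linarith)
  refine (Finset.sum_le_sum fun P _ => hle P).trans ?_
  rw [← Finset.sum_fiberwise_of_maps_to (fun P hP => Finset.mem_image_of_mem q hP)]
  calc ∑ r ∈ T.image q, ∑ P ∈ T with q P = r, ((q P : ℕ) : ℝ) ^ (-(2 : ℝ))
      ≤ ∑ r ∈ T.image q, (Module.finrank ℚ K : ℝ) * ((r : ℕ) : ℝ) ^ (-(2 : ℝ)) := by
        refine Finset.sum_le_sum fun r _ => ?_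
        rw [Finset.sum_congr rfl fun P hP => by rw [(Finset.mem_filter.mp hP).2], Finset.sum_const,
          nsmul_eq_mul]
        refine mul_le_mul_of_nonneg_right (Nat.cast_le.mpr ?_) (by positivity)
        rw [← Finset.card_map (Function.Embedding.subtype _)]
        refine Density.card_le_finrank_of_mem K r.2 _ fun I hI => ?_
        obtain ⟨P, hP, rfl⟩ := Finset.mem_map.mp hI
        refine ⟨P.2, ?_⟩
        have hr : p P = (r : ℕ) := congrArg (fun x : Nat.Primes => (x : ℕ)) (Finset.mem_filter.mp hP).2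
        exact hr ▸ hmem P
    _ ≤ _ := by
        rw [← Finset.mul_sum]
        exact mul_le_mul_of_nonneg_left
          (Density.invSqSum_summable.sum_le_tsum _ fun _ _ => by positivity) (Nat.cast_nonneg _)

variable (K) in
lemma degOneTwist_eq {s : ℝ} (hs : 1 < s) :
    degOneTwist K ψ s = ∑' P : PrimeIdealType K,
      if (Ideal.absNorm (P : Ideal (𝓞 K))).Prime then idealTerm ψ s (P : Ideal (𝓞 K)) else 0 := by
  let j : (Σ p : Nat.Primes, ↥(Density.normFiber K p)) → PrimeIdealType K := fun x =>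
    ⟨x.2.1, Density.prime_of_absNorm_prime K (((Density.mem_normFiber K).mp x.2.2).symm ▸ x.1.2)⟩
  have hj : Function.Injective j := by
    rintro ⟨p, I, hI⟩ ⟨q, J, hJ⟩ h
    obtain rfl : I = J := congrArg Subtype.val h
    obtain rfl : p = q := Subtype.ext
      (((Density.mem_normFiber K).mp hI).symm.trans ((Density.mem_normFiber K).mp hJ))
    rfl
  set f : PrimeIdealType K → ℂ := fun P =>
    if (Ideal.absNorm (P : Ideal (𝓞 K))).Prime then idealTerm ψ s (P : Ideal (𝓞 K)) else 0 with hf
  have hsupp : Function.support f ⊆ Set.range j := by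
    intro P hP
    have hp : (Ideal.absNorm (P : Ideal (𝓞 K))).Prime := by
      by_contra h
      exact hP (if_neg h)
    exact ⟨⟨⟨_, hp⟩, ⟨P.1, (Density.mem_normFiber K).mpr rfl⟩⟩, rfl⟩
  have hsum : Summable f := by
    refine Summable.of_norm_bounded (summable_primeIdeal_rpow hs) fun P => ?_
    simp only [hf]
    split_ifs
    · exact norm_idealTerm_le ψ s _
    · rw [norm_zero]
      exact Real.rpow_nonneg (Nat.cast_nonneg _) _
  have hsum' : Summable fun x => f (j x) := hsum.comp_injective hj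
  rw [← hj.tsum_eq hsupp, hsum'.tsum_sigma, degOneTwist]
  refine tsum_congr fun p => ?_
  rw [tsum_fintype, Finset.sum_congr rfl (g := fun _ : ↥(Density.normFiber K p) =>
    ψ ((p : ℕ) : ZMod m) * ((((p : ℕ) : ℝ) ^ (-s) : ℝ) : ℂ)) fun x _ => ?_]
  · rw [Finset.sum_const, Finset.card_univ, Fintype.card_coe, Density.card_normFiber, nsmul_eq_mul]
    ring
  · have hx : Ideal.absNorm (x : Ideal (𝓞 K)) = (p : ℕ) := (Density.mem_normFiber K).mp x.2
    simp only [hf, j, idealTerm, hx, if_pos p.2]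

variable (K) in
/-- The logarithm differs from the sum over degree one primes by a bounded amount. -/
lemma norm_logTwist_sub_le {s : ℝ} (hs : 1 < s) :
    ‖logTwist K ψ s - degOneTwist K ψ s‖ ≤ ∑' P, 2 * excess K P := by
  set g : PrimeIdealType K → ℂ := fun P =>
    if (Ideal.absNorm (P : Ideal (𝓞 K))).Prime then idealTerm ψ s (P : Ideal (𝓞 K)) else 0 with hg
  have hgsum : Summable g := by
    refine Summable.of_norm_bounded (summable_primeIdeal_rpow hs) fun P => ?_
    simp only [hg]
    split_ifs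
    · exact norm_idealTerm_le ψ s _
    · rw [norm_zero]
      exact Real.rpow_nonneg (Nat.cast_nonneg _) _
  rw [degOneTwist_eq K ψ hs, logTwist, ← (summable_log_term ψ hs).tsum_sub hgsum]
  refine tsum_of_norm_bounded (summable_excess.mul_left 2).hasSum fun P => ?_
  have hx := norm_idealTerm_le ψ s (P : Ideal (𝓞 K))
  have hx2 := norm_idealTerm_le_half ψ hs P
  have h1 : (1 : ℝ) ≤ (Ideal.absNorm (P : Ideal (𝓞 K)) : ℝ) := by
    exact_mod_cast (one_le_two.trans (two_le_absNorm P))
  simp only [hg, excess]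
  split_ifs with hp
  · set x := idealTerm ψ s (P : Ideal (𝓞 K))
    have hlt : ‖-x‖ < 1 := by rw [norm_neg]; linarith
    have h := Complex.norm_log_one_add_sub_self_le hlt
    rw [norm_neg] at h
    rw [show -Complex.log (1 - x) - x = -(Complex.log (1 + -x) - -x) by ring_nf, norm_neg]
    refine h.trans ?_
    have hsq : ‖x‖ ^ 2 ≤ (Ideal.absNorm (P : Ideal (𝓞 K)) : ℝ) ^ (-(2 : ℝ)) := by
      calc ‖x‖ ^ 2 ≤ ((Ideal.absNorm (P : Ideal (𝓞 K)) : ℝ) ^ (-s)) ^ 2 :=
            pow_le_pow_left₀ (norm_nonneg _) hx 2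
        _ ≤ _ := by
          rw [← Real.rpow_natCast, ← Real.rpow_mul (by linarith)]
          exact Real.rpow_le_rpow_of_exponent_le h1 (by push_cast; linarith)
    have hinv : (1 - ‖x‖)⁻¹ ≤ 2 := by
      rw [inv_le_iff_one_le_mul₀ (by linarith)]
      linarith
    have : 0 ≤ (1 - ‖x‖)⁻¹ := inv_nonneg.mpr (by linarith)
    calc ‖x‖ ^ 2 * (1 - ‖x‖)⁻¹ / 2 ≤ ‖x‖ ^ 2 * 2 / 2 := by gcongr
      _ ≤ _ := by linarith [sq_nonneg ‖x‖]
  · rw [sub_zero]
    refine (norm_log_term_le ψ hs P).trans (mul_le_mul_of_nonneg_left ?_ two_pos.le)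
    exact Real.rpow_le_rpow_of_exponent_le h1 (by linarith)

/-- The terms as a multiplicative function on ideals. -/
noncomputable def idealTermHom (s : ℝ) : Ideal (𝓞 K) →* ℂ where
  toFun := idealTerm ψ s
  map_one' := by simp [idealTerm]
  map_mul' I J := by
    simp only [idealTerm, map_mul, Nat.cast_mul,
      Real.mul_rpow (Nat.cast_nonneg _) (Nat.cast_nonneg _), Complex.ofReal_mul]
    ring

variable (K) in
/-- The Euler product: the exponential of the logarithm is the twisted zeta sum. -/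
lemma exp_logTwist {s : ℝ} (hs : 1 < s) :
    Complex.exp (logTwist K ψ s) = twistedZeta K ψ s := by
  set x : PrimeIdealType K → ℂ := fun P => idealTerm ψ s (P : Ideal (𝓞 K)) with hx
  have hxs : Summable fun P => ‖x P‖ :=
    Summable.of_nonneg_of_le (fun _ => norm_nonneg _) (fun P => norm_idealTerm_le ψ s _)
      (summable_primeIdeal_rpow hs)
  have hne : ∀ P, 1 - x P ≠ 0 := fun P h => by
    have h1 : ‖x P‖ = 1 := by rw [← sub_eq_zero.mp h, norm_one]
    linarith [norm_idealTerm_le_half ψ hs P, h1.ge]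
  let T : ℕ → Finset (PrimeIdealType K) := fun N =>
    ((Ideal.finite_setOfPred_absNorm_le (S := 𝓞 K) N).preimage
      (Subtype.val_injective.injOn (s := _))).toFinset
  have hmemT : ∀ (N : ℕ) (P : PrimeIdealType K),
      P ∈ T N ↔ Ideal.absNorm (P : Ideal (𝓞 K)) ≤ N := fun N P => Set.Finite.mem_toFinset _
  have hTtop : Tendsto T atTop atTop := by
    refine tendsto_atTop.mpr fun b => eventually_atTop.mpr
      ⟨b.sup fun P => Ideal.absNorm (P : Ideal (𝓞 K)), fun N hN P hP => (hmemT N P).mpr ?_⟩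
    exact (Finset.le_sup (f := fun P : PrimeIdealType K => Ideal.absNorm (P : Ideal (𝓞 K))) hP).trans hN
  have hprod : Tendsto (fun N => ∏ P ∈ T N, (1 - x P)⁻¹) atTop
      (𝓝 (Complex.exp (logTwist K ψ s))) := by
    have h1 := ((summable_log_term ψ hs).hasSum).comp hTtop
    refine ((Complex.continuous_exp.tendsto _).comp h1).congr fun N => ?_
    simp only [Function.comp_apply, Complex.exp_sum]
    exact Finset.prod_congr rfl fun P _ => by rw [Complex.exp_neg, Complex.exp_log (hne P)]
  have hdefect : Tendsto (fun N => ∏ P ∈ T N, (1 + -(x P ^ (N + 1)))) atTop (𝓝 1) := by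
    rw [tendsto_iff_norm_sub_tendsto_zero]
    refine squeeze_zero (fun N => norm_nonneg _) (fun N =>
      ((T N).norm_prod_one_add_sub_one_le fun P => -(x P ^ (N + 1))).trans
        (sub_le_sub_right (Real.exp_le_exp.mpr
          (?_ : _ ≤ (1 / 2 : ℝ) ^ N * ∑' P, ‖x P‖)) 1)) ?_
    · calc ∑ P ∈ T N, ‖-(x P ^ (N + 1))‖ ≤ ∑ P ∈ T N, (1 / 2 : ℝ) ^ N * ‖x P‖ := by
            refine Finset.sum_le_sum fun P _ => ?_
            rw [norm_neg, norm_pow, pow_succ]
            exact mul_le_mul_of_nonneg_right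
              (pow_le_pow_left₀ (norm_nonneg _) (norm_idealTerm_le_half ψ hs P) N) (norm_nonneg _)
        _ ≤ _ := by
            rw [← Finset.mul_sum]
            exact mul_le_mul_of_nonneg_left (hxs.sum_le_tsum _ fun _ _ => norm_nonneg _) (by positivity)
    · have h0 : Tendsto (fun N : ℕ => (1 / 2 : ℝ) ^ N * ∑' P, ‖x P‖) atTop (𝓝 0) := by
        simpa using (tendsto_pow_atTop_nhds_zero_of_lt_one (by norm_num : (0 : ℝ) ≤ 1 / 2)
          (by norm_num)).mul_const _
      simpa using ((Real.continuous_exp.tendsto _).comp h0).sub_const 1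
  let J : (N : ℕ) → Finset (↥(T N) → ℕ) := fun N => Fintype.piFinset fun _ => Finset.range (N + 1)
  let F : (N : ℕ) → (↥(T N) → ℕ) → Ideal (𝓞 K) := fun N e =>
    ∏ P : ↥(T N), (P.1 : Ideal (𝓞 K)) ^ e P
  have hfac : ∀ (N : ℕ) (e : ↥(T N) → ℕ),
      UniqueFactorizationMonoid.normalizedFactors (F N e) =
        ∑ P : ↥(T N), Multiset.replicate (e P) (P.1 : Ideal (𝓞 K)) := by
    intro N e
    have hF : F N e = (∑ P : ↥(T N), Multiset.replicate (e P) (P.1 : Ideal (𝓞 K))).prod := by
      rw [Multiset.prod_sum]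
      simp [F]
    rw [hF]
    refine UniqueFactorizationMonoid.normalizedFactors_prod_of_prime fun I hI => ?_
    obtain ⟨P, -, hP⟩ := Multiset.mem_sum.mp hI
    exact Multiset.eq_of_mem_replicate hP ▸ P.1.2
  have hinj : ∀ N, Function.Injective (F N) := by
    intro N e e' h
    funext Q
    have := congrArg (Multiset.count (Q.1 : Ideal (𝓞 K)))
      ((hfac N e).symm.trans ((congrArg _ h).trans (hfac N e')))
    simpa [Multiset.count_sum', Multiset.count_replicate, ← Subtype.ext_iff,
      Finset.sum_ite_eq'] using this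
  let A : ℕ → Finset (Ideal (𝓞 K)) := fun N => insert ⊥ ((J N).image (F N))
  have hAtop : Tendsto A atTop atTop := by
    refine tendsto_atTop.mpr fun b => eventually_atTop.mpr
      ⟨b.sup fun I => Ideal.absNorm I, fun N hN I hI => ?_⟩
    rcases eq_or_ne I ⊥ with rfl | hI0
    · exact Finset.mem_insert_self _ _
    refine Finset.mem_insert_of_mem (Finset.mem_image.mpr ?_)
    set fs := UniqueFactorizationMonoid.normalizedFactors I with hfs
    have hIN : Ideal.absNorm I ≤ N :=
      (Finset.le_sup (f := fun I => Ideal.absNorm I) hI).trans hN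
    have hIpos : 0 < Ideal.absNorm I :=
      Nat.pos_of_ne_zero fun h => hI0 (Ideal.absNorm_eq_zero_iff.mp h)
    have hprodfs : fs.prod = I :=
      associated_iff_eq.mp (UniqueFactorizationMonoid.prod_normalizedFactors (by simpa using hI0))
    have hPT : ∀ P ∈ fs.toFinset, ∃ Q : ↥(T N), (Q.1 : Ideal (𝓞 K)) = P := fun P hP => by
      have hP' := Multiset.mem_toFinset.mp hP
      exact ⟨⟨⟨P, UniqueFactorizationMonoid.prime_of_normalized_factor P hP'⟩, (hmemT N _).mpr
        ((Nat.le_of_dvd hIpos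
          (map_dvd _ (UniqueFactorizationMonoid.dvd_of_mem_normalizedFactors hP'))).trans hIN)⟩, rfl⟩
    refine ⟨fun Q => fs.count (Q.1 : Ideal (𝓞 K)), Fintype.mem_piFinset.mpr fun Q =>
      Finset.mem_range.mpr (Nat.lt_succ_of_le ?_), ?_⟩
    · have hdvd : (Q.1 : Ideal (𝓞 K)) ^ fs.count (Q.1 : Ideal (𝓞 K)) ∣ I := by
        conv_rhs => rw [← hprodfs]
        rw [← Multiset.prod_replicate]
        exact Multiset.prod_dvd_prod_of_le (Multiset.le_count_iff_replicate_le.mp le_rfl)
      have h2 := Nat.le_of_dvd hIpos (map_dvd Ideal.absNorm hdvd)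
      rw [map_pow] at h2
      calc fs.count (Q.1 : Ideal (𝓞 K)) ≤ 2 ^ fs.count (Q.1 : Ideal (𝓞 K)) := Nat.lt_two_pow_self.le
        _ ≤ Ideal.absNorm (Q.1 : Ideal (𝓞 K)) ^ fs.count (Q.1 : Ideal (𝓞 K)) :=
            Nat.pow_le_pow_left (two_le_absNorm _) _
        _ ≤ N := h2.trans hIN
    · show ∏ Q : ↥(T N), (Q.1 : Ideal (𝓞 K)) ^ fs.count (Q.1 : Ideal (𝓞 K)) = I
      conv_rhs => rw [← hprodfs, Finset.prod_multiset_count]
      rw [← Finset.prod_image (s := (Finset.univ : Finset ↥(T N))) (g := fun Q => (Q.1 : Ideal (𝓞 K)))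
        (f := fun P => P ^ fs.count P)
        (fun a _ b _ h => Subtype.ext (Subtype.ext h))]
      refine (Finset.prod_subset (fun P hP => ?_) fun P _ hP => ?_).symm
      · obtain ⟨Q, hQ⟩ := hPT P hP
        exact Finset.mem_image.mpr ⟨Q, Finset.mem_univ _, hQ⟩
      · rw [Multiset.count_eq_zero.mpr fun h => hP (Multiset.mem_toFinset.mpr h), pow_zero]
  have hgeom : Tendsto (fun N => ∏ P ∈ T N, ∑ k ∈ Finset.range (N + 1), x P ^ k) atTop
      (𝓝 (twistedZeta K ψ s)) := by
    refine ((summable_idealTerm ψ hs).hasSum.comp hAtop).congr fun N => ?_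
    simp only [Function.comp_apply, A]
    rw [Finset.sum_insert_of_eq_zero_if_notMem fun _ => idealTerm_bot ψ (by linarith),
      Finset.sum_image fun a _ b _ h => hinj N h]
    rw [← Finset.prod_coe_sort (T N), Finset.prod_univ_sum]
    refine Finset.sum_congr rfl fun e _ => ?_
    show idealTermHom ψ s (F N e) = _
    simp only [F, map_prod, map_pow]
    rfl
  have hlim : Tendsto (fun N => ∏ P ∈ T N, ∑ k ∈ Finset.range (N + 1), x P ^ k) atTop
      (𝓝 (Complex.exp (logTwist K ψ s))) := by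
    have h := hprod.mul hdefect
    rw [mul_one] at h
    refine h.congr fun N => ?_
    rw [← Finset.prod_mul_distrib]
    refine Finset.prod_congr rfl fun P _ => ?_
    rw [← sub_eq_add_neg, ← mul_neg_geom_sum, ← mul_assoc, inv_mul_cancel₀ (hne P), one_mul]
  exact tendsto_nhds_unique hlim hgeom

variable (K) in
lemma continuousOn_logTwist : ContinuousOn (logTwist K ψ) (Set.Ioi 1) := by
  intro s₀ hs₀
  obtain ⟨t, ht1, ht⟩ := exists_between (show (1 : ℝ) < s₀ from hs₀)
  refine ((continuousOn_tsum (fun P => ?_) ((summable_primeIdeal_rpow ht1).mul_left 2)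
    fun P s hs => ?_ : ContinuousOn (logTwist K ψ) (Set.Ici t)).continuousAt
      (Ici_mem_nhds ht)).continuousWithinAt
  · refine ContinuousOn.neg (ContinuousOn.clog ?_ fun s hs => ?_)
    · refine continuousOn_const.sub (continuousOn_const.mul (Complex.continuous_ofReal.comp_continuousOn
        (continuous_const.rpow continuous_neg fun _ => Or.inl (Nat.cast_ne_zero.mpr ?_)).continuousOn))
      exact (zero_lt_two.trans_le (two_le_absNorm P)).ne'
    · rw [Complex.mem_slitPlane_iff]
      left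
      have h := norm_idealTerm_le_half ψ (ht1.trans_le hs) P
      have := (Complex.re_le_norm (idealTerm ψ s (P : Ideal (𝓞 K)))).trans h
      rw [Complex.sub_re, Complex.one_re]
      linarith
  · refine (norm_log_term_le ψ (ht1.trans_le hs) P).trans (mul_le_mul_of_nonneg_left ?_ two_pos.le)
    exact Real.rpow_le_rpow_of_exponent_le
      (by exact_mod_cast (one_le_two.trans (two_le_absNorm P))) (neg_le_neg hs)

variable {ψ} in
/-- If the twisted zeta sum has a limit, the real part of the sum over degree one primes is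
bounded above. -/
theorem exists_re_degOneTwist_le {l : ℂ} (hl : Tendsto (twistedZeta K ψ) (𝓝[>] 1) (𝓝 l)) :
    ∃ C : ℝ, ∀ᶠ s in 𝓝[>] 1, (degOneTwist K ψ s).re ≤ C := by
  refine ⟨Real.log (‖l‖ + 1) + ∑' P, 2 * excess K P, ?_⟩
  filter_upwards [self_mem_nhdsWithin, hl.norm.eventually_le_const (lt_add_one ‖l‖)] with s hs hle
  have h1 : (logTwist K ψ s).re ≤ Real.log (‖l‖ + 1) := by
    rw [Real.le_log_iff_exp_le (by positivity), ← Complex.norm_exp, exp_logTwist K ψ hs]
    exact hle
  have h2 := (Complex.re_le_norm (degOneTwist K ψ s - logTwist K ψ s)).trans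
    ((norm_sub_rev _ _).trans_le (norm_logTwist_sub_le K ψ hs))
  rw [Complex.sub_re] at h2
  linarith

variable {ψ} in
/-- If moreover that real part is bounded below, the sum over degree one primes is bounded. -/
theorem exists_norm_degOneTwist_le {l : ℂ} (hl : Tendsto (twistedZeta K ψ) (𝓝[>] 1) (𝓝 l))
    {C : ℝ} (hC : ∀ᶠ s in 𝓝[>] 1, C ≤ (degOneTwist K ψ s).re) :
    ∃ B : ℝ, ∀ᶠ s in 𝓝[>] 1, ‖degOneTwist K ψ s‖ ≤ B := by
  set E := ∑' P, 2 * excess K P
  have hl0 : l ≠ 0 := by
    intro h0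
    have hlow : ∀ᶠ s in 𝓝[>] 1, Real.exp (C - E) ≤ ‖twistedZeta K ψ s‖ := by
      filter_upwards [self_mem_nhdsWithin, hC] with s hs hCs
      rw [← exp_logTwist K ψ hs, Complex.norm_exp, Real.exp_le_exp]
      have h2 := (Complex.re_le_norm (degOneTwist K ψ s - logTwist K ψ s)).trans
        ((norm_sub_rev _ _).trans_le (norm_logTwist_sub_le K ψ hs))
      rw [Complex.sub_re] at h2
      linarith
    have := ge_of_tendsto hl.norm hlow
    rw [h0, norm_zero] at this
    exact absurd this (not_le.mpr (Real.exp_pos _))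
  have hnear : ∀ᶠ s in 𝓝[>] (1 : ℝ), ‖twistedZeta K ψ s / l - 1‖ < 1 / 2 := by
    have h := (hl.div_const l).sub_const 1
    rw [div_self hl0, sub_self] at h
    exact (h.norm.eventually (gt_mem_nhds (by simp : ‖(0 : ℂ)‖ < 1 / 2)))
  obtain ⟨u, hu, hI'⟩ := mem_nhdsGT_iff_exists_Ioo_subset.mp hnear
  have hI : ∀ {s : ℝ}, s ∈ Set.Ioo 1 u → ‖twistedZeta K ψ s / l - 1‖ < 1 / 2 := fun hs => hI' hs
  set f : ℝ → ℂ := fun s => logTwist K ψ s - Complex.log (twistedZeta K ψ s / l) with hf
  have hcontZ : ContinuousOn (twistedZeta K ψ) (Set.Ioi 1) :=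
    ((continuousOn_logTwist K ψ).cexp).congr fun s hs => (exp_logTwist K ψ hs).symm
  have hfc : ContinuousOn f (Set.Ioo 1 u) := by
    refine ((continuousOn_logTwist K ψ).mono Set.Ioo_subset_Ioi_self).sub (ContinuousOn.clog
      ((hcontZ.mono Set.Ioo_subset_Ioi_self).div_const _) fun s hs => ?_)
    rw [Complex.mem_slitPlane_iff]
    left
    have := (Complex.re_le_norm (-(twistedZeta K ψ s / l - 1))).trans
      ((norm_neg _).le.trans (hI hs).le)
    rw [Complex.neg_re, Complex.sub_re, Complex.one_re] at this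
    linarith
  have hexp : ∀ s ∈ Set.Ioo (1 : ℝ) u, Complex.exp (f s) = l := by
    intro s hs
    have hne : twistedZeta K ψ s / l ≠ 0 := fun h => by
      have := hI hs
      rw [h] at this
      norm_num at this
    rw [hf, Complex.exp_sub, exp_logTwist K ψ hs.1, Complex.exp_log hne]
    have hZ : twistedZeta K ψ s ≠ 0 := fun h => hne (by rw [h, zero_div])
    field_simp [hne]
  have hcount : (Complex.exp ⁻¹' {l}).Countable := by
    refine (Set.countable_range fun n : ℤ => Complex.log l + n * (2 * Real.pi * Complex.I)).mono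
      fun z hz => ?_
    obtain ⟨n, hn⟩ := Complex.exp_eq_exp_iff_exists_int.mp
      ((hz : Complex.exp z = l).trans (Complex.exp_log hl0).symm)
    exact ⟨n, hn.symm⟩
  have hsub : (f '' Set.Ioo 1 u).Subsingleton :=
    Set.Countable.isTotallyDisconnected hcount _ (by rintro _ ⟨s, hs, rfl⟩; exact hexp s hs)
      (isPreconnected_Ioo.image f hfc)
  obtain ⟨s₁, hs₁⟩ : (Set.Ioo 1 u).Nonempty := Set.nonempty_Ioo.mpr hu
  refine ⟨‖f s₁‖ + 1 + E, ?_⟩
  filter_upwards [Ioo_mem_nhdsGT hu] with s hs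
  have hfs : f s = f s₁ := hsub (Set.mem_image_of_mem f hs) (Set.mem_image_of_mem f hs₁)
  have hlog : ‖Complex.log (twistedZeta K ψ s / l)‖ ≤ 1 := by
    have h := Complex.norm_log_one_add_half_le_self (z := twistedZeta K ψ s / l - 1) (hI hs).le
    rw [add_sub_cancel] at h
    have := (hI hs).le
    linarith
  calc ‖degOneTwist K ψ s‖
      = ‖f s + Complex.log (twistedZeta K ψ s / l) - (logTwist K ψ s - degOneTwist K ψ s)‖ := by
        simp [hf]
    _ ≤ ‖f s + Complex.log (twistedZeta K ψ s / l)‖ + ‖logTwist K ψ s - degOneTwist K ψ s‖ :=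
        norm_sub_le _ _
    _ ≤ ‖f s₁‖ + 1 + E := by
        refine add_le_add ((norm_add_le _ _).trans (add_le_add (by rw [hfs]) hlog)) ?_
        exact norm_logTwist_sub_le K ψ hs.1

end FermatLib.Galois.Chebotarev
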