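import Mathlib.Analysis.Complex.Polynomial.Basic
import Mathlib.NumberTheory.DirichletCharacter.Orthogonality
import Mathlib.RingTheory.RootsOfUnity.AlgebraicallyClosed
import Mathlib.RingTheory.RootsOfUnity.Minpoly
import Fermat.Agent.Galois.Chebotarev.FrobWeight
import Fermat.Agent.Galois.Chebotarev.ClassSum
import Fermat.Agent.Galois.Chebotarev.LSeries

/-!
# Chebotarev for elements on which the cyclotomic character is injective

Let `M/ℚ` be finite Galois containing a primitive `m`-th root of unity and `g` an element such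
that the cyclotomic character is injective on the group it generates.  Then the weighted primes
with Frobenius element `g` have sum `-log (s - 1) + O(1)`.
-/

set_option autoImplicit false

open scoped NumberField Topology Pointwise Classical
open NumberField Filter Finset

namespace FermatLib.Galois.Chebotarev

variable (M : Type*) [Field M] [NumberField M] [IsGalois ℚ M]
variable {m : ℕ} [NeZero m] {ζ : M} (hζ : IsPrimitiveRoot ζ m)

omit [IsGalois ℚ M] in
/-- The cyclotomic character at a Frobenius element. -/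
lemma autToPow_eq_natCast {p : Nat.Primes} (hpm : ¬ (p : ℕ) ∣ m) {Q : Ideal (𝓞 M)} [Q.IsPrime]
    (hpQ : ((p : ℕ) : 𝓞 M) ∈ Q) {σ : M ≃ₐ[ℚ] M} (hσ : IsArithFrobAt ℤ σ Q) :
    ((hζ.autToPow ℚ σ : (ZMod m)ˣ) : ZMod m) = ((p : ℕ) : ZMod m) := by
  let ζ' : 𝓞 M := ⟨ζ, hζ.isIntegral (NeZero.pos m)⟩
  have hmQ : (m : 𝓞 M) ∉ Q := by
    intro hmem
    obtain ⟨a, b, hab⟩ := Int.isCoprime_iff_gcd_eq_one.mpr
      ((Int.gcd_natCast_natCast (p : ℕ) m).trans ((p.2.coprime_iff_not_dvd).mpr hpm))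
    have h1 := congrArg (fun n : ℤ => (n : 𝓞 M)) hab
    push_cast at h1
    exact Ideal.IsPrime.ne_top' ((Ideal.eq_top_iff_one Q).mpr
      (h1 ▸ Q.add_mem (Q.mul_mem_left _ hpQ) (Q.mul_mem_left _ hmem)))
  have h : σ • ζ' = ζ' ^ (p : ℕ) := by
    have h1 := AlgHom.IsArithFrobAt.apply_of_pow_eq_one hσ
      (RingOfIntegers.ext hζ.pow_eq_one : ζ' ^ m = 1) hmQ
    rwa [Density.natCard_quotient_under_int M p.2 hpQ] at h1
  have h2 : ζ ^ ((hζ.autToPow ℚ σ : (ZMod m)ˣ) : ZMod m).val = ζ ^ (p : ℕ) := by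
    rw [hζ.autToPow_spec ℚ σ]
    exact congrArg (fun x : 𝓞 M => (x : M)) h
  have h3 : ((hζ.autToPow ℚ σ : (ZMod m)ˣ) : ZMod m).val = (p : ℕ) % m := by
    refine hζ.pow_inj (ZMod.val_lt _) (Nat.mod_lt _ (NeZero.pos m)) ?_
    rw [h2, ← pow_mod_orderOf ζ, ← hζ.eq_orderOf]
  rw [← ZMod.natCast_zmod_val ((hζ.autToPow ℚ σ : (ZMod m)ˣ) : ZMod m), h3, ZMod.natCast_mod]

variable (g : M ≃ₐ[ℚ] M)

/-- The fixed field of the cyclic group. -/
abbrev cycField : IntermediateField ℚ M := Density.cyclicFixedField M g 1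

omit [IsGalois ℚ M] in
lemma zpowers_pow_one : Subgroup.zpowers (g ^ 1) = Subgroup.zpowers g := by rw [pow_one]

variable {p : Nat.Primes}
variable (hin : ∀ Q : Ideal (𝓞 M), Q.IsPrime → ((p : ℕ) : 𝓞 M) ∈ Q →
  Q.inertia (M ≃ₐ[ℚ] M) = ⊥)

include hin

lemma natCard_mul_idealCount_cycField :
    orderOf g * Density.idealCount (cycField M g) p =
      ∑ Q ∈ Density.primesWithFrobIn M p.2 (Subgroup.zpowers g),
        Nat.card (MulAction.stabilizer (M ≃ₐ[ℚ] M) Q) := by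
  have : IsGaloisGroup (Subgroup.zpowers (g ^ 1)) (cycField M g) M :=
    IsGaloisGroup.subgroup (M ≃ₐ[ℚ] M) ℚ M _
  have h := Density.natCard_mul_idealCount M (Subgroup.zpowers (g ^ 1)) (cycField M g) p.2 hin
  rwa [Nat.card_zpowers, pow_one] at h

variable (hpm : ¬ (p : ℕ) ∣ m)

include hpm

/-- Over `p`, the weight of `h` in the cyclic group counts the degree one primes of the fixed
field if `p` has the same residue as `h`. -/
lemma frobWeight_eq_ite (hinj : ∀ h ∈ Subgroup.zpowers g, hζ.autToPow ℚ h = 1 → h = 1)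
    {h : M ≃ₐ[ℚ] M} (hh : h ∈ Subgroup.zpowers g) :
    frobWeight M h p =
      if ((hζ.autToPow ℚ h : (ZMod m)ˣ) : ZMod m) = ((p : ℕ) : ZMod m) then
        orderOf g * Density.idealCount (cycField M g) p else 0 := by
  rw [frobWeight_eq_sum_ite hin]
  split_ifs with hc
  · rw [natCard_mul_idealCount_cycField M g hin]
    refine Finset.sum_congr (Finset.ext fun Q => ?_) fun _ _ => rfl
    rw [Finset.mem_filter, mem_primesAt, Density.mem_primesWithFrobIn]
    constructor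
    · rintro ⟨hQ, hf⟩
      exact ⟨hQ, h, hh, hf⟩
    · rintro ⟨⟨hQp, hpQ⟩, σ, hσH, hσ⟩
      refine ⟨⟨hQp, hpQ⟩, ?_⟩
      have hχ : hζ.autToPow ℚ (σ * h⁻¹) = 1 := by
        rw [map_mul, map_inv, mul_inv_eq_one]
        exact Units.ext ((autToPow_eq_natCast M hζ hpm hpQ hσ).trans hc.symm)
      rwa [← mul_inv_eq_one.mp (hinj _ (Subgroup.mul_mem _ hσH (Subgroup.inv_mem _ hh)) hχ)]
  · refine Finset.sum_eq_zero fun Q hQ => absurd ?_ hc
    obtain ⟨hQ', hf⟩ := Finset.mem_filter.mp hQ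
    obtain ⟨hQp, hpQ⟩ := mem_primesAt.mp hQ'
    exact autToPow_eq_natCast M hζ hpm hpQ hf

/-- A prime with a degree one prime in the fixed field has its residue in the image. -/
lemma exists_autToPow_of_idealCount_ne_zero
    (hne : Density.idealCount (cycField M g) p ≠ 0) :
    ∃ h ∈ Subgroup.zpowers g,
      ((hζ.autToPow ℚ h : (ZMod m)ˣ) : ZMod m) = ((p : ℕ) : ZMod m) := by
  have h := natCard_mul_idealCount_cycField M g hin
  obtain ⟨Q, hQ, -⟩ := Finset.exists_ne_zero_of_sum_ne_zero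
    (h ▸ mul_ne_zero (orderOf_pos g).ne' hne)
  obtain ⟨⟨hQp, hpQ⟩, σ, hσH, hσ⟩ := (Density.mem_primesWithFrobIn M).mp hQ
  exact ⟨σ, hσH, autToPow_eq_natCast M hζ hpm hpQ hσ⟩

omit hin hpm

variable {M g}

lemma summable_degOneTerm {K : Type*} [Field K] [NumberField K] (ψ : DirichletCharacter ℂ m) {s : ℝ}
    (hs : 1 < s) : Summable fun p : Nat.Primes =>
      ψ ((p : ℕ) : ZMod m) * (Density.idealCount K p : ℂ) * ((((p : ℕ) : ℝ) ^ (-s) : ℝ) : ℂ) := by
  refine Summable.of_norm_bounded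
    ((Nat.Primes.summable_rpow.mpr (by linarith : -s < -1)).mul_left (Module.finrank ℚ K : ℝ))
    fun p => ?_
  rw [norm_mul, norm_mul, Complex.norm_natCast, Complex.norm_real, Real.norm_eq_abs,
    abs_of_nonneg (Real.rpow_nonneg (Nat.cast_nonneg _) _)]
  refine mul_le_mul_of_nonneg_right ?_ (Real.rpow_nonneg (Nat.cast_nonneg _) _)
  exact (mul_le_of_le_one_left (Nat.cast_nonneg _) (ψ.norm_le_one _)).trans
    (Nat.cast_le.mpr (Density.idealCount_prime_le K p.2))

/-- The weighted primes with a given Frobenius element, for a good element. -/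
theorem frobSum_add_log_bounded
    (hinj : ∀ h ∈ Subgroup.zpowers g, hζ.autToPow ℚ h = 1 → h = 1) :
    ∃ C : ℝ, ∀ᶠ s in 𝓝[>] (1 : ℝ), |frobSum M g s + Real.log (s - 1)| ≤ C := by
  obtain ⟨N, hN, hinN⟩ := Density.exists_ne_zero_inertia_eq_bot M
  set K := cycField M g
  let U : Finset Nat.Primes := (N.primeFactors ∪ m.primeFactors).subtype Nat.Prime
  have hgood : ∀ p : Nat.Primes, p ∉ U → (∀ Q : Ideal (𝓞 M), Q.IsPrime → ((p : ℕ) : 𝓞 M) ∈ Q →
      Q.inertia (M ≃ₐ[ℚ] M) = ⊥) ∧ ¬ (p : ℕ) ∣ m := by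
    intro p hp
    have hp' := not_or.mp fun h => hp (Finset.mem_subtype.mpr (Finset.mem_union.mpr h))
    exact ⟨hinN p p.2 fun h => hp'.1 (Nat.mem_primeFactors.mpr ⟨p.2, h, hN⟩),
      fun h => hp'.2 (Nat.mem_primeFactors.mpr ⟨p.2, h, NeZero.ne m⟩)⟩
  set χ := hζ.autToPow ℚ
  let triv : DirichletCharacter ℂ m → Prop := fun ψ =>
    ∀ h ∈ Subgroup.zpowers g, ψ ((χ h : (ZMod m)ˣ) : ZMod m) = 1
  set S : DirichletCharacter ℂ m → ℝ → ℂ := fun ψ s => degOneTwist K ψ s
  set L₀ : ℝ → ℂ := fun s => ((-Real.log (s - 1) : ℝ) : ℂ)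
  have h1 : ∀ᶠ s in 𝓝[>] (1 : ℝ), 1 < s := self_mem_nhdsWithin
  -- characters trivial on the image
  have htriv : ∀ ψ, triv ψ → ∃ C, ∀ᶠ s in 𝓝[>] (1 : ℝ), ‖S ψ s - L₀ s‖ ≤ C := by
    intro ψ hψ
    obtain ⟨C, hC⟩ := Density.degOneSum_add_log_bounded K
    refine ⟨∑ p ∈ U, ‖ψ ((p : ℕ) : ZMod m) * (Density.idealCount K p : ℂ) -
      (Density.idealCount K p : ℂ)‖ + C, ?_⟩
    filter_upwards [h1, hC] with s hs hCs
    have hb : Summable fun p : Nat.Primes =>
        (Density.idealCount K p : ℂ) * ((((p : ℕ) : ℝ) ^ (-s) : ℝ) : ℂ) :=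
      (Complex.summable_ofReal.mpr (Density.degOneSum_summable K hs)).congr fun p => by push_cast; ring
    have hval : ((Density.degOneSum K s : ℝ) : ℂ) =
        ∑' p : Nat.Primes, (Density.idealCount K p : ℂ) * ((((p : ℕ) : ℝ) ^ (-s) : ℝ) : ℂ) := by
      rw [Density.degOneSum, Complex.ofReal_tsum]
      exact tsum_congr fun p => by push_cast; ring
    calc ‖S ψ s - L₀ s‖ ≤ ‖S ψ s - ((Density.degOneSum K s : ℝ) : ℂ)‖ +
          ‖((Density.degOneSum K s : ℝ) : ℂ) - L₀ s‖ := norm_sub_le_norm_sub_add_norm_sub _ _ _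
      _ ≤ _ := by
        refine add_le_add ?_ ?_
        · rw [hval]
          refine norm_primeTsum_sub_le U (fun p hp => ?_) (by linarith) (summable_degOneTerm ψ hs) hb
          rcases eq_or_ne (Density.idealCount K p) 0 with h0 | h0
          · simp [h0]
          · obtain ⟨h, hh, hχ⟩ := exists_autToPow_of_idealCount_ne_zero M hζ g (hgood p hp).1
              (hgood p hp).2 h0
            rw [← hχ, hψ h hh, one_mul]
        · simp only [L₀]
          rw [← Complex.ofReal_sub, Complex.norm_real, Real.norm_eq_abs, sub_neg_eq_add]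
          exact hCs
  -- the other characters
  have hlimit : ∀ ψ, ¬ triv ψ → ∃ l, Tendsto (twistedZeta K ψ) (𝓝[>] 1) (𝓝 l) := by
    intro ψ hψ
    refine exists_tendsto_twistedZeta K ψ fun T => ?_
    simp only [triv, not_forall] at hψ
    obtain ⟨h, hh, hne⟩ := hψ
    obtain ⟨q, hq, hqT, Q, hQp, hqQ, hQin, σ, hσ, hgen⟩ :=
      Density.exists_frobenius_generator M h (T ∪ (N.primeFactors ∪ m.primeFactors))
    simp only [Finset.mem_union, Nat.mem_primeFactors, not_or] at hqT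
    have hqm : ¬ q ∣ m := fun hd => hqT.2.2 ⟨hq, hd, NeZero.ne m⟩
    have hσH : σ ∈ Subgroup.zpowers g := by
      refine Subgroup.zpowers_le.mpr hh ?_
      rw [← hgen]
      exact Subgroup.mem_zpowers σ
    refine ⟨q, hq, hqT.1, ?_, ?_⟩
    · have : IsGaloisGroup (Subgroup.zpowers (g ^ 1)) K M :=
        IsGaloisGroup.subgroup (M ≃ₐ[ℚ] M) ℚ M _
      exact ⟨Q.under (𝓞 K), (Density.absNorm_under_eq_iff M (Subgroup.zpowers (g ^ 1)) K hq hqQ
        hQin).mpr ⟨σ, by rwa [zpowers_pow_one], hσ⟩⟩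
    · intro hψq
      refine hne ?_
      have hχσ : ψ ((χ σ : (ZMod m)ˣ) : ZMod m) = 1 := by
        rw [autToPow_eq_natCast (p := ⟨q, hq⟩) M hζ hqm hqQ hσ]
        exact hψq
      obtain ⟨k, hk⟩ := Subgroup.mem_zpowers_iff.mp (hgen ▸ Subgroup.mem_zpowers h :
        h ∈ Subgroup.zpowers σ)
      have hu : ψ.toUnitHom (χ σ) = 1 := Units.ext (by rw [MulChar.coe_toUnitHom, hχσ]; rfl)
      rw [← hk, map_zpow, ← MulChar.coe_toUnitHom, map_zpow, hu, one_zpow, Units.val_one]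
  have hupper : ∀ ψ, ¬ triv ψ → ∃ C, ∀ᶠ s in 𝓝[>] (1 : ℝ), (S ψ s).re ≤ C := fun ψ hψ => by
    obtain ⟨l, hl⟩ := hlimit ψ hψ
    exact exists_re_degOneTwist_le hl
  -- orthogonality
  set d : ℕ := ((Finset.univ : Finset (DirichletCharacter ℂ m)).filter triv).card
  have hd : (d : ℂ) * (orderOf g : ℂ) = (m.totient : ℂ) := by
    have hcard : Fintype.card (Subgroup.zpowers g) = orderOf g := Fintype.card_zpowers
    have hA : ∀ ψ : DirichletCharacter ℂ m,
        ∑ h : Subgroup.zpowers g, ψ ((χ h : (ZMod m)ˣ) : ZMod m) =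
          if triv ψ then (orderOf g : ℂ) else 0 := by
      intro ψ
      split_ifs with hψ
      · rw [Finset.sum_congr rfl fun h _ => hψ h.1 h.2, Finset.sum_const, Finset.card_univ, hcard,
          nsmul_eq_mul, mul_one]
      · let f : Subgroup.zpowers g →* ℂ :=
          (Units.coeHom ℂ).comp ((ψ.toUnitHom.comp χ).comp (Subgroup.zpowers g).subtype)
        have hf : ∀ h, f h = ψ ((χ h : (ZMod m)ˣ) : ZMod m) := fun h =>
          MulChar.coe_toUnitHom ψ (χ h)
        rw [← Finset.sum_congr rfl fun h _ => hf h]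
        refine sum_hom_units_eq_zero f fun h1 => hψ fun h hh => ?_
        rw [← hf ⟨h, hh⟩, h1, MonoidHom.one_apply]
    have hsum := Finset.sum_comm (s := (Finset.univ : Finset (DirichletCharacter ℂ m)))
      (t := (Finset.univ : Finset (Subgroup.zpowers g)))
      (f := fun ψ h => ψ ((χ h : (ZMod m)ˣ) : ZMod m))
    simp only [hA, DirichletCharacter.sum_characters_eq] at hsum
    rw [← Finset.sum_filter, Finset.sum_const, nsmul_eq_mul,
      Finset.sum_eq_single (1 : Subgroup.zpowers g)] at hsum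
    · simpa using hsum
    · intro h _ hne
      exact if_neg fun hc => hne (Subtype.ext (hinj h h.2 (Units.ext (hc.trans Units.val_one.symm))))
    · exact fun h => absurd (Finset.mem_univ _) h
  -- the class of `h`
  set T : ∀ _ : M ≃ₐ[ℚ] M, ℝ → ℂ := fun h s => ∑' p : Nat.Primes,
    (if ((χ h : (ZMod m)ˣ) : ZMod m) = ((p : ℕ) : ZMod m) then (Density.idealCount K p : ℂ) else 0) *
      ((((p : ℕ) : ℝ) ^ (-s) : ℝ) : ℂ)
  have horth : ∀ h : M ≃ₐ[ℚ] M, ∀ s : ℝ, 1 < s →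
      ∑ ψ : DirichletCharacter ℂ m, ψ ((χ h : (ZMod m)ˣ) : ZMod m)⁻¹ * S ψ s =
        (m.totient : ℂ) * T h s := by
    intro h s hs
    simp only [S, T, degOneTwist, ← tsum_mul_left]
    rw [← Summable.tsum_finsetSum fun ψ _ => (summable_degOneTerm ψ hs).mul_left _]
    refine tsum_congr fun p => ?_
    simp_rw [← mul_assoc, ← Finset.sum_mul,
      DirichletCharacter.sum_char_inv_mul_char_eq ℂ (Units.isUnit (χ h))]
    split_ifs <;> ring
  have hTweight : ∀ h ∈ Subgroup.zpowers g, ∃ C, ∀ᶠ s in 𝓝[>] (1 : ℝ),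
      ‖((frobSum M h s : ℝ) : ℂ) - (orderOf g : ℂ) * T h s‖ ≤ C := by
    intro h hh
    refine ⟨∑ p ∈ U, ‖(frobWeight M h p : ℂ) - (orderOf g : ℂ) *
      (if ((χ h : (ZMod m)ˣ) : ZMod m) = ((p : ℕ) : ZMod m) then
        (Density.idealCount K p : ℂ) else 0)‖, ?_⟩
    filter_upwards [h1] with s hs
    rw [frobSum, Complex.ofReal_tsum]
    simp only [Complex.ofReal_mul, Complex.ofReal_natCast, T, ← tsum_mul_left, ← mul_assoc]
    refine norm_primeTsum_sub_le U (fun p hp => ?_) (by linarith) ?_ ?_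
    · rw [frobWeight_eq_ite M hζ g (hgood p hp).1 (hgood p hp).2 hinj hh]
      split_ifs <;> simp [K]
    · exact (Complex.summable_ofReal.mpr (summable_frobTerm h hs)).congr fun p => by push_cast; ring
    · refine Summable.of_norm_bounded ((Nat.Primes.summable_rpow.mpr (by linarith : -s < -1)).mul_left
        ((orderOf g : ℝ) * Module.finrank ℚ K)) fun p => ?_
      rw [norm_mul, norm_mul, Complex.norm_natCast, Complex.norm_real, Real.norm_eq_abs,
        abs_of_nonneg (Real.rpow_nonneg (Nat.cast_nonneg _) _)]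
      refine mul_le_mul_of_nonneg_right (mul_le_mul_of_nonneg_left ?_ (Nat.cast_nonneg _))
        (Real.rpow_nonneg (Nat.cast_nonneg _) _)
      split_ifs
      · rw [Complex.norm_natCast]
        exact Nat.cast_le.mpr (Density.idealCount_prime_le K p.2)
      · rw [norm_zero]; positivity
  -- the trivial element
  obtain ⟨C₁, hC₁⟩ : ∃ C, ∀ᶠ s in 𝓝[>] (1 : ℝ),
      ‖((frobSum M 1 s : ℝ) : ℂ) - L₀ s‖ ≤ C := by
    obtain ⟨C, hC⟩ := Density.degOneSum_add_log_bounded (cycField M (1 : M ≃ₐ[ℚ] M))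
    refine ⟨(∑ p ∈ U, |(frobWeight M 1 p : ℝ) -
      (Density.idealCount (cycField M (1 : M ≃ₐ[ℚ] M)) p : ℝ)|) + C, ?_⟩
    filter_upwards [h1, hC] with s hs hCs
    have h2 : |frobSum M 1 s - Density.degOneSum (cycField M (1 : M ≃ₐ[ℚ] M)) s| ≤ ∑ p ∈ U,
        |(frobWeight M 1 p : ℝ) - (Density.idealCount (cycField M (1 : M ≃ₐ[ℚ] M)) p : ℝ)| := by
      refine abs_primeTsum_sub_le U (fun p hp => ?_) (by linarith) (summable_frobTerm 1 hs)
        (Density.degOneSum_summable _ hs)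
      rw [frobWeight_eq_ite M hζ (1 : M ≃ₐ[ℚ] M) (hgood p hp).1 (hgood p hp).2
        (fun h hh _ => Subgroup.mem_zpowers_iff.mp hh |>.elim fun k hk => by rw [← hk, one_zpow])
        (Subgroup.one_mem _)]
      split_ifs with hc
      · rw [orderOf_one, one_mul]
      · refine (Nat.cast_inj (R := ℝ)).mpr (Eq.symm ?_)
        by_contra h0
        obtain ⟨h, hh, hχ⟩ := exists_autToPow_of_idealCount_ne_zero M hζ (1 : M ≃ₐ[ℚ] M)
          (hgood p hp).1 (hgood p hp).2 h0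
        obtain ⟨k, rfl⟩ := Subgroup.mem_zpowers_iff.mp hh
        rw [one_zpow] at hχ
        exact hc hχ
    simp only [L₀]
    rw [← Complex.ofReal_sub, Complex.norm_real, Real.norm_eq_abs, sub_neg_eq_add]
    calc |frobSum M 1 s + Real.log (s - 1)|
        ≤ |frobSum M 1 s - Density.degOneSum (cycField M (1 : M ≃ₐ[ℚ] M)) s| +
          |Density.degOneSum (cycField M (1 : M ≃ₐ[ℚ] M)) s + Real.log (s - 1)| := by
          refine le_trans (le_of_eq ?_) (abs_add_le _ _)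
          ring_nf
      _ ≤ _ := add_le_add h2 hCs
  choose Ct hCt using fun ψ : {ψ : DirichletCharacter ℂ m // triv ψ} => htriv ψ.1 ψ.2
  choose Cu hCu using fun ψ : {ψ : DirichletCharacter ℂ m // ¬ triv ψ} => hupper ψ.1 ψ.2
  obtain ⟨C₂, hC₂⟩ := hTweight 1 (Subgroup.one_mem _)
  have htot : ∃ C, ∀ᶠ s in 𝓝[>] (1 : ℝ),
      ‖∑ ψ ∈ (Finset.univ : Finset (DirichletCharacter ℂ m)) with ¬ triv ψ, S ψ s‖ ≤ C := by
    refine ⟨(d : ℝ) * (C₂ + C₁) + ∑ ψ : {ψ : DirichletCharacter ℂ m // triv ψ}, Ct ψ, ?_⟩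
    filter_upwards [h1, hC₁, hC₂, eventually_all.mpr hCt] with s hs hs1 hs2 hst
    have h := horth 1 s hs
    simp only [map_one, Units.val_one, ZMod.inv_one, one_mul] at h
    rw [← Finset.sum_filter_add_sum_filter_not Finset.univ triv, ← hd] at h
    have hsplit : (∑ ψ ∈ (Finset.univ : Finset (DirichletCharacter ℂ m)) with ¬ triv ψ, S ψ s) =
        -((d : ℂ) * (((frobSum M 1 s : ℝ) : ℂ) - (orderOf g : ℂ) * T 1 s)) +
        (d : ℂ) * (((frobSum M 1 s : ℝ) : ℂ) - L₀ s) -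
        ∑ ψ ∈ (Finset.univ : Finset (DirichletCharacter ℂ m)) with triv ψ, (S ψ s - L₀ s) := by
      rw [Finset.sum_sub_distrib, Finset.sum_const, nsmul_eq_mul]
      linear_combination h
    rw [hsplit]
    refine (norm_sub_le _ _).trans (add_le_add ((norm_add_le _ _).trans ?_) ?_)
    · rw [norm_neg, norm_mul, norm_mul, Complex.norm_natCast, mul_add]
      gcongr
    · refine (norm_sum_le _ _).trans ?_
      rw [Finset.sum_subtype (p := triv) _ (fun ψ => by simp) fun ψ => ‖S ψ s - L₀ s‖]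
      exact Finset.sum_le_sum fun ψ _ => hst ψ
  obtain ⟨C₃, hC₃⟩ := htot
  have hbdd : ∀ ψ, ¬ triv ψ → ∃ B, ∀ᶠ s in 𝓝[>] (1 : ℝ), ‖S ψ s‖ ≤ B := by
    intro ψ hψ
    obtain ⟨l, hl⟩ := hlimit ψ hψ
    refine exists_norm_degOneTwist_le hl (C := -C₃ -
      ∑ φ ∈ ((Finset.univ : Finset {φ : DirichletCharacter ℂ m // ¬ triv φ})).erase ⟨ψ, hψ⟩, Cu φ) ?_
    filter_upwards [hC₃, eventually_all.mpr hCu] with s hs hsu
    have hre : -C₃ ≤ (∑ φ ∈ (Finset.univ : Finset (DirichletCharacter ℂ m)) with ¬ triv φ, S φ s).re := by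
      exact (abs_le.mp ((Complex.abs_re_le_norm _).trans hs)).1
    rw [Complex.re_sum, Finset.sum_subtype (p := fun φ => ¬ triv φ) _ (fun φ => by simp)
      fun φ => (S φ s).re, ← Finset.add_sum_erase _ _ (Finset.mem_univ (⟨ψ, hψ⟩ :
        {φ : DirichletCharacter ℂ m // ¬ triv φ}))] at hre
    have := Finset.sum_le_sum (s := (Finset.univ : Finset {φ : DirichletCharacter ℂ m // ¬ triv φ}).erase
      ⟨ψ, hψ⟩) fun φ _ => hsu φ
    simp only [S] at hre this ⊢
    linarith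
  choose Cb hCb using fun ψ : {ψ : DirichletCharacter ℂ m // ¬ triv ψ} => hbdd ψ.1 ψ.2
  obtain ⟨C₄, hC₄⟩ := hTweight g (Subgroup.mem_zpowers g)
  refine ⟨C₄ + (orderOf g : ℝ) / (m.totient : ℝ) *
    ((∑ ψ : {ψ : DirichletCharacter ℂ m // triv ψ}, Ct ψ) +
      ∑ ψ : {ψ : DirichletCharacter ℂ m // ¬ triv ψ}, Cb ψ), ?_⟩
  filter_upwards [h1, hC₄, eventually_all.mpr hCt, eventually_all.mpr hCb] with s hs hs4 hst hsb
  have hφ : (m.totient : ℂ) ≠ 0 := Nat.cast_ne_zero.mpr (Nat.totient_pos.mpr (NeZero.pos m)).ne'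
  set c : DirichletCharacter ℂ m → ℂ := fun ψ => ψ ((χ g : (ZMod m)ˣ) : ZMod m)⁻¹
  have hc : ∀ ψ, ‖c ψ‖ ≤ 1 := fun ψ => ψ.norm_le_one _
  have hc1 : ∀ ψ, triv ψ → c ψ = 1 := fun ψ hψ => by
    simp only [c]
    rw [ZMod.inv_coe_unit, ← map_inv]
    exact hψ _ (Subgroup.inv_mem _ (Subgroup.mem_zpowers g))
  have h := horth g s hs
  rw [← Finset.sum_filter_add_sum_filter_not Finset.univ triv] at h
  have hmain : (orderOf g : ℂ) * T g s - L₀ s = (orderOf g : ℂ) / (m.totient : ℂ) *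
      ((∑ ψ ∈ (Finset.univ : Finset (DirichletCharacter ℂ m)) with triv ψ, (c ψ * S ψ s - L₀ s)) +
        ∑ ψ ∈ (Finset.univ : Finset (DirichletCharacter ℂ m)) with ¬ triv ψ, c ψ * S ψ s) := by
    rw [Finset.sum_sub_distrib, Finset.sum_const, nsmul_eq_mul, sub_add_eq_add_sub, h,
      div_mul_eq_mul_div, eq_div_iff hφ]
    linear_combination (L₀ s) * hd
  have hfin : ‖((frobSum M g s : ℝ) : ℂ) - L₀ s‖ ≤ C₄ + (orderOf g : ℝ) / (m.totient : ℝ) *
      ((∑ ψ : {ψ : DirichletCharacter ℂ m // triv ψ}, Ct ψ) +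
        ∑ ψ : {ψ : DirichletCharacter ℂ m // ¬ triv ψ}, Cb ψ) := by
    refine (norm_sub_le_norm_sub_add_norm_sub _ ((orderOf g : ℂ) * T g s) _).trans (add_le_add hs4 ?_)
    rw [hmain, norm_mul, norm_div, Complex.norm_natCast, Complex.norm_natCast]
    refine mul_le_mul_of_nonneg_left ((norm_add_le _ _).trans (add_le_add ?_ ?_)) (by positivity)
    · refine (norm_sum_le _ _).trans ?_
      rw [Finset.sum_subtype (p := triv) _ (fun ψ => by simp) fun ψ => ‖c ψ * S ψ s - L₀ s‖]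
      exact Finset.sum_le_sum fun ψ _ => by rw [hc1 ψ.1 ψ.2, one_mul]; exact hst ψ
    · refine (norm_sum_le _ _).trans ?_
      rw [Finset.sum_subtype (p := fun ψ => ¬ triv ψ) _ (fun ψ => by simp) fun ψ => ‖c ψ * S ψ s‖]
      refine Finset.sum_le_sum fun ψ _ => ?_
      rw [norm_mul]
      exact (mul_le_of_le_one_left (norm_nonneg _) (hc _)).trans (hsb ψ)
  simp only [L₀] at hfin
  rwa [← Complex.ofReal_sub, Complex.norm_real, Real.norm_eq_abs, sub_neg_eq_add] at hfin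

end FermatLib.Galois.Chebotarev
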