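import Fermat.Agent.Galois.Chebotarev.Defs
import Fermat.Agent.Galois.Chebotarev.FrobWeight

/-!
# Frobenius weights as conjugation counts, and their behaviour in towers

At a prime with trivial inertia the weight of `g` is the number of elements conjugating a fixed
Frobenius element to `g`; so weights push forward along restriction maps.
-/

set_option autoImplicit false

open scoped NumberField Pointwise Classical
open NumberField Finset

namespace FermatLib.Galois.Chebotarev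

variable {M : Type*} [Field M] [NumberField M]

/-- A prime of positive weight has the given Frobenius element. -/
lemma isFrobeniusPrime_of_frobWeight_ne_zero {g : M ≃ₐ[ℚ] M} {p : Nat.Primes}
    (h : frobWeight M g p ≠ 0) : IsFrobeniusPrime M g p := by
  obtain ⟨Q, hQ, -⟩ := Finset.exists_ne_zero_of_sum_ne_zero h
  obtain ⟨hQ', hin, hf⟩ := Finset.mem_filter.mp hQ
  obtain ⟨hQp, hpQ⟩ := mem_primesAt.mp hQ'
  exact ⟨Q, hQp, hpQ, hin, hf⟩

lemma natCast_mem_smul {p : ℕ} (γ : M ≃ₐ[ℚ] M) {Q : Ideal (𝓞 M)} (hpQ : (p : 𝓞 M) ∈ Q) :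
    (p : 𝓞 M) ∈ γ • Q := by
  have h := Ideal.smul_mem_pointwise_smul γ _ _ hpQ
  rwa [show γ • (p : 𝓞 M) = (p : 𝓞 M) from
    map_natCast (MulSemiringAction.toRingHom (M ≃ₐ[ℚ] M) (𝓞 M) γ) _] at h

section Good

variable [IsGalois ℚ M] {p : Nat.Primes}
variable (hin : ∀ Q : Ideal (𝓞 M), Q.IsPrime → ((p : ℕ) : 𝓞 M) ∈ Q →
  Q.inertia (M ≃ₐ[ℚ] M) = ⊥)

include hin

/-- The weight counts the elements conjugating a Frobenius element to the given one. -/
lemma frobWeight_eq_card_conj {Q₀ : Ideal (𝓞 M)} [Q₀.IsPrime] (hpQ₀ : ((p : ℕ) : 𝓞 M) ∈ Q₀)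
    {σ₀ : M ≃ₐ[ℚ] M} (hσ₀ : IsArithFrobAt ℤ σ₀ Q₀) (g : M ≃ₐ[ℚ] M) :
    frobWeight M g p = #{γ : M ≃ₐ[ℚ] M | γ * σ₀ * γ⁻¹ = g} := by
  have huniq : ∀ γ : M ≃ₐ[ℚ] M, IsArithFrobAt ℤ g (γ • Q₀) ↔ γ * σ₀ * γ⁻¹ = g := by
    intro γ
    have hconj : IsArithFrobAt ℤ (γ * σ₀ * γ⁻¹) (γ • Q₀) := hσ₀.conj γ
    exact ⟨fun h => Density.isArithFrobAt_unique M
      (hin _ inferInstance (natCast_mem_smul γ hpQ₀)) hconj h, fun h => h ▸ hconj⟩
  have hmaps : Set.MapsTo (fun γ : M ≃ₐ[ℚ] M => γ • Q₀)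
      ({γ : M ≃ₐ[ℚ] M | γ * σ₀ * γ⁻¹ = g} : Finset _)
      ({Q ∈ (Density.primesAt_finite M p.2).toFinset | IsArithFrobAt ℤ g Q} : Finset _) := by
    intro γ hγ
    simp only [Finset.coe_filter, Finset.mem_univ, true_and, Set.mem_ofPred_eq, mem_primesAt] at hγ ⊢
    exact ⟨⟨inferInstance, natCast_mem_smul γ hpQ₀⟩, (huniq γ).mpr hγ⟩
  rw [frobWeight_eq_sum_ite hin, Finset.card_eq_sum_card_fiberwise hmaps]
  refine Finset.sum_congr rfl fun Q hQ => ?_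
  obtain ⟨hQ', hf⟩ := Finset.mem_filter.mp hQ
  obtain ⟨hQp, hpQ⟩ := mem_primesAt.mp hQ'
  obtain ⟨γ₀, hγ₀⟩ := Algebra.IsInvariant.exists_smul_of_under_eq ℤ (𝓞 M) (M ≃ₐ[ℚ] M) Q₀ Q
    (by
      have hmax : (Ideal.span {((p : ℕ) : ℤ)}).IsMaximal :=
        PrincipalIdealRing.isMaximal_of_irreducible (Nat.prime_iff_prime_int.mp p.2).irreducible
      have hunder : ∀ R : Ideal (𝓞 M), R.IsPrime → ((p : ℕ) : 𝓞 M) ∈ R →
          R.under ℤ = Ideal.span {((p : ℕ) : ℤ)} := fun R hR hpR => by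
        refine (hmax.eq_of_le (Ideal.comap_ne_top _ hR.ne_top) ?_).symm
        rw [Ideal.span_singleton_le_iff_mem, Ideal.mem_comap]
        simpa using hpR
      exact (hunder Q₀ inferInstance hpQ₀).trans (hunder Q hQp hpQ).symm)
  rw [Finset.filter_filter, Nat.card_eq_fintype_card, ← Finset.card_univ]
  refine Finset.card_bij (fun s _ => (s : M ≃ₐ[ℚ] M) * γ₀) ?_ ?_ ?_
  · intro s _
    have hs : ((s : M ≃ₐ[ℚ] M) * γ₀) • Q₀ = Q := by
      rw [mul_smul, ← hγ₀]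
      exact MulAction.mem_stabilizer_iff.mp s.2
    simp only [Finset.mem_filter, Finset.mem_univ, true_and]
    exact ⟨(huniq _).mp (hs.symm ▸ hf), hs⟩
  · intro s _ t _ hst
    exact Subtype.ext (mul_right_cancel hst)
  · intro γ hγ
    simp only [Finset.mem_filter, Finset.mem_univ, true_and] at hγ
    refine ⟨⟨γ * γ₀⁻¹, MulAction.mem_stabilizer_iff.mpr ?_⟩, Finset.mem_univ _, ?_⟩
    · rw [hγ₀, mul_smul, inv_smul_smul, hγ.2, hγ₀]
    · simp

/-- Every prime with trivial inertia has exactly one degree one prime in the fixed field of the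
whole group. -/
lemma idealCount_fixedField_top :
    Density.idealCount (IntermediateField.fixedField (⊤ : Subgroup (M ≃ₐ[ℚ] M))) p = 1 := by
  have : IsGaloisGroup (⊤ : Subgroup (M ≃ₐ[ℚ] M))
      (IntermediateField.fixedField (⊤ : Subgroup (M ≃ₐ[ℚ] M))) M :=
    IsGaloisGroup.subgroup (M ≃ₐ[ℚ] M) ℚ M _
  have h := Density.natCard_mul_idealCount M (⊤ : Subgroup (M ≃ₐ[ℚ] M))
    (IntermediateField.fixedField (⊤ : Subgroup (M ≃ₐ[ℚ] M))) p.2 hin
  have hall : Density.primesWithFrobIn M p.2 (⊤ : Subgroup (M ≃ₐ[ℚ] M)) =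
      (Density.primesAt_finite M p.2).toFinset := by
    ext Q
    rw [Density.mem_primesWithFrobIn, mem_primesAt]
    refine and_iff_left_of_imp fun ⟨hQp, hpQ⟩ => ?_
    obtain ⟨σ, hσ⟩ := Density.exists_isArithFrobAt M p.2 hpQ
    exact ⟨σ, Subgroup.mem_top σ, hσ⟩
  rw [hall, sum_card_stabilizer_primesAt hin, Subgroup.card_top] at h
  exact mul_left_cancel₀ (Nat.card_pos (α := M ≃ₐ[ℚ] M)).ne' (h.trans (mul_one _).symm)

/-- On a conjugation stable set the weights add up to the whole group or to nothing. -/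
lemma sum_frobWeight_eq_ite (X : Set (M ≃ₐ[ℚ] M))
    (hX : ∀ g ∈ X, ∀ γ : M ≃ₐ[ℚ] M, γ * g * γ⁻¹ ∈ X) :
    ∑ g ∈ X.toFinset, frobWeight M g p =
      if p ∈ frobeniusPrimes M X then Nat.card (M ≃ₐ[ℚ] M) else 0 := by
  split_ifs with hp
  · obtain ⟨g₀, hg₀, Q₀, hQ₀, hpQ₀, -, hf₀⟩ := hp
    rw [← sum_frobWeight hin]
    refine Finset.sum_subset (Finset.subset_univ _) fun g _ hg => ?_
    rw [frobWeight_eq_card_conj hin hpQ₀ hf₀, Finset.card_eq_zero, Finset.filter_eq_empty_iff]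
    rintro γ - rfl
    exact hg (Set.mem_toFinset.mpr (hX g₀ hg₀ γ))
  · refine Finset.sum_eq_zero fun g hg => by_contra fun h => hp ?_
    exact ⟨g, Set.mem_toFinset.mp hg, isFrobeniusPrime_of_frobWeight_ne_zero h⟩

variable {L : Type*} [Field L] [NumberField L] [IsGalois ℚ L] [Algebra L M]
  [IsScalarTower ℚ L M]

/-- Weights push forward along the restriction to a Galois subextension. -/
lemma sum_frobWeight_fiber (hinL : ∀ Q : Ideal (𝓞 L), Q.IsPrime → ((p : ℕ) : 𝓞 L) ∈ Q →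
      Q.inertia (L ≃ₐ[ℚ] L) = ⊥) (σ : L ≃ₐ[ℚ] L) :
    ∑ g : M ≃ₐ[ℚ] M with AlgEquiv.restrictNormalHom L g = σ, frobWeight M g p =
      Nat.card (AlgEquiv.restrictNormalHom L (F := ℚ) (K₁ := M)).ker * frobWeight L σ p := by
  set π : (M ≃ₐ[ℚ] M) →* (L ≃ₐ[ℚ] L) := AlgEquiv.restrictNormalHom L
  obtain ⟨⟨Q₀, hQ₀, hQ₀o⟩⟩ :
      Nonempty (Ideal.primesOver (Ideal.span {((p : ℕ) : ℤ)}) (𝓞 M)) := by
    have : (Ideal.span {((p : ℕ) : ℤ)}).IsMaximal :=
      PrincipalIdealRing.isMaximal_of_irreducible (Nat.prime_iff_prime_int.mp p.2).irreducible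
    infer_instance
  have hpQ₀ : ((p : ℕ) : 𝓞 M) ∈ Q₀ := by
    have h : ((p : ℕ) : ℤ) ∈ Q₀.under ℤ := by
      rw [← hQ₀o.over]
      exact Ideal.mem_span_singleton_self _
    simpa [Ideal.mem_comap] using h
  obtain ⟨σ₀, hσ₀⟩ := Density.exists_isArithFrobAt M p.2 hpQ₀
  set Q₁ : Ideal (𝓞 L) := Q₀.under (𝓞 L) with hQ₁
  have hpQ₁ : ((p : ℕ) : 𝓞 L) ∈ Q₁ := by
    rw [hQ₁, Ideal.mem_comap, map_natCast]
    exact hpQ₀
  have hσ₁ : IsArithFrobAt ℤ (π σ₀) Q₁ := by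
    rw [Density.isArithFrobAt_int_iff L p.2 hpQ₁]
    intro x
    rw [hQ₁, Ideal.mem_comap, map_sub, map_pow]
    have h := (Density.isArithFrobAt_int_iff M p.2 hpQ₀ σ₀).mp hσ₀ (algebraMap (𝓞 L) (𝓞 M) x)
    convert h using 2
    exact RingOfIntegers.ext (AlgEquiv.restrictNormal_commutes σ₀ L (x : L))
  rw [Finset.sum_congr rfl fun g _ => frobWeight_eq_card_conj hin hpQ₀ hσ₀ g,
    frobWeight_eq_card_conj hinL hpQ₁ hσ₁]
  have hfib : ∑ g : M ≃ₐ[ℚ] M with π g = σ, #{γ : M ≃ₐ[ℚ] M | γ * σ₀ * γ⁻¹ = g} =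
      #{γ : M ≃ₐ[ℚ] M | π γ * π σ₀ * (π γ)⁻¹ = σ} := by
    rw [Finset.card_eq_sum_card_fiberwise (f := fun γ : M ≃ₐ[ℚ] M => γ * σ₀ * γ⁻¹)
      (t := {g : M ≃ₐ[ℚ] M | π g = σ})]
    · refine Finset.sum_congr rfl fun g hg => congrArg Finset.card ?_
      ext γ
      simp only [Finset.mem_filter, Finset.mem_univ, true_and] at hg ⊢
      constructor
      · rintro rfl
        exact ⟨by simpa using hg, rfl⟩
      · exact fun h => h.2
    · intro γ hγ
      simpa using hγ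
  rw [hfib, Finset.card_eq_sum_card_fiberwise (f := π)
    (t := {δ : L ≃ₐ[ℚ] L | δ * π σ₀ * δ⁻¹ = σ}) (fun γ hγ => by simpa using hγ),
    mul_comm, ← smul_eq_mul, ← Finset.sum_const]
  refine Finset.sum_congr rfl fun δ hδ => ?_
  obtain ⟨γ₀, rfl⟩ := AlgEquiv.restrictNormalHom_surjective (F := ℚ) (K₁ := L) M δ
  simp only [Finset.mem_filter, Finset.mem_univ, true_and] at hδ
  rw [Finset.filter_filter, Nat.card_eq_fintype_card, ← Finset.card_univ]
  refine (Finset.card_bij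
    (s := (Finset.univ : Finset (AlgEquiv.restrictNormalHom L (F := ℚ) (K₁ := M)).ker))
    (fun k _ => γ₀ * (k : M ≃ₐ[ℚ] M)) ?_ ?_ ?_).symm
  · intro k _
    simp only [Finset.mem_filter, Finset.mem_univ, true_and]
    have hk : π (γ₀ * k) = π γ₀ := by rw [map_mul, MonoidHom.mem_ker.mp k.2, mul_one]
    exact ⟨by rw [hk]; exact hδ, hk⟩
  · intro a _ b _ hab
    exact Subtype.ext (mul_left_cancel hab)
  · intro γ hγ
    simp only [Finset.mem_filter, Finset.mem_univ, true_and] at hγ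
    refine ⟨⟨γ₀⁻¹ * γ, MonoidHom.mem_ker.mpr ?_⟩, Finset.mem_univ _, by simp⟩
    rw [map_mul, map_inv, hγ.2]
    exact inv_mul_cancel _

end Good

end FermatLib.Galois.Chebotarev
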