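import Mathlib.NumberTheory.Cyclotomic.Basic
import Mathlib.RingTheory.RootsOfUnity.AlgebraicallyClosed
import Mathlib.RingTheory.Polynomial.Cyclotomic.Roots
import Mathlib.NumberTheory.PrimesCongruentOne
import Fermat.Agent.Galois.Chebotarev.CyclicCase
import Fermat.Agent.Galois.Chebotarev.Pushforward

/-!
# Crossing with cyclotomic fields

Crossing `L` with the field of `q`-th roots of unity for a prime `q ≡ 1` modulo a high power of
`[L : ℚ]` makes almost every lift of an element good, so that every Frobenius class of `L` has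
its share of the primes.
-/

set_option autoImplicit false

open scoped NumberField Topology Classical IntermediateField
open NumberField Filter Finset

namespace FermatLib.Galois.Chebotarev

/-- In a cyclic group whose order is divisible by a high power of `n`, few orders are not
divisible by `n`. -/
lemma card_not_dvd_orderOf_mul_le {A : Type*} [CommGroup A] [IsCyclic A] [Fintype A] {n k : ℕ}
    (hn : n ≠ 0) (hdvd : n ^ (k + 1) ∣ Fintype.card A) :
    #{x : A | ¬ n ∣ orderOf x} * 2 ^ k ≤ n * Fintype.card A := by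
  set t := Fintype.card A
  have hsub : ({x : A | ¬ n ∣ orderOf x} : Finset A) ⊆
      n.primeFactors.biUnion fun ℓ => {x : A | x ^ (t / ℓ ^ k) = 1} := by
    intro x hx
    rw [Finset.mem_filter] at hx
    obtain ⟨ℓ, a, hℓ, hℓa, hnot⟩ : ∃ ℓ a, ℓ.Prime ∧ ℓ ^ a ∣ n ∧ ¬ ℓ ^ a ∣ orderOf x := by
      by_contra! h
      exact hx.2 ((Nat.dvd_iff_prime_pow_dvd_dvd _ _).mpr fun p j hp hpj => h p j hp hpj)
    obtain ⟨b, d, hd, hbd⟩ := Nat.exists_eq_pow_mul_and_not_dvd (orderOf_pos x).ne' ℓ hℓ.ne_one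
    have hba : b < a := by
      by_contra! hab
      exact hnot (hbd ▸ (pow_dvd_pow ℓ hab).trans (dvd_mul_right _ _))
    have ha0 : a ≠ 0 := by omega
    have hdvd' : orderOf x * ℓ ^ k ∣ t := by
      have h1 : ℓ ^ (b + k) ∣ t := by
        refine ((pow_dvd_pow ℓ (show b + k ≤ a * (k + 1) by nlinarith)).trans ?_).trans
          ((pow_dvd_pow_of_dvd hℓa (k + 1)).trans hdvd)
        rw [← pow_mul]
      have h2 : d ∣ t := (hbd ▸ dvd_mul_left d (ℓ ^ b) : d ∣ orderOf x).trans orderOf_dvd_card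
      have h3 := Nat.Coprime.mul_dvd_of_dvd_of_dvd
        (((hℓ.coprime_iff_not_dvd).mpr hd).pow_left (b + k)) h1 h2
      rwa [hbd, show ℓ ^ b * d * ℓ ^ k = ℓ ^ (b + k) * d by rw [pow_add]; ring]
    refine Finset.mem_biUnion.mpr ⟨ℓ, Nat.mem_primeFactors.mpr
      ⟨hℓ, (dvd_pow_self ℓ ha0).trans hℓa, hn⟩, Finset.mem_filter.mpr ⟨Finset.mem_univ _, ?_⟩⟩
    obtain ⟨c, hc⟩ := hdvd'
    rw [hc, show orderOf x * ℓ ^ k * c = orderOf x * c * ℓ ^ k by ring,
      Nat.mul_div_cancel _ (pow_pos hℓ.pos _), pow_mul, pow_orderOf_eq_one, one_pow]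
  calc #{x : A | ¬ n ∣ orderOf x} * 2 ^ k
      ≤ (∑ ℓ ∈ n.primeFactors, #{x : A | x ^ (t / ℓ ^ k) = 1}) * 2 ^ k :=
        Nat.mul_le_mul_right _ ((Finset.card_le_card hsub).trans Finset.card_biUnion_le)
    _ = ∑ ℓ ∈ n.primeFactors, #{x : A | x ^ (t / ℓ ^ k) = 1} * 2 ^ k := Finset.sum_mul _ _ _
    _ ≤ ∑ ℓ ∈ n.primeFactors, t := by
        refine Finset.sum_le_sum fun ℓ hℓ => ?_
        obtain ⟨hℓp, hℓn, -⟩ := Nat.mem_primeFactors.mp hℓ
        have hk : ℓ ^ k ∣ t :=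
          ((pow_dvd_pow_of_dvd hℓn k).trans (pow_dvd_pow n (Nat.le_succ k))).trans hdvd
        have hpos : 0 < t / ℓ ^ k :=
          Nat.div_pos (Nat.le_of_dvd Fintype.card_pos hk) (pow_pos hℓp.pos _)
        calc #{x : A | x ^ (t / ℓ ^ k) = 1} * 2 ^ k ≤ t / ℓ ^ k * ℓ ^ k :=
              Nat.mul_le_mul (IsCyclic.card_pow_eq_one_le hpos)
                (Nat.pow_le_pow_left hℓp.two_le _)
          _ = t := Nat.div_mul_cancel hk
    _ ≤ n * t := by
        rw [Finset.sum_const, smul_eq_mul]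
        refine Nat.mul_le_mul_right _ ((Finset.card_le_card fun ℓ hℓ => ?_).trans
          (Nat.card_Icc 1 n).le)
        obtain ⟨hℓp, hℓn, hn'⟩ := Nat.mem_primeFactors.mp hℓ
        exact Finset.mem_Icc.mpr ⟨hℓp.one_le, Nat.le_of_dvd (Nat.pos_of_ne_zero hn') hℓn⟩

variable (L : Type*) [Field L] [NumberField L] [IsGalois ℚ L]

/-- All Frobenius sums together form the full prime sum. -/
lemma sum_frobSum_add_log_bounded : ∃ C : ℝ, ∀ᶠ s in 𝓝[>] (1 : ℝ),
    |∑ σ : L ≃ₐ[ℚ] L, frobSum L σ s + Nat.card (L ≃ₐ[ℚ] L) * Real.log (s - 1)| ≤ C := by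
  obtain ⟨N, hN, hinN⟩ := Density.exists_ne_zero_inertia_eq_bot L
  let U : Finset Nat.Primes := N.primeFactors.subtype Nat.Prime
  set n : ℕ := Nat.card (L ≃ₐ[ℚ] L)
  set K := IntermediateField.fixedField (⊤ : Subgroup (L ≃ₐ[ℚ] L))
  obtain ⟨C, hC⟩ := Density.degOneSum_add_log_bounded K
  refine ⟨(∑ p ∈ U, |(∑ σ : L ≃ₐ[ℚ] L, (frobWeight L σ p : ℝ)) -
    n * (Density.idealCount K p : ℝ)|) + n * C, ?_⟩
  filter_upwards [self_mem_nhdsWithin, hC] with s (hs : 1 < s) hCs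
  have h1 : ∑ σ : L ≃ₐ[ℚ] L, frobSum L σ s = ∑' p : Nat.Primes,
      (∑ σ : L ≃ₐ[ℚ] L, (frobWeight L σ p : ℝ)) * ((p : ℕ) : ℝ) ^ (-s) := by
    simp only [frobSum, Finset.sum_mul]
    exact (Summable.tsum_finsetSum fun σ _ => summable_frobTerm σ hs).symm
  have h2 : (n : ℝ) * Density.degOneSum K s = ∑' p : Nat.Primes,
      ((n : ℝ) * (Density.idealCount K p : ℝ)) * ((p : ℕ) : ℝ) ^ (-s) := by
    rw [Density.degOneSum, ← tsum_mul_left]
    simp only [mul_assoc]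
  have h3 : |∑ σ : L ≃ₐ[ℚ] L, frobSum L σ s - n * Density.degOneSum K s| ≤
      ∑ p ∈ U, |(∑ σ : L ≃ₐ[ℚ] L, (frobWeight L σ p : ℝ)) - n * (Density.idealCount K p : ℝ)| := by
    rw [h1, h2]
    refine abs_primeTsum_sub_le U (fun p hp => ?_) (by linarith) ?_ ?_
    · have hin := hinN p p.2 fun h => hp (Finset.mem_subtype.mpr
        (Nat.mem_primeFactors.mpr ⟨p.2, h, hN⟩))
      rw [← Nat.cast_sum, sum_frobWeight hin, idealCount_fixedField_top hin, Nat.cast_one, mul_one]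
    · exact (summable_sum fun σ (_ : σ ∈ Finset.univ) => summable_frobTerm (M := L) σ hs).congr
        fun p => (Finset.sum_mul _ _ _).symm
    · exact ((Density.degOneSum_summable K hs).mul_left (n : ℝ)).congr fun p => (mul_assoc _ _ _).symm
  calc |∑ σ : L ≃ₐ[ℚ] L, frobSum L σ s + n * Real.log (s - 1)|
      ≤ |∑ σ : L ≃ₐ[ℚ] L, frobSum L σ s - n * Density.degOneSum K s| +
        |(n : ℝ) * (Density.degOneSum K s + Real.log (s - 1))| := by
        refine le_trans (le_of_eq ?_) (abs_add_le _ _)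
        ring_nf
    _ ≤ _ := by
        refine add_le_add h3 ?_
        rw [abs_mul, Nat.abs_cast]
        exact mul_le_mul_of_nonneg_left hCs (Nat.cast_nonneg _)

/-- A Galois field containing `L` and a primitive `q`-th root of unity, generated by the two. -/
lemma exists_crossing (q : ℕ) [Fact q.Prime] :
    ∃ (M : IntermediateField ℚ (AlgebraicClosure ℚ)) (_ : NumberField M) (_ : IsGalois ℚ M)
      (ψ : L →ₐ[ℚ] M) (ζ : M), IsPrimitiveRoot ζ q ∧ q - 1 ≤ Module.finrank ℚ M ∧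
        ∀ g : M ≃ₐ[ℚ] M, (∀ x, g (ψ x) = ψ x) → g ζ = ζ → g = 1 := by
  have : NeZero q := ⟨(Fact.out : q.Prime).ne_zero⟩
  have : Algebra.IsAlgebraic ℚ (AlgebraicClosure ℚ) := AlgebraicClosure.isAlgebraic ℚ
  let φ : L →ₐ[ℚ] AlgebraicClosure ℚ := IsAlgClosed.lift
  obtain ⟨ζ, hζ⟩ := HasEnoughRootsOfUnity.exists_primitiveRoot (AlgebraicClosure ℚ) q
  let L' : IntermediateField ℚ (AlgebraicClosure ℚ) := φ.fieldRange
  have : FiniteDimensional ℚ L' := φ.toLinearMap.finiteDimensional_range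
  have : Normal ℚ L' := Normal.of_algEquiv (AlgEquiv.ofInjectiveField φ)
  have hint : IsIntegral ℚ ζ := hζ.isIntegral (NeZero.pos q) |>.tower_top
  have : FiniteDimensional ℚ ℚ⟮ζ⟯ := IntermediateField.adjoin.finiteDimensional hint
  have : IsCyclotomicExtension {q} ℚ ℚ⟮ζ⟯ := hζ.intermediateField_adjoin_isCyclotomicExtension ℚ
  have : IsGalois ℚ ℚ⟮ζ⟯ := IsCyclotomicExtension.isGalois {q} ℚ ℚ⟮ζ⟯
  let M : IntermediateField ℚ (AlgebraicClosure ℚ) := L' ⊔ ℚ⟮ζ⟯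
  have : FiniteDimensional ℚ M := IntermediateField.finiteDimensional_sup _ _
  have : Normal ℚ M :=
    @IntermediateField.normal_sup ℚ (AlgebraicClosure ℚ) _ _ _ L' ℚ⟮ζ⟯
      ‹Normal ℚ L'› (‹IsGalois ℚ ℚ⟮ζ⟯›).to_normal
  refine ⟨M, ⟨⟩, ⟨⟩, φ.codRestrict M.toSubalgebra fun x => (le_sup_left : L' ≤ M) ⟨x, rfl⟩,
    ⟨ζ, (le_sup_right : ℚ⟮ζ⟯ ≤ M) (IntermediateField.mem_adjoin_simple_self ℚ ζ)⟩, ?_, ?_, ?_⟩
  · exact IsPrimitiveRoot.of_map_of_injective (f := M.val) (by exact hζ) M.val.injective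
  · refine le_trans (le_of_eq ?_) (IntermediateField.finrank_le_of_le_right le_sup_right)
    rw [IntermediateField.adjoin.finrank hint,
      ← Polynomial.cyclotomic_eq_minpoly_rat hζ (NeZero.pos q), Polynomial.natDegree_cyclotomic,
      Nat.totient_prime Fact.out]
  · intro g hψ hgζ
    set F : IntermediateField ℚ M := IntermediateField.fixedField (Subgroup.zpowers g)
    have hmem : ∀ x : M, g x = x → (x : AlgebraicClosure ℚ) ∈ IntermediateField.lift F := by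
      intro x hx
      refine (IntermediateField.mem_lift x).mpr
        ((IntermediateField.mem_fixedField_iff _ _).mpr fun f hf => ?_)
      have : g ∈ MulAction.stabilizer (M ≃ₐ[ℚ] M) x := hx
      exact Subgroup.zpowers_le.mpr this hf
    have hle : M ≤ IntermediateField.lift F := by
      refine sup_le ?_ (IntermediateField.adjoin_simple_le_iff.mpr (hmem _ hgζ))
      rintro _ ⟨x, rfl⟩
      exact hmem _ (hψ x)
    refine AlgEquiv.ext fun x => ?_
    exact (IntermediateField.mem_fixedField_iff _ _).mp ((IntermediateField.mem_lift x).mp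
      (hle x.2)) g (Subgroup.mem_zpowers g)

/-- Each class gets almost its share. -/
lemma exists_le_frobSum (σ : L ≃ₐ[ℚ] L) (k : ℕ) : ∃ C : ℝ, ∀ᶠ s in 𝓝[>] (1 : ℝ),
    (1 - (Nat.card (L ≃ₐ[ℚ] L) : ℝ) ^ 2 / 2 ^ k) * -Real.log (s - 1) - C ≤ frobSum L σ s := by
  set n : ℕ := Nat.card (L ≃ₐ[ℚ] L)
  have hn : n ≠ 0 := Nat.card_pos.ne'
  obtain ⟨q, hq, -, hq1⟩ := Nat.exists_prime_gt_modEq_one (k := n ^ (k + 1)) n (pow_ne_zero _ hn)
  have : Fact q.Prime := ⟨hq⟩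
  have : NeZero q := ⟨hq.ne_zero⟩
  obtain ⟨M, hnum, hgal, ψ, ζ, hζ, hrank, hinj⟩ := exists_crossing L q
  let _ : Algebra L M := ψ.toRingHom.toAlgebra
  have : IsScalarTower ℚ L M := IsScalarTower.of_algebraMap_eq fun x => (ψ.commutes x).symm
  set π : (M ≃ₐ[ℚ] M) →* (L ≃ₐ[ℚ] L) := AlgEquiv.restrictNormalHom L
  set χ := hζ.autToPow ℚ
  have hjoint : ∀ g, π g = 1 → χ g = 1 → g = 1 := by
    intro g h1 h2
    refine hinj g (fun x => ?_) ?_
    · have h : ψ (π g x) = g (ψ x) := AlgEquiv.restrictNormal_commutes g L x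
      rw [← h, h1, AlgEquiv.one_apply]
    · have h := hζ.autToPow_spec ℚ g
      rw [show hζ.autToPow ℚ g = 1 from h2, Units.val_one, ZMod.val_one, pow_one] at h
      exact h.symm
  set F : Finset (M ≃ₐ[ℚ] M) := {g | π g = σ}
  set N : ℕ := Nat.card π.ker
  have hπ : Function.Surjective π := AlgEquiv.restrictNormalHom_surjective _
  have hN : 0 < N := Nat.card_pos
  have hF : #F = N := by
    obtain ⟨g₀, hg₀⟩ := hπ σ
    rw [show N = Fintype.card π.ker from Nat.card_eq_fintype_card, ← Finset.card_univ]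
    refine (Finset.card_bij (s := (Finset.univ : Finset π.ker)) (fun a _ => g₀ * (a : M ≃ₐ[ℚ] M))
      (fun a _ => Finset.mem_filter.mpr ⟨Finset.mem_univ _, ?_⟩)
      (fun a _ b _ h => Subtype.ext (mul_left_cancel h)) fun g hg => ?_).symm
    · rw [map_mul, MonoidHom.mem_ker.mp a.2, mul_one, hg₀]
    · refine ⟨⟨g₀⁻¹ * g, MonoidHom.mem_ker.mpr ?_⟩, Finset.mem_univ _, by simp⟩
      rw [map_mul, map_inv, hg₀, (Finset.mem_filter.mp hg).2, inv_mul_cancel]
  have hqN : q - 1 ≤ n * N := by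
    refine hrank.trans (le_of_eq ?_)
    rw [← IsGalois.card_aut_eq_finrank ℚ M, ← π.ker.index_mul_card, Subgroup.index_ker,
      MonoidHom.range_eq_top.mpr hπ, Subgroup.card_top]
  set good : Finset (M ≃ₐ[ℚ] M) := {g ∈ F | n ∣ orderOf (χ g)}
  have hbad : #{g ∈ F | ¬ n ∣ orderOf (χ g)} * 2 ^ k ≤ n * (n * N) := by
    have hle : #{g ∈ F | ¬ n ∣ orderOf (χ g)} ≤ #{x : (ZMod q)ˣ | ¬ n ∣ orderOf x} := by
      refine Finset.card_le_card_of_injOn χ (fun g hg => ?_) fun a ha b hb hab => ?_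
      · exact Finset.mem_filter.mpr ⟨Finset.mem_univ _, (Finset.mem_filter.mp hg).2⟩
      · have ha' := (Finset.mem_filter.mp (Finset.mem_filter.mp ha).1).2
        have hb' := (Finset.mem_filter.mp (Finset.mem_filter.mp hb).1).2
        refine mul_inv_eq_one.mp (hjoint (a * b⁻¹) ?_ ?_)
        · rw [map_mul, map_inv, ha', hb', mul_inv_cancel]
        · rw [map_mul, map_inv, hab, mul_inv_cancel]
    refine (Nat.mul_le_mul_right _ hle).trans
      ((card_not_dvd_orderOf_mul_le hn ?_).trans (Nat.mul_le_mul_left n ?_))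
    · rw [ZMod.card_units]
      exact (Nat.modEq_iff_dvd' hq.one_le).mp hq1.symm
    · rwa [ZMod.card_units]
  have hgood : (1 - (n : ℝ) ^ 2 / 2 ^ k) * N ≤ #good := by
    have hsum : #good + #{g ∈ F | ¬ n ∣ orderOf (χ g)} = N :=
      (Finset.card_filter_add_card_filter_not _).trans hF
    have h1 : (#good : ℝ) + #{g ∈ F | ¬ n ∣ orderOf (χ g)} = N := by exact_mod_cast hsum
    have h2 : (#{g ∈ F | ¬ n ∣ orderOf (χ g)} : ℝ) * 2 ^ k ≤ n * (n * N) := by exact_mod_cast hbad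
    rw [← le_div_iff₀ (by positivity)] at h2
    have h3 : (n : ℝ) * (n * N) / 2 ^ k = (n : ℝ) ^ 2 / 2 ^ k * N := by ring
    linarith
  have hcyc : ∀ g : good, ∃ C : ℝ, ∀ᶠ s in 𝓝[>] (1 : ℝ),
      |frobSum M (g : M ≃ₐ[ℚ] M) s + Real.log (s - 1)| ≤ C := by
    rintro ⟨g, hg⟩
    obtain ⟨hgF, hgn⟩ := Finset.mem_filter.mp hg
    refine frobSum_add_log_bounded hζ fun h hh hχ => hjoint h ?_ hχ
    obtain ⟨j, rfl⟩ := mem_powers_iff_mem_zpowers.mpr hh
    simp only [map_pow] at hχ ⊢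
    rw [(Finset.mem_filter.mp hgF).2]
    refine orderOf_dvd_iff_pow_eq_one.mp ?_
    exact (orderOf_dvd_natCard σ).trans (hgn.trans (orderOf_dvd_of_pow_eq_one hχ))
  choose C hC using hcyc
  obtain ⟨N₁, hN₁, hinM⟩ := Density.exists_ne_zero_inertia_eq_bot M
  obtain ⟨N₂, hN₂, hinL⟩ := Density.exists_ne_zero_inertia_eq_bot L
  let U : Finset Nat.Primes := (N₁.primeFactors ∪ N₂.primeFactors).subtype Nat.Prime
  set B : ℝ := ∑ p ∈ U, |(∑ g ∈ F, (frobWeight M g p : ℝ)) - N * (frobWeight L σ p : ℝ)|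
  refine ⟨(B + ∑ g, C g) / N, ?_⟩
  have h2' : ∀ᶠ s in 𝓝[>] (1 : ℝ), s < 2 :=
    nhdsWithin_le_nhds (eventually_lt_nhds (by norm_num))
  filter_upwards [self_mem_nhdsWithin, h2', eventually_all.mpr hC] with s (hs : 1 < s) hs2 hCs
  have hΛ : 0 ≤ -Real.log (s - 1) :=
    neg_nonneg.mpr (Real.log_nonpos (by linarith) (by linarith))
  have h1 : |(∑ g ∈ F, frobSum M g s) - N * frobSum L σ s| ≤ B := by
    simp only [frobSum, ← tsum_mul_left]
    rw [← Summable.tsum_finsetSum fun g _ => summable_frobTerm g hs]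
    simp only [← Finset.sum_mul, ← mul_assoc]
    refine abs_primeTsum_sub_le U (fun p hp => ?_) (by linarith) ?_ ?_
    · have hp' := not_or.mp fun h => hp (Finset.mem_subtype.mpr (Finset.mem_union.mpr h))
      rw [← Nat.cast_sum, sum_frobWeight_fiber
        (hinM p p.2 fun h => hp'.1 (Nat.mem_primeFactors.mpr ⟨p.2, h, hN₁⟩))
        (hinL p p.2 fun h => hp'.2 (Nat.mem_primeFactors.mpr ⟨p.2, h, hN₂⟩)) σ, Nat.cast_mul]
    · exact (summable_sum fun g (_ : g ∈ F) => summable_frobTerm g hs).congr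
        fun p => (Finset.sum_mul _ _ _).symm
    · exact ((summable_frobTerm σ hs).mul_left (N : ℝ)).congr fun p => (mul_assoc _ _ _).symm
  have h3 : (#good : ℝ) * -Real.log (s - 1) - ∑ g, C g ≤ ∑ g ∈ F, frobSum M g s := by
    refine le_trans ?_ (Finset.sum_le_sum_of_subset_of_nonneg (s := good) (Finset.filter_subset _ _)
      fun g _ _ => frobSum_nonneg g s)
    rw [← Finset.sum_coe_sort good (fun g => frobSum M g s), ← Fintype.card_coe good,
      ← Finset.card_univ, ← nsmul_eq_mul, ← Finset.sum_const, ← Finset.sum_sub_distrib]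
    exact Finset.sum_le_sum fun g _ => by linarith [(abs_le.mp (hCs g)).1]
  have h4 : (1 - (n : ℝ) ^ 2 / 2 ^ k) * -Real.log (s - 1) * N ≤ #good * -Real.log (s - 1) := by
    calc _ = (1 - (n : ℝ) ^ 2 / 2 ^ k) * N * -Real.log (s - 1) := by ring
      _ ≤ _ := mul_le_mul_of_nonneg_right hgood hΛ
  have h5 := (abs_le.mp h1).2
  rw [sub_le_iff_le_add, ← sub_le_iff_le_add', le_div_iff₀ (by exact_mod_cast hN), sub_mul]
  linarith

lemma tendsto_neg_log_sub_one :
    Tendsto (fun s : ℝ => -Real.log (s - 1)) (𝓝[>] 1) atTop := by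
  refine tendsto_neg_atBot_atTop.comp (Real.tendsto_log_nhdsGT_zero.comp ?_)
  refine tendsto_nhdsWithin_iff.mpr ⟨?_, eventually_nhdsWithin_of_forall fun s hs =>
    sub_pos.mpr (Set.mem_Ioi.mp hs)⟩
  have h : Tendsto (fun s : ℝ => s - 1) (𝓝 1) (𝓝 (1 - 1)) := tendsto_id.sub tendsto_const_nhds
  rw [sub_self] at h
  exact h.mono_left nhdsWithin_le_nhds

/-- Every Frobenius sum is asymptotic to `-log (s - 1)`. -/
theorem tendsto_frobSum_div_log (σ : L ≃ₐ[ℚ] L) :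
    Tendsto (fun s : ℝ => frobSum L σ s / -Real.log (s - 1)) (𝓝[>] 1) (𝓝 1) := by
  rw [Metric.tendsto_nhds]
  intro ε hε
  set n : ℕ := Nat.card (L ≃ₐ[ℚ] L)
  have hn : (0 : ℝ) < n := Nat.cast_pos.mpr Nat.card_pos
  obtain ⟨k, hk⟩ : ∃ k : ℕ, (n : ℝ) * ((n : ℝ) ^ 2 / 2 ^ k) < ε / 2 := by
    obtain ⟨k, hk⟩ := exists_pow_lt_of_lt_one (x := ε / 2 / (n : ℝ) ^ 3) (y := (1 / 2 : ℝ))
      (by positivity) (by norm_num)
    refine ⟨k, ?_⟩
    rw [one_div, inv_pow, lt_div_iff₀ (by positivity)] at hk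
    calc (n : ℝ) * ((n : ℝ) ^ 2 / 2 ^ k) = (2 ^ k)⁻¹ * (n : ℝ) ^ 3 := by ring
      _ < ε / 2 := hk
  choose C hC using fun τ : L ≃ₐ[ℚ] L => exists_le_frobSum L τ k
  obtain ⟨C₀, hC₀⟩ := sum_frobSum_add_log_bounded L
  set D : ℝ := |C₀| + ∑ τ, |C τ|
  filter_upwards [eventually_all.mpr hC, hC₀,
    tendsto_neg_log_sub_one.eventually_gt_atTop (max 1 (2 * D / ε))] with s hs hs0 hbig
  obtain ⟨hb1, hb2⟩ := max_lt_iff.mp hbig
  set Λ := -Real.log (s - 1)
  set δ := (n : ℝ) ^ 2 / 2 ^ k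
  have hδ : 0 ≤ δ := by positivity
  have hΛ : 0 < Λ := zero_lt_one.trans hb1
  have hlow : Λ - δ * Λ - C σ ≤ frobSum L σ s := by linarith [hs σ]
  have hup : frobSum L σ s ≤ Λ + (n : ℝ) * δ * Λ + D := by
    have h1 := Finset.sum_le_sum (s := (Finset.univ : Finset (L ≃ₐ[ℚ] L)).erase σ)
      fun τ _ => hs τ
    rw [Finset.sum_sub_distrib, Finset.sum_const, nsmul_eq_mul,
      Finset.card_erase_of_mem (Finset.mem_univ σ), Finset.card_univ] at h1
    have hn' : ((Fintype.card (L ≃ₐ[ℚ] L) - 1 : ℕ) : ℝ) = (n : ℝ) - 1 := by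
      rw [Nat.cast_sub Fintype.card_pos, Nat.cast_one]
      simp [n, Nat.card_eq_fintype_card]
    rw [hn'] at h1
    have h2 := (abs_le.mp hs0).2
    rw [← Finset.add_sum_erase _ _ (Finset.mem_univ σ)] at h2
    have h3 : ∑ τ ∈ (Finset.univ : Finset (L ≃ₐ[ℚ] L)).erase σ, C τ ≤ ∑ τ, |C τ| :=
      (Finset.sum_le_sum fun τ _ => le_abs_self (C τ)).trans
        (Finset.sum_le_sum_of_subset_of_nonneg (Finset.erase_subset _ _) fun _ _ _ => abs_nonneg _)
    have h4 : 0 ≤ δ * Λ := by positivity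
    nlinarith [le_abs_self C₀]
  have hCD : C σ ≤ D :=
    ((le_abs_self _).trans (Finset.single_le_sum (f := fun τ => |C τ|) (fun _ _ => abs_nonneg _)
      (Finset.mem_univ σ))).trans (le_add_of_nonneg_left (abs_nonneg _))
  have hD : 2 * D < ε * Λ := (div_lt_iff₀' hε).mp hb2
  have hn1 : (1 : ℝ) ≤ n := by exact_mod_cast Nat.card_pos (α := L ≃ₐ[ℚ] L)
  have hδn : δ * Λ ≤ (n : ℝ) * δ * Λ :=
    mul_le_mul_of_nonneg_right (le_mul_of_one_le_left hδ hn1) hΛ.le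
  have hεΛ : (n : ℝ) * δ * Λ ≤ ε / 2 * Λ := mul_le_mul_of_nonneg_right hk.le hΛ.le
  rw [Real.dist_eq, div_sub_one hΛ.ne', abs_div, abs_of_pos hΛ, div_lt_iff₀ hΛ, abs_sub_lt_iff]
  constructor <;> linarith

end FermatLib.Galois.Chebotarev
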