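import Mathlib.RingTheory.Frobenius
import Mathlib.NumberTheory.NumberField.Basic
import Mathlib.Analysis.SpecialFunctions.Pow.Real
import Mathlib.Data.Nat.Prime.Basic

/-!
# Vocabulary for the Chebotarev density theorem
-/

set_option autoImplicit false

open scoped NumberField

namespace FermatLib.Galois.Chebotarev

variable (L : Type*) [Field L] [NumberField L]

/-- `g` is the Frobenius element of an unramified prime of `L` over `p`. -/
def IsFrobeniusPrime (g : L ≃ₐ[ℚ] L) (p : ℕ) : Prop :=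
  ∃ Q : Ideal (𝓞 L), Q.IsPrime ∧ (p : 𝓞 L) ∈ Q ∧ Q.inertia (L ≃ₐ[ℚ] L) = ⊥ ∧
    IsArithFrobAt ℤ g Q

/-- The unramified primes with a Frobenius element in `X`. -/
def frobeniusPrimes (X : Set (L ≃ₐ[ℚ] L)) : Set Nat.Primes :=
  {p | ∃ g ∈ X, IsFrobeniusPrime L g p}

/-- The partial prime zeta sum of a set of primes. -/
noncomputable def primeSum (P : Set Nat.Primes) (s : ℝ) : ℝ :=
  ∑' p : P, ((p : Nat.Primes) : ℝ) ^ (-s)

end FermatLib.Galois.Chebotarev
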