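import Fermat.Agent.Galois.Chebotarev.ClassTerms

/-!
# Twisted zeta sums through elements of ideals
-/

set_option autoImplicit false

open scoped NumberField Topology nonZeroDivisors Classical
open NumberField NumberField.mixedEmbedding NumberField.Units Filter Finset

namespace FermatLib.Galois.Chebotarev

variable (K : Type*) [Field K] [NumberField K] {m : ℕ} [NeZero m]

section Class

variable {K}

lemma tsum_elemTerm (ψ : DirichletCharacter ℂ m) (J A : (Ideal (𝓞 K))⁰) {s : ℝ} (hs : 1 < s) :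
    ∑' x : ((J : Ideal (𝓞 K)) * (A : Ideal (𝓞 K)) : Ideal (𝓞 K)),
        elemTerm ψ (Ideal.absNorm (J : Ideal (𝓞 K))) s (x : 𝓞 K) =
      (torsionOrder K : ℂ) * ψ ((Ideal.absNorm (A : Ideal (𝓞 K)) : ℕ) : ZMod m) *
        (((Ideal.absNorm ((J : Ideal (𝓞 K)) * (A : Ideal (𝓞 K))) : ℝ) ^ (-s) : ℝ) : ℂ) *
        ∑' I : Ideal (𝓞 K),
          if I ≠ ⊥ ∧ (I * ((J : Ideal (𝓞 K)) * (A : Ideal (𝓞 K)))).IsPrincipal then idealTerm ψ s I else 0 := by
  set B : Ideal (𝓞 K) := (J : Ideal (𝓞 K)) * A with hB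
  have hB0 : B ≠ ⊥ := mul_ne_zero (nonZeroDivisors.coe_ne_zero J) (nonZeroDivisors.coe_ne_zero A)
  let 𝓘 : Set (Ideal (𝓞 K)) := {I | I ≠ ⊥ ∧ (I * B).IsPrincipal}
  choose gen hgen using fun I : 𝓘 => (Submodule.isPrincipal_iff _).mp I.2.2
  have hgen' : ∀ I : 𝓘, Ideal.span {gen I} = (I : Ideal (𝓞 K)) * B := fun I => (hgen I).symm
  have hg0 : ∀ I : 𝓘, gen I ≠ 0 := fun I h0 => by
    have := hgen' I
    rw [h0, Ideal.span_singleton_eq_bot.mpr rfl, eq_comm] at this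
    exact mul_ne_zero I.2.1 hB0 this
  have hmemB : ∀ (I : 𝓘) (u : (𝓞 K)ˣ), (u : 𝓞 K) * gen I ∈ B := fun I u =>
    Ideal.mul_mem_left B _ (SetLike.le_def.mp ((hgen' I).le.trans Ideal.mul_le_right)
      (Ideal.mem_span_singleton_self (gen I)))
  let f : 𝓘 × (𝓞 K)ˣ → B := fun Iu => ⟨(Iu.2 : 𝓞 K) * gen Iu.1, hmemB Iu.1 Iu.2⟩
  have hspan : ∀ Iu : 𝓘 × (𝓞 K)ˣ, Ideal.span {(f Iu : 𝓞 K)} = (Iu.1 : Ideal (𝓞 K)) * B :=
    fun Iu => (Ideal.span_singleton_mul_left_unit Iu.2.isUnit _).trans (hgen' Iu.1)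
  have hinj : Function.Injective f := by
    intro a b h
    have h1 : (a.1 : Ideal (𝓞 K)) = b.1 := mul_right_cancel₀ hB0 (by rw [← hspan, ← hspan, h])
    have h2 : a.1 = b.1 := Subtype.ext h1
    refine Prod.ext h2 (Units.ext (mul_right_cancel₀ (hg0 b.1) ?_))
    have h3 : (a.2 : 𝓞 K) * gen a.1 = (b.2 : 𝓞 K) * gen b.1 := congrArg Subtype.val h
    rwa [h2] at h3
  have hsupp : Function.support (fun x : B => elemTerm ψ (Ideal.absNorm (J : Ideal (𝓞 K))) s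
      (x : 𝓞 K)) ⊆ Set.range f := by
    intro x hx
    have hx0 : (x : 𝓞 K) ≠ 0 := fun h => hx (by simp only [h]; exact elemTerm_zero ψ _)
    obtain ⟨I, hI⟩ := Ideal.dvd_iff_le.mpr ((Ideal.span_singleton_le_iff_mem B).mpr x.2)
    have hI0 : I ≠ ⊥ := fun h => hx0 (Ideal.span_singleton_eq_bot.mp (by rw [hI, h, Ideal.mul_bot]))
    let I' : 𝓘 := ⟨I, hI0, by rw [mul_comm, ← hI]; exact ⟨⟨_, rfl⟩⟩⟩
    obtain ⟨u, hu⟩ := Ideal.span_singleton_eq_span_singleton.mp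
      ((hgen' I').trans ((mul_comm _ _).trans hI.symm))
    exact ⟨(I', u), Subtype.ext (by simp only [f]; rw [mul_comm]; exact hu)⟩
  rw [← hinj.tsum_eq hsupp]
  have hsum : Summable fun Iu : 𝓘 × (𝓞 K)ˣ =>
      elemTerm ψ (Ideal.absNorm (J : Ideal (𝓞 K))) s (f Iu : 𝓞 K) :=
    ((summable_elemTerm ψ _ hs).comp_injective (Subtype.val_injective.comp hinj))
  rw [hsum.tsum_prod, ← tsum_mul_left]
  simp only [mul_ite, mul_zero]
  have hR : ∀ I : Ideal (𝓞 K), (if I ≠ ⊥ ∧ (I * B).IsPrincipal then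
      (torsionOrder K : ℂ) * ψ ((Ideal.absNorm (A : Ideal (𝓞 K)) : ℕ) : ZMod m) *
        (((Ideal.absNorm B : ℝ) ^ (-s) : ℝ) : ℂ) * idealTerm ψ s I else 0) =
      𝓘.indicator (fun I => (torsionOrder K : ℂ) * ψ ((Ideal.absNorm (A : Ideal (𝓞 K)) : ℕ) : ZMod m) *
        (((Ideal.absNorm B : ℝ) ^ (-s) : ℝ) : ℂ) * idealTerm ψ s I) I := fun I => by
    simp [Set.indicator_apply, 𝓘]
  rw [tsum_congr hR, ← _root_.tsum_subtype 𝓘]
  refine tsum_congr fun I => ?_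
  have hy : mixedEmbedding.norm (mixedEmbedding K (gen I : K)) ≠ 0 := by
    rw [mixedNorm_coe]
    exact Nat.cast_ne_zero.mpr fun h => hg0 I (by
      simpa [Ideal.absNorm_eq_zero_iff] using h)
  have hterm : ∀ u : (𝓞 K)ˣ, elemTerm ψ (Ideal.absNorm (J : Ideal (𝓞 K))) s (f (I, u) : 𝓞 K) =
      (weight K (u • mixedEmbedding K (gen I : K)) : ℂ) *
        (ψ ((Ideal.absNorm (A : Ideal (𝓞 K)) : ℕ) : ZMod m) *
          (((Ideal.absNorm B : ℝ) ^ (-s) : ℝ) : ℂ) * idealTerm ψ s (I : Ideal (𝓞 K))) := by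
    intro u
    have hJ : 0 < Ideal.absNorm (J : Ideal (𝓞 K)) := Nat.pos_of_ne_zero fun h =>
      nonZeroDivisors.coe_ne_zero J (Ideal.absNorm_eq_zero_iff.mp h)
    have hdiv : Ideal.absNorm (Ideal.span {(f (I, u) : 𝓞 K)}) / Ideal.absNorm (J : Ideal (𝓞 K)) =
        Ideal.absNorm (A : Ideal (𝓞 K)) * Ideal.absNorm (I : Ideal (𝓞 K)) := by
      rw [hspan, hB, map_mul, map_mul,
        show Ideal.absNorm (I : Ideal (𝓞 K)) * (Ideal.absNorm (J : Ideal (𝓞 K)) *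
          Ideal.absNorm (A : Ideal (𝓞 K))) = Ideal.absNorm (J : Ideal (𝓞 K)) *
          (Ideal.absNorm (A : Ideal (𝓞 K)) * Ideal.absNorm (I : Ideal (𝓞 K))) by ring,
        Nat.mul_div_cancel_left _ hJ]
    have hw : mixedEmbedding K ((f (I, u) : 𝓞 K) : K) = u • mixedEmbedding K (gen I : K) := by
      rw [unitSMul_smul, ← map_mul]
      rfl
    rw [elemTerm, hdiv, Nat.cast_mul, map_mul, weightRpow, mixedNorm_coe, hspan, map_mul,
      Nat.cast_mul, Real.mul_rpow (Nat.cast_nonneg _) (Nat.cast_nonneg _), hw, idealTerm]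
    push_cast
    ring
  rw [tsum_congr hterm, tsum_mul_right,
    (Complex.hasSum_ofReal.mpr (hasSum_weight_unit_smul K hy)).tsum_eq]
  push_cast
  ring

variable (K) in
/-- An integral ideal in a given class. -/
noncomputable def classRep (C : ClassGroup (𝓞 K)) : (Ideal (𝓞 K))⁰ :=
  (ClassGroup.mk0_surjective C).choose

lemma mk0_classRep (C : ClassGroup (𝓞 K)) : ClassGroup.mk0 (classRep K C) = C :=
  (ClassGroup.mk0_surjective C).choose_spec

lemma sum_classes (ψ : DirichletCharacter ℂ m) (A : (Ideal (𝓞 K))⁰) {s : ℝ} (hs : 1 < s) :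
    ∑ C : ClassGroup (𝓞 K), ∑' I : Ideal (𝓞 K),
        (if I ≠ ⊥ ∧ (I * ((classRep K C : Ideal (𝓞 K)) * (A : Ideal (𝓞 K)))).IsPrincipal then idealTerm ψ s I
          else 0) = twistedZeta K ψ s := by
  rw [← Summable.tsum_finsetSum fun C _ => Summable.of_norm_bounded
    (summable_idealTerm ψ hs).norm fun I => by split <;> simp]
  refine tsum_congr fun I => ?_
  rcases eq_or_ne I ⊥ with rfl | hI
  · simp [idealTerm_bot ψ (by linarith : s ≠ 0)]
  · let I' : (Ideal (𝓞 K))⁰ := ⟨I, mem_nonZeroDivisors_of_ne_zero hI⟩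
    have hiff : ∀ C : ClassGroup (𝓞 K),
        (I ≠ ⊥ ∧ (I * ((classRep K C : Ideal (𝓞 K)) * (A : Ideal (𝓞 K)))).IsPrincipal) ↔
          C = (ClassGroup.mk0 I' * ClassGroup.mk0 A)⁻¹ := by
      intro C
      have h := ClassGroup.mk0_eq_one_iff (R := 𝓞 K)
        (I := I * ((classRep K C : Ideal (𝓞 K)) * (A : Ideal (𝓞 K)))) (I' * (classRep K C * A)).2
      rw [and_iff_right hI, ← h]
      show ClassGroup.mk0 (I' * (classRep K C * A)) = 1 ↔ _
      rw [map_mul, map_mul, mk0_classRep, eq_inv_iff_mul_eq_one, mul_left_comm]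
    simp only [hiff, Finset.sum_ite_eq', Finset.mem_univ, if_true]

end Class


end FermatLib.Galois.Chebotarev
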